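/-
TW program, WP8 (TW primes), step (C) (helper76).

Pure linear algebra / group theory, Mathlib only.  `r : Γ →* M₂(k)` is a two-dimensional matrix
representation of an arbitrary group `Γ` over a field `k` with `2 ≠ 0`.  If no subgroup of index
`1` or `2` of `Γ` has a common eigenvector over an algebraically closed extension `K` of `k`,
then the conjugation action of `Γ` on the trace-zero matrices has no invariant subspace other
than `0` and everything (`eq_bot_or_traceZero_le`).
-/
import Mathlib

set_option autoImplicit false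

namespace Fermat.Agent.TW.Primes.AdIrr76

open Matrix

variable {k : Type*} [Field k] {Γ : Type*} [Group Γ]

/-- The subgroup `G` has a common eigenvector over `K`. -/
def HasCommonEigenvector (K : Type*) [Field K] [Algebra k K]
    (r : Γ →* Matrix (Fin 2) (Fin 2) k) (G : Subgroup Γ) : Prop :=
  ∃ v : Fin 2 → K, v ≠ 0 ∧ ∀ σ ∈ G, ∃ c : K, ((r σ).map (algebraMap k K)) *ᵥ v = c • v

theorem rep_mul_inv (r : Γ →* Matrix (Fin 2) (Fin 2) k) (σ : Γ) : r σ * r σ⁻¹ = 1 := by
  rw [← map_mul, mul_inv_cancel, map_one]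

theorem rep_inv_mul (r : Γ →* Matrix (Fin 2) (Fin 2) k) (σ : Γ) : r σ⁻¹ * r σ = 1 := by
  rw [← map_mul, inv_mul_cancel, map_one]

/-- Two vectors of `K²` with vanishing determinant are proportional. -/
theorem exists_smul_eq_of_det_eq_zero {K : Type*} [Field K] {v w : Fin 2 → K} (hv : v ≠ 0)
    (h : w 0 * v 1 = w 1 * v 0) : ∃ c : K, w = c • v := by
  by_cases h0 : v 0 = 0
  · have h1 : v 1 ≠ 0 := by
      intro h1
      apply hv
      funext i
      fin_cases i
      · exact h0
      · exact h1
    refine ⟨w 1 / v 1, ?_⟩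
    funext i
    fin_cases i
    · simp only [Fin.zero_eta, Pi.smul_apply, smul_eq_mul, h0, mul_zero]
      rw [h0, mul_zero] at h
      rcases mul_eq_zero.mp h with h | h
      · exact h
      · exact absurd h h1
    · simp only [Fin.mk_one, Pi.smul_apply, smul_eq_mul]
      field_simp
  · refine ⟨w 0 / v 0, ?_⟩
    funext i
    fin_cases i
    · simp only [Fin.zero_eta, Pi.smul_apply, smul_eq_mul]
      field_simp
    · simp only [Fin.mk_one, Pi.smul_apply, smul_eq_mul]
      field_simp
      linear_combination -h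

/-- The image of a singular `2 × 2` matrix is contained in a line. -/
theorem mulVec_mem_line_of_det_eq_zero {K : Type*} [Field K] {Y : Matrix (Fin 2) (Fin 2) K}
    (hdet : Y.det = 0) {u₀ : Fin 2 → K} (hv : Y *ᵥ u₀ ≠ 0) (u : Fin 2 → K) :
    ∃ c : K, Y *ᵥ u = c • (Y *ᵥ u₀) := by
  apply exists_smul_eq_of_det_eq_zero hv
  rw [Matrix.det_fin_two] at hdet
  simp only [Matrix.mulVec, dotProduct, Fin.sum_univ_two]
  linear_combination (u 0 * u₀ 1 - u 1 * u₀ 0) * hdet

/-- A nonzero matrix moves some vector. -/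
theorem exists_mulVec_ne_zero {K : Type*} [Field K] {Y : Matrix (Fin 2) (Fin 2) K}
    (hY : Y ≠ 0) : ∃ u : Fin 2 → K, Y *ᵥ u ≠ 0 := by
  by_contra hcon
  have hcon' : ∀ u : Fin 2 → K, Y *ᵥ u = 0 := fun u => by
    by_contra hu
    exact hcon ⟨u, hu⟩
  apply hY
  ext i j
  have := congrFun (hcon' (Pi.single j 1)) i
  simpa using this

theorem map_mul_comm_of {K : Type*} [Field K] [Algebra k K]
    {g X : Matrix (Fin 2) (Fin 2) k} {c : k} (h : g * X = c • (X * g)) :
    g.map (algebraMap k K) * X.map (algebraMap k K) =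
      algebraMap k K c • (X.map (algebraMap k K) * g.map (algebraMap k K)) := by
  rw [← Matrix.map_mul, ← Matrix.map_mul, h]
  ext i j
  simp only [Matrix.map_apply, Matrix.smul_apply, smul_eq_mul, map_mul]

theorem eigen_of_comm {K : Type*} [Field K] {g Y : Matrix (Fin 2) (Fin 2) K} {c' : K}
    (hdet : Y.det = 0) {u₀ : Fin 2 → K} (hv : Y *ᵥ u₀ ≠ 0) (hc : g * Y = c' • (Y * g)) :
    ∃ c : K, g *ᵥ (Y *ᵥ u₀) = c • (Y *ᵥ u₀) := by
  obtain ⟨c, hc2⟩ := mulVec_mem_line_of_det_eq_zero hdet hv (g *ᵥ u₀)
  refine ⟨c' * c, ?_⟩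
  rw [Matrix.mulVec_mulVec, hc, Matrix.smul_mulVec, ← Matrix.mulVec_mulVec, hc2, smul_smul]

def centralizerOf (r : Γ →* Matrix (Fin 2) (Fin 2) k) (X : Matrix (Fin 2) (Fin 2) k) :
    Subgroup Γ where
  carrier := {σ | r σ * X = X * r σ}
  one_mem' := by simp
  mul_mem' := by
    intro a b ha hb
    change r a * X = X * r a at ha
    change r b * X = X * r b at hb
    change r (a * b) * X = X * r (a * b)
    rw [map_mul, mul_assoc, hb, ← mul_assoc, ha, mul_assoc]
  inv_mem' := by
    intro a ha
    change r a * X = X * r a at ha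
    change r a⁻¹ * X = X * r a⁻¹
    calc r a⁻¹ * X = r a⁻¹ * X * (r a * r a⁻¹) := by rw [rep_mul_inv, mul_one]
      _ = r a⁻¹ * (X * r a) * r a⁻¹ := by simp only [mul_assoc]
      _ = r a⁻¹ * (r a * X) * r a⁻¹ := by rw [ha]
      _ = (r a⁻¹ * r a) * X * r a⁻¹ := by simp only [mul_assoc]
      _ = X * r a⁻¹ := by rw [rep_inv_mul, one_mul]

theorem mem_centralizerOf (r : Γ →* Matrix (Fin 2) (Fin 2) k) (X : Matrix (Fin 2) (Fin 2) k)
    (σ : Γ) : σ ∈ centralizerOf r X ↔ r σ * X = X * r σ := Iff.rfl

theorem mul_self_of_trace_eq_zero {K : Type*} [Field K] {X : Matrix (Fin 2) (Fin 2) K}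
    (htr : X.trace = 0) : X * X = (-X.det) • (1 : Matrix (Fin 2) (Fin 2) K) := by
  rw [Matrix.trace_fin_two] at htr
  have h11 : X 1 1 = -X 0 0 := by linear_combination htr
  ext i j
  fin_cases i <;> fin_cases j <;>
    simp [Matrix.mul_apply, Fin.sum_univ_two, Matrix.det_fin_two, h11] <;> ring

theorem det_add_smul_one {K : Type*} [Field K] {X : Matrix (Fin 2) (Fin 2) K}
    (htr : X.trace = 0) {s : K} (hs : s * s = -X.det) :
    (X + s • (1 : Matrix (Fin 2) (Fin 2) K)).det = 0 := by
  rw [Matrix.trace_fin_two] at htr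
  rw [Matrix.det_fin_two] at hs ⊢
  simp only [Matrix.add_apply, Matrix.smul_apply, Matrix.one_apply_eq, smul_eq_mul, mul_one,
    Matrix.one_apply_ne, ne_eq, zero_ne_one, one_ne_zero, not_false_eq_true, mul_zero, add_zero]
  have h11 : X 1 1 = -X 0 0 := by linear_combination htr
  rw [h11] at hs ⊢
  linear_combination hs

theorem mul_self_eq_one_of_stable {g g' X : Matrix (Fin 2) (Fin 2) k} (hg : g * g' = 1)
    (htr : X.trace = 0) (hdet : X.det ≠ 0) {c : k} (h : g * X = c • (X * g)) : c * c = 1 := by
  have h1 : g * (X * X) = (c * c) • ((X * X) * g) := by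
    calc g * (X * X) = (g * X) * X := by rw [mul_assoc]
      _ = (c • (X * g)) * X := by rw [h]
      _ = c • (X * (g * X)) := by rw [Matrix.smul_mul, mul_assoc]
      _ = c • (X * (c • (X * g))) := by rw [h]
      _ = (c * c) • ((X * X) * g) := by rw [Matrix.mul_smul, smul_smul, mul_assoc]
  rw [mul_self_of_trace_eq_zero htr] at h1
  simp only [Matrix.mul_smul, Matrix.smul_mul, mul_one, one_mul, smul_smul] at h1
  have h2 : (-X.det - c * c * -X.det) • g = 0 := by
    rw [sub_smul, h1, sub_self]
  rcases smul_eq_zero.mp h2 with h3 | h3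
  · have : X.det * (c * c - 1) = 0 := by linear_combination h3
    rcases mul_eq_zero.mp this with h4 | h4
    · exact absurd h4 hdet
    · linear_combination h4
  · exfalso
    rw [h3, zero_mul] at hg
    exact zero_ne_one hg

/-- A common eigenvector over `k` is a common eigenvector over `K`. -/
theorem hasCommonEigenvector_of_base {K : Type*} [Field K] [Algebra k K]
    (r : Γ →* Matrix (Fin 2) (Fin 2) k) (G : Subgroup Γ) {v : Fin 2 → k} (hv : v ≠ 0)
    (h : ∀ σ ∈ G, ∃ c : k, r σ *ᵥ v = c • v) : HasCommonEigenvector K r G := by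
  refine ⟨fun i => algebraMap k K (v i), ?_, fun σ hσ => ?_⟩
  · intro h0
    apply hv
    funext i
    have := congrFun h0 i
    simpa using this
  · obtain ⟨c, hc⟩ := h σ hσ
    refine ⟨algebraMap k K c, ?_⟩
    funext i
    have := congrArg (algebraMap k K) (congrFun hc i)
    simp only [Matrix.mulVec, dotProduct, Fin.sum_univ_two, Pi.smul_apply, smul_eq_mul, map_add,
      map_mul, Matrix.map_apply] at this ⊢
    exact this

/-- **Stable lines.**  A line of trace-zero matrices stable under conjugation by `r Γ` yields a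
common eigenvector over `K` for `Γ` or for a subgroup of index two. -/
theorem stable_line (h2 : (2 : k) ≠ 0) (K : Type*) [Field K] [Algebra k K] [IsAlgClosed K]
    (r : Γ →* Matrix (Fin 2) (Fin 2) k) {X : Matrix (Fin 2) (Fin 2) k} (hX : X ≠ 0)
    (htr : X.trace = 0) (hst : ∀ σ, ∃ c : k, r σ * X = c • (X * r σ)) :
    HasCommonEigenvector K r ⊤ ∨
      ∃ G : Subgroup Γ, G.index = 2 ∧ HasCommonEigenvector K r G := by
  set f := algebraMap k K with hf
  have hfinj : Function.Injective f := (algebraMap k K).injective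
  set XK : Matrix (Fin 2) (Fin 2) K := X.map f with hXK
  have htrK : XK.trace = 0 := by
    rw [hXK, Matrix.trace_fin_two, Matrix.map_apply, Matrix.map_apply, ← map_add,
      ← Matrix.trace_fin_two, htr, map_zero]
  have hdetK : XK.det = f X.det := by
    rw [hXK, Matrix.det_fin_two, Matrix.det_fin_two]
    simp only [Matrix.map_apply, map_sub, map_mul]
  obtain ⟨s, hs⟩ := IsAlgClosed.exists_eq_mul_self (-XK.det)
  set Y : Matrix (Fin 2) (Fin 2) K := XK + s • (1 : Matrix (Fin 2) (Fin 2) K) with hY
  have hYdet : Y.det = 0 := det_add_smul_one htrK hs.symm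
  have h2K : (2 : K) ≠ 0 := by
    intro h
    apply h2
    apply hfinj
    rw [map_ofNat, h, map_zero]
  have hXK0 : XK ≠ 0 := by
    intro h
    apply hX
    ext i j
    have := congrFun (congrFun h i) j
    rw [hXK, Matrix.map_apply, Matrix.zero_apply] at this
    rw [Matrix.zero_apply]
    exact hfinj (by rw [this, map_zero])
  have hY0 : Y ≠ 0 := by
    intro h
    have h00 := congrFun (congrFun h 0) 0
    have h11 := congrFun (congrFun h 1) 1
    rw [Matrix.trace_fin_two] at htrK
    simp only [hY, Matrix.add_apply, Matrix.smul_apply, Matrix.one_apply_eq, smul_eq_mul, mul_one,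
      Matrix.zero_apply] at h00 h11
    have hs0 : s = 0 := by
      have : (2 : K) * s = 0 := by linear_combination h00 + h11 - htrK
      rcases mul_eq_zero.mp this with h | h
      · exact absurd h h2K
      · exact h
    apply hXK0
    rw [hY, hs0, zero_smul, add_zero] at h
    exact h
  obtain ⟨u₀, hu₀⟩ := exists_mulVec_ne_zero hY0
  by_cases hdet : X.det = 0
  · -- nilpotent case
    left
    have hs0 : s = 0 := by
      rw [hdetK, hdet, map_zero, neg_zero] at hs
      exact (mul_self_eq_zero.mp hs.symm)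
    have hYX : Y = XK := by rw [hY, hs0, zero_smul, add_zero]
    refine ⟨Y *ᵥ u₀, hu₀, fun σ _ => ?_⟩
    obtain ⟨c, hc⟩ := hst σ
    refine eigen_of_comm (c' := f c) hYdet hu₀ ?_
    rw [hYX]
    exact map_mul_comm_of hc
  · -- semisimple case
    have hcomm : ∀ σ ∈ centralizerOf r X, ∃ c : K, (r σ).map f *ᵥ (Y *ᵥ u₀) = c • (Y *ᵥ u₀) := by
      intro σ hσ
      rw [mem_centralizerOf] at hσ
      refine eigen_of_comm (c' := 1) hYdet hu₀ ?_
      have h1 : (r σ).map f * XK = XK * (r σ).map f := by
        rw [hXK, ← Matrix.map_mul, ← Matrix.map_mul, hσ]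
      rw [one_smul, hY, mul_add, add_mul, h1, Matrix.mul_smul, Matrix.smul_mul, mul_one, one_mul]
    by_cases htop : centralizerOf r X = ⊤
    · left
      exact ⟨Y *ᵥ u₀, hu₀, fun σ _ => hcomm σ (htop ▸ Subgroup.mem_top σ)⟩
    · right
      refine ⟨centralizerOf r X, ?_, Y *ᵥ u₀, hu₀, hcomm⟩
      have hsign : ∀ σ, σ ∉ centralizerOf r X → r σ * X = (-1 : k) • (X * r σ) := by
        intro σ hσ
        obtain ⟨c, hc⟩ := hst σ
        have hcc := mul_self_eq_one_of_stable (rep_mul_inv r σ) htr hdet hc
        rcases mul_self_eq_one_iff.mp hcc with h1 | h1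
        · exfalso
          apply hσ
          rw [mem_centralizerOf, hc, h1, one_smul]
        · rw [hc, h1]
      obtain ⟨a, ha⟩ : ∃ a, a ∉ centralizerOf r X := by
        by_contra hcon
        apply htop
        rw [Subgroup.eq_top_iff']
        intro x
        by_contra hx
        exact hcon ⟨x, hx⟩
      rw [Subgroup.index_eq_two_iff_exists_notMem_and]
      refine ⟨a, ha, fun b => ?_⟩
      by_cases hb : b ∈ centralizerOf r X
      · right; exact hb
      · left
        rw [mem_centralizerOf, map_mul, mul_assoc, hsign a ha, Matrix.mul_smul, ← mul_assoc,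
          hsign b hb, Matrix.smul_mul, smul_smul, mul_assoc]
        simp


/-- Commuting trace-zero matrices are proportional. -/
theorem exists_smul_eq_of_commute (h2 : (2 : k) ≠ 0) {X Y : Matrix (Fin 2) (Fin 2) k}
    (hX : X ≠ 0) (htrX : X.trace = 0) (htrY : Y.trace = 0) (h : X * Y = Y * X) :
    ∃ c : k, c • X = Y := by
  rw [Matrix.trace_fin_two] at htrX htrY
  have hX11 : X 1 1 = -X 0 0 := by linear_combination htrX
  have hY11 : Y 1 1 = -Y 0 0 := by linear_combination htrY
  have e00 := congrFun (congrFun h 0) 0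
  have e01 := congrFun (congrFun h 0) 1
  have e10 := congrFun (congrFun h 1) 0
  simp only [Matrix.mul_apply, Fin.sum_univ_two, hX11, hY11] at e00 e01 e10
  have f00 : X 0 1 * Y 1 0 = Y 0 1 * X 1 0 := by linear_combination e00
  have f01 : X 0 0 * Y 0 1 = Y 0 0 * X 0 1 := by
    have : (2 : k) * (X 0 0 * Y 0 1 - Y 0 0 * X 0 1) = 0 := by linear_combination e01
    rcases mul_eq_zero.mp this with h | h
    · exact absurd h h2
    · linear_combination h
  have f10 : X 1 0 * Y 0 0 = Y 1 0 * X 0 0 := by
    have : (2 : k) * (X 1 0 * Y 0 0 - Y 1 0 * X 0 0) = 0 := by linear_combination e10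
    rcases mul_eq_zero.mp this with h | h
    · exact absurd h h2
    · linear_combination h
  by_cases ha : X 0 0 = 0
  · by_cases hb : X 0 1 = 0
    · have hc : X 1 0 ≠ 0 := by
        intro hc
        apply hX
        ext i j
        fin_cases i <;> fin_cases j
        · exact ha
        · exact hb
        · exact hc
        · simp only [Fin.mk_one, Matrix.zero_apply]; rw [hX11, ha, neg_zero]
      have hY00 : Y 0 0 = 0 := by
        rw [ha, mul_zero] at f10
        rcases mul_eq_zero.mp f10 with h | h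
        · exact absurd h hc
        · exact h
      have hY01 : Y 0 1 = 0 := by
        rw [hb, zero_mul] at f00
        rcases mul_eq_zero.mp f00.symm with h | h
        · exact h
        · exact absurd h hc
      refine ⟨Y 1 0 / X 1 0, ?_⟩
      ext i j
      fin_cases i <;> fin_cases j
      · simp [ha, hY00]
      · simp [hb, hY01]
      · simp only [Fin.mk_one, Fin.zero_eta, Matrix.smul_apply, smul_eq_mul]
        field_simp
      · simp [hX11, hY11, ha, hY00]
    · have hY00 : Y 0 0 = 0 := by
        rw [ha, zero_mul] at f01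
        rcases mul_eq_zero.mp f01.symm with h | h
        · exact h
        · exact absurd h hb
      refine ⟨Y 0 1 / X 0 1, ?_⟩
      ext i j
      fin_cases i <;> fin_cases j
      · simp [ha, hY00]
      · simp only [Fin.mk_one, Fin.zero_eta, Matrix.smul_apply, smul_eq_mul]
        field_simp
      · simp only [Fin.mk_one, Fin.zero_eta, Matrix.smul_apply, smul_eq_mul]
        field_simp
        linear_combination -f00
      · simp [hX11, hY11, ha, hY00]
  · refine ⟨Y 0 0 / X 0 0, ?_⟩
    ext i j
    fin_cases i <;> fin_cases j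
    · simp only [Fin.zero_eta, Matrix.smul_apply, smul_eq_mul]
      field_simp
    · simp only [Fin.mk_one, Fin.zero_eta, Matrix.smul_apply, smul_eq_mul]
      field_simp
      linear_combination -f01
    · simp only [Fin.mk_one, Fin.zero_eta, Matrix.smul_apply, smul_eq_mul]
      field_simp
      linear_combination f10
    · simp only [Fin.mk_one, Matrix.smul_apply, smul_eq_mul, hX11, hY11]
      field_simp

/-- The trace-zero matrices. -/
def traceZero (k : Type*) [Field k] : Submodule k (Matrix (Fin 2) (Fin 2) k) :=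
  LinearMap.ker (Matrix.traceLinearMap (Fin 2) k k)

theorem mem_traceZero {X : Matrix (Fin 2) (Fin 2) k} : X ∈ traceZero k ↔ X.trace = 0 := by
  rw [traceZero, LinearMap.mem_ker, Matrix.traceLinearMap_apply]

theorem finrank_traceZero : Module.finrank k (traceZero k) = 3 := by
  have h := LinearMap.finrank_range_add_finrank_ker (Matrix.traceLinearMap (Fin 2) k k)
  have hsurj : LinearMap.range (Matrix.traceLinearMap (Fin 2) k k) = ⊤ := by
    rw [LinearMap.range_eq_top]
    intro c
    refine ⟨!![c, 0; 0, 0], ?_⟩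
    simp [Matrix.trace_fin_two]
  rw [hsurj, finrank_top, Module.finrank_self, Module.finrank_matrix] at h
  simp only [Fintype.card_fin, Module.finrank_self, mul_one] at h
  rw [traceZero]
  omega


/-- Conjugation is compatible with the commutator. -/
theorem conj_commutator {g g' X Y : Matrix (Fin 2) (Fin 2) k} (hg : g' * g = 1) :
    g * (X * Y - Y * X) * g' = (g * X * g') * (g * Y * g') - (g * Y * g') * (g * X * g') := by
  have h1 : ∀ A B : Matrix (Fin 2) (Fin 2) k, (g * A * g') * (g * B * g') = g * (A * B) * g' := by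
    intro A B
    calc (g * A * g') * (g * B * g') = g * A * (g' * g) * B * g' := by simp only [mul_assoc]
      _ = g * (A * B) * g' := by rw [hg, mul_one]; simp only [mul_assoc]
  rw [h1, h1, mul_sub, sub_mul]

/-- **Irreducibility of the adjoint representation.**  If neither `Γ` nor any subgroup of index
two has a common eigenvector over the algebraically closed field `K`, a subspace of the
trace-zero matrices which is stable under conjugation by `r Γ` is `0` or everything. -/
theorem eq_bot_or_forall_mem (h2 : (2 : k) ≠ 0) (K : Type*) [Field K] [Algebra k K]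
    [IsAlgClosed K] (r : Γ →* Matrix (Fin 2) (Fin 2) k)
    (hirr : ¬ HasCommonEigenvector K r ⊤)
    (hirr2 : ∀ G : Subgroup Γ, G.index = 2 → ¬ HasCommonEigenvector K r G)
    (W : Submodule k (Matrix (Fin 2) (Fin 2) k)) (hW : ∀ X ∈ W, X.trace = 0)
    (hst : ∀ σ, ∀ X ∈ W, r σ * X * r σ⁻¹ ∈ W) :
    W = ⊥ ∨ ∀ X : Matrix (Fin 2) (Fin 2) k, X.trace = 0 → X ∈ W := by
  by_cases hW0 : W = ⊥
  · left; exact hW0
  right
  have hline : ∀ Z : Matrix (Fin 2) (Fin 2) k, Z ≠ 0 → Z.trace = 0 →
      ∃ σ, ∀ c : k, r σ * Z ≠ c • (Z * r σ) := by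
    intro Z hZ hZtr
    by_contra hcon
    have hst' : ∀ σ, ∃ c : k, r σ * Z = c • (Z * r σ) := by
      intro σ
      by_contra hσ
      apply hcon
      refine ⟨σ, fun c hc => hσ ⟨c, hc⟩⟩
    rcases stable_line h2 K r hZ hZtr hst' with h | ⟨G, hG, h⟩
    · exact hirr h
    · exact hirr2 G hG h
  obtain ⟨X, hXW, hX0⟩ := Submodule.exists_mem_ne_zero_of_ne_bot hW0
  have hXtr := hW X hXW
  obtain ⟨σ, hσ⟩ := hline X hX0 hXtr
  set Y := r σ * X * r σ⁻¹ with hY
  have hYW : Y ∈ W := hst σ X hXW
  have hYtr := hW Y hYW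
  have hne : ∀ a : k, a • X ≠ Y := by
    intro a ha
    apply hσ a
    calc r σ * X = r σ * X * (r σ⁻¹ * r σ) := by rw [rep_inv_mul, mul_one]
      _ = Y * r σ := by rw [hY]; simp only [mul_assoc]
      _ = a • (X * r σ) := by rw [← ha, Matrix.smul_mul]
  have hli : LinearIndependent k ![X, Y] := (LinearIndependent.pair_iff' hX0).mpr hne
  have hWTZ : W ≤ traceZero k := fun Z hZ => mem_traceZero.mpr (hW Z hZ)
  have hspan : Submodule.span k {X, Y} ≤ W := by
    rw [Submodule.span_le]
    intro Z hZ
    rcases hZ with rfl | rfl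
    · exact hXW
    · exact hYW
  have hfr2 : Module.finrank k (Submodule.span k {X, Y}) = 2 := by
    have := finrank_span_eq_card hli
    rw [Matrix.range_cons_cons_empty] at this
    simpa using this
  have hle3 : Module.finrank k W ≤ 3 := by
    rw [← finrank_traceZero (k := k)]
    exact Submodule.finrank_mono hWTZ
  have hge2 : 2 ≤ Module.finrank k W :=
    le_of_eq_of_le hfr2.symm (Submodule.finrank_mono hspan)
  by_cases h3 : Module.finrank k W = 3
  · have : W = traceZero k :=
      Submodule.eq_of_le_of_finrank_eq hWTZ (by rw [h3, finrank_traceZero])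
    intro Z hZ
    rw [this]
    exact mem_traceZero.mpr hZ
  · exfalso
    have h2' : Module.finrank k W = 2 := by omega
    have hWeq : Submodule.span k {X, Y} = W :=
      Submodule.eq_of_le_of_finrank_eq hspan (by rw [hfr2, h2'])
    set Z := X * Y - Y * X with hZ
    have hZtr : Z.trace = 0 := by
      rw [hZ, Matrix.trace_sub, Matrix.trace_mul_comm, sub_self]
    have hZ0 : Z ≠ 0 := by
      intro h0
      obtain ⟨c, hc⟩ := exists_smul_eq_of_commute h2 hX0 hXtr hYtr (sub_eq_zero.mp h0)
      exact hne c hc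
    obtain ⟨τ, hτ⟩ := hline Z hZ0 hZtr
    have hXτ : r τ * X * r τ⁻¹ ∈ Submodule.span k {X, Y} := hWeq ▸ hst τ X hXW
    have hYτ : r τ * Y * r τ⁻¹ ∈ Submodule.span k {X, Y} := hWeq ▸ hst τ Y hYW
    obtain ⟨a, b, hab⟩ := Submodule.mem_span_pair.mp hXτ
    obtain ⟨c, d, hcd⟩ := Submodule.mem_span_pair.mp hYτ
    apply hτ (a * d - b * c)
    have hconj : r τ * Z * r τ⁻¹ = (a * d - b * c) • Z := by
      rw [hZ, conj_commutator (rep_inv_mul r τ), ← hab, ← hcd]
      simp only [add_mul, mul_add, Matrix.smul_mul, Matrix.mul_smul, smul_sub, sub_smul, smul_smul]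
      have e1 : (a * d) • (X * Y) = (d * a) • (X * Y) := by rw [mul_comm]
      have e2 : (b * c) • (Y * X) = (c * b) • (Y * X) := by rw [mul_comm]
      have e3 : (b * c) • (X * Y) = (c * b) • (X * Y) := by rw [mul_comm]
      have e4 : (a * d) • (Y * X) = (d * a) • (Y * X) := by rw [mul_comm]
      rw [e1, e2, e3, e4, mul_comm c a, mul_comm d b]
      abel
    calc r τ * Z = r τ * Z * (r τ⁻¹ * r τ) := by rw [rep_inv_mul, mul_one]
      _ = (r τ * Z * r τ⁻¹) * r τ := by simp only [mul_assoc]
      _ = (a * d - b * c) • (Z * r τ) := by rw [hconj, Matrix.smul_mul]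

end Fermat.Agent.TW.Primes.AdIrr76
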