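/-
TW program, WP8 (TW primes): the bridge from the Prelude objects to matrices (helper76).

* `matRep ρbar b : G_ℚ →* M₂(k)`, the matrix representation of a `ResidualGaloisRep` in a basis;
* translation of the hypotheses `habs`, `hTW`, `hsplit`, `hdet` of S56 into the matrix statements
  used by `AdIrr76`, `Regular76`, `Sigma76` (`not_hasCommonEigenvector_top`,
  `not_hasCommonEigenvector_of_index_two`, `split_matRep`, `det_eq_one_of_mem_fixRoots`,
  `det_eq_cycloChar`);
* `fixRoots m`, the normal subgroup of `G_ℚ` fixing the `m`-th roots of unity; for `p` odd,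
  `G_ℚ / fixRoots (p ^ n)` is cyclic (`exists_generator_mod_fixRoots`), through the mod `p ^ n`
  cyclotomic character `cycloMod p n`.
-/
import Mathlib
import Fermat.Prelude.Def_GaloisRep_Residual
import Fermat.Prelude.Def_GaloisRep_LocalConditions
import Fermat.Agent.TW.Primes.AdIrr76
import Fermat.Agent.ES.J.CycloChar8
import Fermat.Prelude.Def_ExtCitation_KummerBridge

set_option autoImplicit false

namespace Fermat.Agent.TW.Primes.GQBridge76

open Matrix Polynomial
open Fermat.Agent.TW.Primes.AdIrr76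

local notation "Qb" => AlgebraicClosure ℚ
local notation "GQ" => (AlgebraicClosure ℚ ≃ₐ[ℚ] AlgebraicClosure ℚ)
local notation "M₂" => Matrix (Fin 2) (Fin 2)

section Matrix

variable {k : Type} [Field k] (ρbar : ResidualGaloisRep k)

/-- The matrix representation of `ρbar` in the basis `b`. -/
noncomputable def matRep (b : Module.Basis (Fin 2) k ρbar.V) : GQ →* M₂ k :=
  (LinearMap.toMatrixAlgEquiv b : Module.End k ρbar.V ≃ₐ[k] M₂ k).toAlgHom.toRingHom.toMonoidHom.comp
    ρbar.ρ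

theorem matRep_apply (b : Module.Basis (Fin 2) k ρbar.V) (σ : GQ) :
    matRep ρbar b σ = LinearMap.toMatrix b b (ρbar.ρ σ) := rfl

/-- A basis of `ρbar.V`. -/
noncomputable def someBasis : Module.Basis (Fin 2) k ρbar.V :=
  Module.finBasisOfFinrankEq k ρbar.V ρbar.finrank_eq

variable {ρbar} (b : Module.Basis (Fin 2) k ρbar.V)

theorem charpoly_matRep (σ : GQ) :
    (matRep ρbar b σ).charpoly = LinearMap.charpoly (ρbar.ρ σ) := by
  rw [matRep_apply, LinearMap.charpoly_toMatrix]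

theorem det_matRep (σ : GQ) : (matRep ρbar b σ).det = LinearMap.det (ρbar.ρ σ) := by
  rw [matRep_apply, LinearMap.det_toMatrix]

/-- A common eigenvector of the matrices over `K` gives a stable line of the base change. -/
theorem exists_stable_line_of_hasCommonEigenvector (K : Type) [Field K] [Algebra k K]
    (G : Subgroup GQ) (h : HasCommonEigenvector K (matRep ρbar b) G) :
    ∃ W : Submodule K (ρbar.baseChange K).V,
      (∀ σ ∈ G, ∀ x ∈ W, (ρbar.baseChange K).ρ σ x ∈ W) ∧ W ≠ ⊥ ∧ W ≠ ⊤ := by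
  obtain ⟨v, hv, hG⟩ := h
  set bK : Module.Basis (Fin 2) K (ρbar.baseChange K).V := Algebra.TensorProduct.basis K b with hbK
  set w₀ : (ρbar.baseChange K).V := bK.equivFun.symm v with hw₀
  have hw₀0 : w₀ ≠ 0 := by
    intro h0
    apply hv
    have := congrArg bK.equivFun h0
    rw [hw₀, LinearEquiv.apply_symm_apply, map_zero] at this
    exact this
  have hstab : ∀ σ ∈ G, ∃ c : K, (ρbar.baseChange K).ρ σ w₀ = c • w₀ := by
    intro σ hσ
    obtain ⟨c, hc⟩ := hG σ hσ
    refine ⟨c, ?_⟩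
    apply bK.equivFun.injective
    have h1 : LinearMap.toMatrix bK bK ((ρbar.baseChange K).ρ σ) =
        (matRep ρbar b σ).map (algebraMap k K) := by
      rw [matRep_apply]
      exact LinearMap.toMatrix_baseChange K (ρbar.ρ σ) b b
    have h2 := LinearMap.toMatrix_mulVec_repr bK bK ((ρbar.baseChange K).ρ σ) w₀
    rw [h1] at h2
    have h3 : (bK.repr w₀ : Fin 2 → K) = v := by
      rw [← Module.Basis.equivFun_apply, hw₀, LinearEquiv.apply_symm_apply]
    rw [h3, hc] at h2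
    rw [Module.Basis.equivFun_apply, ← h2, map_smul, Module.Basis.equivFun_apply, h3]
  refine ⟨K ∙ w₀, ?_, ?_, ?_⟩
  · intro σ hσ x hx
    obtain ⟨a, rfl⟩ := Submodule.mem_span_singleton.mp hx
    obtain ⟨c, hc⟩ := hstab σ hσ
    rw [map_smul, hc, smul_smul]
    exact Submodule.smul_mem _ _ (Submodule.mem_span_singleton_self w₀)
  · intro hbot
    apply hw₀0
    have : w₀ ∈ (K ∙ w₀) := Submodule.mem_span_singleton_self w₀
    rw [hbot, Submodule.mem_bot] at this
    exact this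
  · intro htop
    have h1 : Module.finrank K (K ∙ w₀) = 1 := finrank_span_singleton hw₀0
    rw [htop, finrank_top, (ρbar.baseChange K).finrank_eq] at h1
    omega

end Matrix


/-! ### Translation of the hypotheses of S56 -/

section Hyps

variable {k : Type} [Field k] {ρbar : ResidualGaloisRep k} (b : Module.Basis (Fin 2) k ρbar.V)

theorem not_hasCommonEigenvector_top (habs : ρbar.IsAbsolutelyIrreducible) :
    ¬ HasCommonEigenvector (AlgebraicClosure k) (matRep ρbar b) ⊤ := by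
  intro h
  obtain ⟨W, hW, h0, h1⟩ :=
    exists_stable_line_of_hasCommonEigenvector b (AlgebraicClosure k) ⊤ h
  rcases habs W (fun σ x hx => hW σ (Subgroup.mem_top σ) x hx) with h | h
  · exact h0 h
  · exact h1 h

theorem not_hasCommonEigenvector_of_index_two
    (hTW : ∀ (K : Type) [Field K] [Algebra k K] (G : Subgroup GQ), G.index = 2 →
      ∀ V : Submodule K (ρbar.baseChange K).V,
        (∀ σ ∈ G, ∀ x ∈ V, (ρbar.baseChange K).ρ σ x ∈ V) → V = ⊥ ∨ V = ⊤)
    (G : Subgroup GQ) (hG : G.index = 2) :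
    ¬ HasCommonEigenvector (AlgebraicClosure k) (matRep ρbar b) G := by
  intro h
  obtain ⟨W, hW, h0, h1⟩ :=
    exists_stable_line_of_hasCommonEigenvector b (AlgebraicClosure k) G h
  rcases hTW (AlgebraicClosure k) G hG W hW with h | h
  · exact h0 h
  · exact h1 h

theorem split_matRep
    (hsplit : ∀ σ : GQ, ∃ α β : k, LinearMap.charpoly (ρbar.ρ σ) = (X - C α) * (X - C β))
    (σ : GQ) : ∃ α β : k, (matRep ρbar b σ).charpoly = (X - C α) * (X - C β) := by
  obtain ⟨α, β, h⟩ := hsplit σ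
  exact ⟨α, β, by rw [charpoly_matRep, h]⟩

theorem exists_level (ρbar : ResidualGaloisRep k) (b : Module.Basis (Fin 2) k ρbar.V) :
    ∃ L : IntermediateField ℚ Qb, FiniteDimensional ℚ L ∧
      ∀ σ : GQ, (∀ x ∈ L, σ x = x) → matRep ρbar b σ = 1 := by
  obtain ⟨L, hL, h⟩ := ρbar.factorsThroughFiniteLevel
  refine ⟨L, hL, fun σ hσ => ?_⟩
  rw [matRep_apply, h σ hσ]
  exact LinearMap.toMatrix_one b

end Hyps

/-! ### The cyclotomic side -/

section Cyclo

/-- The elements of `G_ℚ` fixing the `m`-th roots of unity. -/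
def fixRoots (m : ℕ) : Subgroup GQ where
  carrier := {σ | ∀ μ : Qb, μ ^ m = 1 → σ μ = μ}
  one_mem' := fun _ _ => rfl
  mul_mem' := by
    intro a b ha hb μ hμ
    rw [AlgEquiv.mul_apply, hb μ hμ, ha μ hμ]
  inv_mem' := by
    intro a ha μ hμ
    have := ha μ hμ
    calc a⁻¹ μ = a⁻¹ (a μ) := by rw [this]
      _ = μ := by rw [← AlgEquiv.mul_apply, inv_mul_cancel, AlgEquiv.one_apply]

theorem mem_fixRoots {m : ℕ} {σ : GQ} : σ ∈ fixRoots m ↔ ∀ μ : Qb, μ ^ m = 1 → σ μ = μ := Iff.rfl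

instance fixRoots_normal (m : ℕ) : (fixRoots m).Normal := by
  refine ⟨fun σ hσ γ μ hμ => ?_⟩
  have h1 : (γ⁻¹ μ) ^ m = 1 := by rw [← map_pow, hμ, map_one]
  rw [AlgEquiv.mul_apply, AlgEquiv.mul_apply, hσ _ h1, ← AlgEquiv.mul_apply, mul_inv_cancel,
    AlgEquiv.one_apply]

variable (p : ℕ) [hp : Fact p.Prime]

open Fermat.Agent.ES.J.CycloChar8 in
/-- The mod `p ^ n` cyclotomic character. -/
noncomputable def cycloMod (n : ℕ) : GQ →* (ZMod (p ^ n))ˣ :=
  (Units.map (PadicInt.toZModPow n : ℤ_[p] →+* ZMod (p ^ n)).toMonoidHom).comp (cyclo p)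

open Fermat.Agent.ES.J.CycloChar8 in
theorem coe_cycloMod (n : ℕ) (σ : GQ) :
    ((cycloMod p n σ : (ZMod (p ^ n))ˣ) : ZMod (p ^ n)) = (cyclo p σ : ℤ_[p]).toZModPow n := rfl

open Fermat.Agent.ES.J.CycloChar8 in
theorem ker_cycloMod_le (n : ℕ) (hn : n ≠ 0) : (cycloMod p n).ker ≤ fixRoots (p ^ n) := by
  intro σ hσ μ hμ
  rw [MonoidHom.mem_ker] at hσ
  have h1 := cyclo_spec p σ μ hμ
  have h2 : (cyclo p σ : ℤ_[p]).toZModPow n = 1 := by
    rw [← coe_cycloMod, hσ]; rfl
  rw [h2, ZMod.val_one_eq_one_mod, Nat.mod_eq_of_lt (Nat.one_lt_pow hn hp.out.one_lt),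
    pow_one] at h1
  exact h1

open Fermat.Agent.ES.J.CycloChar8 in
theorem fixRoots_le_ker_cycloMod (n : ℕ) : fixRoots (p ^ n) ≤ (cycloMod p n).ker := by
  intro σ hσ
  rw [MonoidHom.mem_ker]
  obtain ⟨ζ, hζ⟩ := exists_primitiveRoot p n
  have h1 : σ ζ = ζ ^ 1 := by rw [pow_one]; exact hσ ζ hζ.pow_eq_one
  have h2 := toZModPow_cyclo p hζ h1
  apply Units.ext
  rw [coe_cycloMod, h2]
  simp

/-- The quotient of `G_ℚ` by `fixRoots (p ^ n)` is cyclic (`p` odd). -/
theorem exists_generator_mod_fixRoots (hp2 : p ≠ 2) (n : ℕ) (hn : n ≠ 0) :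
    ∃ γ₀ : GQ, ∀ γ : GQ, ∃ j : ℤ, γ₀ ^ j * γ ∈ fixRoots (p ^ n) := by
  have : IsCyclic (ZMod (p ^ n))ˣ := ZMod.isCyclic_units_of_prime_pow p hp.out hp2 n
  have : IsCyclic (cycloMod p n).range := Subgroup.isCyclic _
  obtain ⟨⟨g, γ₀, rfl⟩, hg⟩ := IsCyclic.exists_generator (α := (cycloMod p n).range)
  refine ⟨γ₀, fun γ => ?_⟩
  have hmem := hg ⟨cycloMod p n γ, γ, rfl⟩
  obtain ⟨j, hj⟩ := Subgroup.mem_zpowers_iff.mp hmem
  have hj' : (cycloMod p n γ₀) ^ j = cycloMod p n γ := by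
    have := congrArg Subtype.val hj
    simpa using this
  refine ⟨-j, ker_cycloMod_le p n hn ?_⟩
  rw [MonoidHom.mem_ker, map_mul, map_zpow, _root_.zpow_neg, hj', inv_mul_cancel]

end Cyclo


/-! ### The determinant -/

section Det

variable {k : Type} [Field k] {ρbar : ResidualGaloisRep k} (b : Module.Basis (Fin 2) k ρbar.V)
  (p : ℕ) [hp : Fact p.Prime]

omit hp in
theorem natCast_eq_zero_of_detIsCyclotomic
    (hdet : (GaloisRepAdic.ofResidualGaloisRep ρbar).DetIsCyclotomic p) : (p : k) = 0 := by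
  have h1 := hdet.1
  have h2 : IsLocalRing.maximalIdeal k = ⊥ :=
    IsLocalRing.isField_iff_maximalIdeal_eq.mp (Field.toIsField k)
  rw [h2, Ideal.mem_bot] at h1
  exact h1

omit hp in
theorem det_eq_natCast_of_detIsCyclotomic
    (hdet : (GaloisRepAdic.ofResidualGaloisRep ρbar).DetIsCyclotomic p) {n : ℕ} (hn : n ≠ 0)
    {σ : GQ} {a : ℕ} (hσ : ∀ μ : Qb, μ ^ p ^ n = 1 → σ μ = μ ^ a) :
    (matRep ρbar b σ).det = (a : k) := by
  have h1 := hdet.2 n σ a hσ
  have h2 : ((p ^ n : ℕ) : k) = 0 := by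
    rw [Nat.cast_pow, natCast_eq_zero_of_detIsCyclotomic p hdet, zero_pow hn]
  rw [h2, Ideal.span_singleton_zero, Ideal.mem_bot, sub_eq_zero] at h1
  rw [det_matRep]
  exact h1

omit hp in
theorem det_eq_one_of_mem_fixRoots
    (hdet : (GaloisRepAdic.ofResidualGaloisRep ρbar).DetIsCyclotomic p) {n : ℕ} (hn : n ≠ 0)
    {σ : GQ} (hσ : σ ∈ fixRoots (p ^ n)) : (matRep ρbar b σ).det = 1 := by
  have := det_eq_natCast_of_detIsCyclotomic b p hdet hn (σ := σ) (a := 1)
    (fun μ hμ => by rw [pow_one]; exact hσ μ hμ)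
  rw [this, Nat.cast_one]

/-- `det ρbar` is the mod `p` cyclotomic character. -/
theorem det_eq_cycloChar [Algebra (ZMod p) k]
    (hdet : (GaloisRepAdic.ofResidualGaloisRep ρbar).DetIsCyclotomic p) (σ : GQ) :
    (matRep ρbar b σ).det = algebraMap (ZMod p) k ((ExtCitation.cycloChar p σ : (ZMod p)ˣ) : ZMod p) := by
  have : NeZero p := ⟨hp.out.ne_zero⟩
  rw [ExtCitation.coe_cycloChar, map_natCast]
  apply det_eq_natCast_of_detIsCyclotomic b p hdet one_ne_zero
  intro μ hμ
  rw [pow_one] at hμ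
  have hμu : IsUnit μ := IsUnit.of_pow_eq_one hμ hp.out.ne_zero
  obtain ⟨u, rfl⟩ := hμu
  have hu : u ∈ rootsOfUnity p Qb := by
    rw [mem_rootsOfUnity]
    exact Units.ext (by simpa using hμ)
  exact modularCyclotomicCharacter.spec Qb (ExtCitation.card_rootsOfUnity_eq_self p)
    (σ : Qb ≃+* Qb) hu

end Det

end Fermat.Agent.TW.Primes.GQBridge76
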