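/-
Program TW (S56), WP8 (helper76): the Chebotarev step.

* `transfer`: if `σ = φ ^ i * η` with `r η = 1`, `ψ η = 0`, then "distinct eigenvalues" and
  "`tr (r · ψ) ≠ 0`" pass from `σ` to `φ`;
* `exists_frobenius`: from such a `σ ∈ fixRoots m` to a Frobenius element `φ` at a place over a
  prime `q ∉ T` (Chebotarev on the normal closure of `L_r L_ψ ℚ(ζ_m)`);
* `dvd_sub_one_of_isFrobeniusAt`: then `q ≡ 1 mod p ^ n` if `m = p ^ n`.
-/
import Mathlib
import Fermat.Agent.TW.Primes.Sigma76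
import Fermat.Agent.TW.Primes.GQBridge76
import Fermat.Agent.ES.GAL.ChebQbar23
import Fermat.Agent.ES.J.CycloChar8

set_option autoImplicit false

namespace Fermat.Agent.TW.Primes.Cheb76

open Matrix Polynomial
open Fermat.Agent.TW.Primes.AdIrr76 Fermat.Agent.TW.Primes.Regular76
  Fermat.Agent.TW.Primes.Sigma76 Fermat.Agent.TW.Primes.GQBridge76

local notation "Qb" => AlgebraicClosure ℚ
local notation "GQ" => (AlgebraicClosure ℚ ≃ₐ[ℚ] AlgebraicClosure ℚ)
local notation "M₂" => Matrix (Fin 2) (Fin 2)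

attribute [local instance] Fermat.Agent.Lib.FrobeniusExists.isGalois_Qbar
  Fermat.Agent.Lib.FrobeniusExists.isIntegral_Qbar

section Abstract

variable {k : Type*} [Field k] {Γ : Type*} [Group Γ] (r : Γ →* M₂ k)

/-- The elements on which the cocycle `ψ` agrees with the coboundary of `X`. -/
def cobSubgroup {ψ : Γ → M₂ k} (hψ : IsCocycle r ψ) (X : M₂ k) : Subgroup Γ where
  carrier := {x | ψ x = tw r x X - X}
  one_mem' := by
    show ψ 1 = tw r 1 X - X
    rw [hψ.map_one, tw_one, sub_self]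
  mul_mem' := by
    intro a b ha hb
    show ψ (a * b) = tw r (a * b) X - X
    have ha' : ψ a = tw r a X - X := ha
    have hb' : ψ b = tw r b X - X := hb
    rw [hψ.map_mul, ha', hb', tw_sub, tw_mul]
    abel
  inv_mem' := by
    intro a ha
    show ψ a⁻¹ = tw r a⁻¹ X - X
    have ha' : ψ a = tw r a X - X := ha
    have h1 := hψ.map_inv a⁻¹
    rw [inv_inv, ha', tw_sub, ← tw_mul, inv_mul_cancel, tw_one] at h1
    rw [← neg_eq_iff_eq_neg] at h1
    rw [← h1]
    abel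

theorem mem_cobSubgroup {ψ : Γ → M₂ k} (hψ : IsCocycle r ψ) (X : M₂ k) (x : Γ) :
    x ∈ cobSubgroup r hψ X ↔ ψ x = tw r x X - X := Iff.rfl

/-- The elements whose image lies in the commutative algebra `k + k N`, `N² = 0`. -/
def nilSubgroup (N : M₂ k) (hN : N * N = 0) : Subgroup Γ where
  carrier := {x | ∃ a c : k, r x = a • (1 : M₂ k) + c • N}
  one_mem' := ⟨1, 0, by simp⟩
  mul_mem' := by
    rintro x y ⟨a, c, hx⟩ ⟨a', c', hy⟩
    refine ⟨a * a', a * c' + c * a', ?_⟩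
    rw [map_mul, hx, hy]
    simp only [add_mul, mul_add, Matrix.smul_mul, Matrix.mul_smul, mul_one, one_mul, hN, smul_zero,
      add_zero, smul_smul, add_smul]
    module
  inv_mem' := by
    rintro x ⟨a, c, hx⟩
    have ha : a ≠ 0 := by
      intro ha
      rw [ha, zero_smul, zero_add] at hx
      have h1 : r x * r x = 0 := by
        rw [hx, Matrix.smul_mul, Matrix.mul_smul, hN, smul_zero, smul_zero]
      have h2 : r x = 0 := by
        calc r x = r x⁻¹ * (r x * r x) := by rw [← mul_assoc, rep_inv_mul, one_mul]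
          _ = 0 := by rw [h1, mul_zero]
      have h3 := rep_mul_inv r x
      rw [h2, zero_mul] at h3
      exact zero_ne_one h3
    refine ⟨a⁻¹, -(c * a⁻¹ * a⁻¹), ?_⟩
    have h4 : r x * (a⁻¹ • (1 : M₂ k) + (-(c * a⁻¹ * a⁻¹)) • N) = 1 := by
      rw [hx]
      simp only [add_mul, mul_add, Matrix.smul_mul, Matrix.mul_smul, mul_one, one_mul, hN,
        smul_zero, add_zero, smul_smul]
      have e1 : a⁻¹ * a = 1 := inv_mul_cancel₀ ha
      have e2 : a⁻¹ * c + -(c * a⁻¹ * a⁻¹) * a = 0 := by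
        field_simp
        ring
      rw [add_assoc, ← add_smul, e1, e2, zero_smul, add_zero, one_smul]
    calc r x⁻¹ = r x⁻¹ * (r x * (a⁻¹ • (1 : M₂ k) + (-(c * a⁻¹ * a⁻¹)) • N)) := by
          rw [h4, mul_one]
      _ = a⁻¹ • (1 : M₂ k) + (-(c * a⁻¹ * a⁻¹)) • N := by
          rw [← mul_assoc, rep_inv_mul, one_mul]

theorem disc_eq_zero_of_mem_nilSubgroup {N : M₂ k} (hN : N * N = 0) (hNtr : N.trace = 0) {x : Γ}
    (hx : x ∈ nilSubgroup r N hN) : disc (r x) = 0 := by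
  obtain ⟨a, c, hx⟩ := hx
  have hdet : N.det = 0 := by
    have := mul_self_of_trace_eq_zero hNtr
    rw [hN] at this
    have h00 := congrFun (congrFun this 0) 0
    simp only [Matrix.zero_apply, Matrix.smul_apply, Matrix.one_apply_eq, smul_eq_mul, mul_one]
      at h00
    exact neg_eq_zero.mp h00.symm
  rw [Matrix.trace_fin_two] at hNtr
  rw [Matrix.det_fin_two] at hdet
  unfold disc
  rw [hx, Matrix.trace_fin_two, Matrix.det_fin_two]
  simp only [Matrix.add_apply, Matrix.smul_apply, Matrix.one_apply_eq, smul_eq_mul, mul_one,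
    Matrix.one_apply_ne, ne_eq, zero_ne_one, one_ne_zero, not_false_eq_true, mul_zero, zero_add]
  have h11 : N 1 1 = -N 0 0 := by linear_combination hNtr
  rw [h11] at hdet ⊢
  linear_combination (-4 * c ^ 2) * hdet

end Abstract


section Transfer

variable {k : Type*} [Field k] {Γ : Type*} [Group Γ] (r : Γ →* M₂ k)

theorem tw_of_det_eq_one {x : Γ} (hx : (r x).det = 1) (X : M₂ k) :
    tw r x X = r x * X * r x⁻¹ := by
  rw [tw, hx, one_smul]

theorem rep_inv_eq_one {η : Γ} (h : r η = 1) : r η⁻¹ = 1 := by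
  have := rep_mul_inv r η
  rwa [h, one_mul] at this

/-- If `disc g = 0` then `g ∈ k + k N` with `N = 2 g - tr g`, `N² = 0`. -/
theorem exists_nil_of_disc_eq_zero (h2 : (2 : k) ≠ 0) {g : M₂ k} (hg : disc g = 0) :
    ∃ N : M₂ k, N * N = 0 ∧ N.trace = 0 ∧ ∃ a c : k, g = a • (1 : M₂ k) + c • N := by
  refine ⟨(2 : k) • g - g.trace • (1 : M₂ k), ?_, ?_, g.trace / 2, 1 / 2, ?_⟩
  · have htr : ((2 : k) • g - g.trace • (1 : M₂ k)).trace = 0 := by
      rw [Matrix.trace_sub, Matrix.trace_smul, Matrix.trace_smul, Matrix.trace_one]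
      simp only [Fintype.card_fin, smul_eq_mul, Nat.cast_ofNat]
      ring
    have hdet : ((2 : k) • g - g.trace • (1 : M₂ k)).det = 0 := by
      unfold disc at hg
      rw [Matrix.trace_fin_two, Matrix.det_fin_two] at hg
      rw [Matrix.det_fin_two, Matrix.trace_fin_two]
      simp only [Matrix.sub_apply, Matrix.smul_apply, Matrix.one_apply_eq, smul_eq_mul, mul_one,
        Matrix.one_apply_ne, ne_eq, zero_ne_one, one_ne_zero, not_false_eq_true, mul_zero,
        sub_zero]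
      linear_combination -hg
    rw [mul_self_of_trace_eq_zero htr, hdet, neg_zero, zero_smul]
  · rw [Matrix.trace_sub, Matrix.trace_smul, Matrix.trace_smul, Matrix.trace_one]
    simp only [Fintype.card_fin, smul_eq_mul, Nat.cast_ofNat]
    ring
  · rw [smul_sub, smul_smul, smul_smul]
    have e1 : (1 : k) / 2 * 2 = 1 := by field_simp
    have e2 : (1 : k) / 2 * g.trace = g.trace / 2 := by ring
    rw [e1, e2, one_smul]
    abel

/-- **Transfer between generators.**  If `σ = φ ^ i * η` with `η` acting trivially and killed by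
`ψ`, the two conditions "distinct eigenvalues" and "`tr (r · ψ) ≠ 0`" pass from `σ` to `φ`. -/
theorem transfer (h2 : (2 : k) ≠ 0) {ψ : Γ → M₂ k} (hψ : IsCocycle r ψ) {σ φ η : Γ} {i : ℤ}
    (hσ : σ = φ ^ i * η) (hη : r η = 1) (hψη : ψ η = 0) (hdetσ : (r σ).det = 1)
    (hdetφ : (r φ).det = 1) (hσd : disc (r σ) ≠ 0) (hσt : (r σ * ψ σ).trace ≠ 0) :
    disc (r φ) ≠ 0 ∧ (r φ * ψ φ).trace ≠ 0 := by
  have hd : disc (r φ) ≠ 0 := by
    intro h0
    obtain ⟨N, hN, hNtr, a, c, hac⟩ := exists_nil_of_disc_eq_zero h2 h0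
    apply hσd
    apply disc_eq_zero_of_mem_nilSubgroup r hN hNtr
    rw [hσ]
    have hφmem : φ ∈ nilSubgroup r N hN := ⟨a, c, hac⟩
    have hηmem : η ∈ nilSubgroup r N hN :=
      ⟨1, 0, by rw [hη, one_smul, zero_smul, add_zero]⟩
    exact mul_mem (zpow_mem hφmem i) hηmem
  refine ⟨hd, fun h0 => ?_⟩
  obtain ⟨X, hXtr, hX⟩ := exists_conj_sub_eq (rep_mul_inv r φ) hd (hψ.trace_eq φ) h0
  apply hσt
  have hφmem : φ ∈ cobSubgroup r hψ X := by
    rw [mem_cobSubgroup, tw_of_det_eq_one r hdetφ]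
    exact hX
  have hηmem : η ∈ cobSubgroup r hψ X := by
    rw [mem_cobSubgroup, hψη, tw, hη, rep_inv_eq_one r hη, Matrix.det_one, one_smul, one_mul,
      mul_one, sub_self]
  have hσmem : σ ∈ cobSubgroup r hψ X := by
    rw [hσ]
    exact mul_mem (zpow_mem hφmem i) hηmem
  rw [mem_cobSubgroup, tw_of_det_eq_one r hdetσ] at hσmem
  rw [hσmem]
  exact trace_mul_conj_sub (rep_inv_mul r σ) X

end Transfer


/-! ### The Chebotarev step -/

section Galois

variable {k : Type*} [Field k] (r : GQ →* M₂ k)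

/-- An automorphism whose restriction to the normal field `N` is trivial fixes `N` pointwise. -/
theorem apply_eq_of_restrictNormalHom_eq_one (N : IntermediateField ℚ Qb) [Normal ℚ N] {η : GQ}
    (h : AlgEquiv.restrictNormalHom N η = 1) {x : Qb} (hx : x ∈ N) : η x = x := by
  have h1 : algebraMap N Qb ((AlgEquiv.restrictNormalHom N η) ⟨x, hx⟩) =
      η (algebraMap N Qb ⟨x, hx⟩) := AlgEquiv.restrictNormal_commutes η N ⟨x, hx⟩
  rw [h] at h1
  exact h1.symm

/-- **Chebotarev step.**  Given `σ` fixing the `m`-th roots of unity, with distinct eigenvalues and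
`tr (r σ · ψ σ) ≠ 0`, there are a prime `q ∉ T`, a place `P` over `q` and a Frobenius element `φ`
at `P` with the same three properties. -/
theorem exists_frobenius (h2 : (2 : k) ≠ 0) {ψ : GQ → M₂ k} (hψ : IsCocycle r ψ) (m : ℕ)
    (hm : m ≠ 0)
    (hrL : ∃ L : IntermediateField ℚ Qb, FiniteDimensional ℚ L ∧
      ∀ σ : GQ, (∀ x ∈ L, σ x = x) → r σ = 1)
    (hψL : ∃ L : IntermediateField ℚ Qb, FiniteDimensional ℚ L ∧
      ∀ g s : GQ, (∀ x ∈ L, s x = x) → ψ (g * s) = ψ g)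
    (hdetE : ∀ σ ∈ fixRoots m, (r σ).det = 1)
    {σ : GQ} (hσE : σ ∈ fixRoots m) (hσd : disc (r σ) ≠ 0) (hσt : (r σ * ψ σ).trace ≠ 0)
    (T : Finset ℕ) :
    ∃ (q : ℕ) (P : ValuationSubring Qb) (φ : GQ), q.Prime ∧ q ∉ T ∧ P.LiesOverPrime q ∧
      P.IsFrobeniusAt φ q ∧ φ ∈ fixRoots m ∧ disc (r φ) ≠ 0 ∧ (r φ * ψ φ).trace ≠ 0 := by
  classical
  obtain ⟨L₁, hL₁, h1⟩ := hrL
  obtain ⟨L₂, hL₂, h2'⟩ := hψL
  have : NeZero m := ⟨hm⟩
  obtain ⟨ζ, hζ⟩ := HasEnoughRootsOfUnity.exists_primitiveRoot Qb m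
  have hζint : IsIntegral ℚ ζ := Algebra.IsIntegral.isIntegral ζ
  have : FiniteDimensional ℚ (IntermediateField.adjoin ℚ {ζ}) :=
    IntermediateField.adjoin.finiteDimensional hζint
  set L : IntermediateField ℚ Qb := L₁ ⊔ L₂ ⊔ IntermediateField.adjoin ℚ {ζ} with hL
  have : FiniteDimensional ℚ (L₁ ⊔ L₂ : IntermediateField ℚ Qb) :=
    IntermediateField.finiteDimensional_sup L₁ L₂
  have : FiniteDimensional ℚ L := IntermediateField.finiteDimensional_sup _ _
  set N : IntermediateField ℚ Qb := IntermediateField.normalClosure ℚ L Qb with hN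
  have hNfin : FiniteDimensional ℚ N := normalClosure.is_finiteDimensional ℚ L Qb
  have hNnorm : Normal ℚ N := normalClosure.normal ℚ L Qb
  have hLN : L ≤ N := IntermediateField.le_normalClosure L
  have hgal : IsGalois ℚ N := ⟨⟩
  have hL₁N : L₁ ≤ N := le_trans (le_trans le_sup_left le_sup_left) hLN
  have hL₂N : L₂ ≤ N := le_trans (le_trans le_sup_right le_sup_left) hLN
  have hζN : ζ ∈ N :=
    hLN ((le_sup_right : IntermediateField.adjoin ℚ {ζ} ≤ L)
      (IntermediateField.mem_adjoin_simple_self ℚ ζ))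
  -- elements fixing `N`
  have hU : ∀ η : GQ, AlgEquiv.restrictNormalHom N η = 1 →
      r η = 1 ∧ ψ η = 0 ∧ η ∈ fixRoots m := by
    intro η hη
    have hfix : ∀ x ∈ N, η x = x := fun x hx => apply_eq_of_restrictNormalHom_eq_one N hη hx
    refine ⟨h1 η fun x hx => hfix x (hL₁N hx), ?_, ?_⟩
    · have := h2' 1 η fun x hx => hfix x (hL₂N hx)
      rw [one_mul, hψ.map_one] at this
      exact this
    · intro μ hμ
      obtain ⟨i, -, rfl⟩ := hζ.eq_pow_of_pow_eq_one hμ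
      rw [map_pow, hfix ζ hζN]
  obtain ⟨q, P, φ, hq, hqT, hP, hφ, hzp⟩ :=
    Fermat.Agent.ES.GAL.ChebQbar23.exists_frobenius_zpowers_eq N
      (AlgEquiv.restrictNormalHom N σ) T
  -- `σ = φ ^ i * η₂`
  have hmem1 : AlgEquiv.restrictNormalHom N σ ∈
      Subgroup.zpowers (AlgEquiv.restrictNormalHom N φ) := by
    rw [hzp]; exact Subgroup.mem_zpowers _
  obtain ⟨i, hi⟩ := Subgroup.mem_zpowers_iff.mp hmem1
  have hmem2 : AlgEquiv.restrictNormalHom N φ ∈
      Subgroup.zpowers (AlgEquiv.restrictNormalHom N σ) := by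
    rw [← hzp]; exact Subgroup.mem_zpowers _
  obtain ⟨j, hj⟩ := Subgroup.mem_zpowers_iff.mp hmem2
  have hη₂ : AlgEquiv.restrictNormalHom N ((φ ^ i)⁻¹ * σ) = 1 := by
    rw [map_mul, map_inv, map_zpow, hi, inv_mul_cancel]
  have hη₁ : AlgEquiv.restrictNormalHom N ((σ ^ j)⁻¹ * φ) = 1 := by
    rw [map_mul, map_inv, map_zpow, hj, inv_mul_cancel]
  obtain ⟨hr₂, hψ₂, -⟩ := hU _ hη₂
  obtain ⟨-, -, hE₁⟩ := hU _ hη₁
  have hφE : φ ∈ fixRoots m := by
    have : φ = σ ^ j * ((σ ^ j)⁻¹ * φ) := by group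
    rw [this]
    exact mul_mem (zpow_mem hσE j) hE₁
  have hσeq : σ = φ ^ i * ((φ ^ i)⁻¹ * σ) := by group
  obtain ⟨hd, ht⟩ := transfer r h2 hψ hσeq hr₂ hψ₂ (hdetE σ hσE) (hdetE φ hφE) hσd hσt
  exact ⟨q, P, φ, hq, hqT, hP, hφ, hφE, hd, ht⟩

open Fermat.Agent.ES.J.CycloChar8 in
/-- A Frobenius element at a place over `q ≠ p` fixing the `p ^ n`-th roots of unity forces
`q ≡ 1 mod p ^ n`. -/
theorem dvd_sub_one_of_isFrobeniusAt (p : ℕ) [Fact p.Prime] {q : ℕ} (hq : q.Prime) (hqp : q ≠ p)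
    {P : ValuationSubring Qb} (hP : P.LiesOverPrime q) {φ : GQ} (hφ : P.IsFrobeniusAt φ q)
    (n : ℕ) (hφE : φ ∈ fixRoots (p ^ n)) : p ^ n ∣ q - 1 := by
  have h1 : cycloMod p n φ = 1 := fixRoots_le_ker_cycloMod p n hφE
  have h2 : ((cycloMod p n φ : (ZMod (p ^ n))ˣ) : ZMod (p ^ n)) = 1 := by rw [h1]; rfl
  rw [coe_cycloMod, cyclo_of_isFrobeniusAt p hq hqp P hP hφ, map_natCast] at h2
  have h3 : ((q - 1 : ℕ) : ZMod (p ^ n)) = 0 := by
    rw [Nat.cast_sub hq.one_le, h2, Nat.cast_one, sub_self]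
  exact (ZMod.natCast_eq_zero_iff _ _).mp h3

end Galois

end Fermat.Agent.TW.Primes.Cheb76
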