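/-
TW program, WP8 (TW primes), step (B) (helper76).

Pure linear algebra / group theory, Mathlib only.  `r : Γ →* M₂(k)` a two-dimensional matrix
representation over a field with `2 ≠ 0`, irreducible over `k`, all of whose elements have their
eigenvalues in `k`; `E` a normal subgroup of `Γ` with cyclic quotient.  Then some element of `E`
has distinct eigenvalues (`exists_regular`): otherwise `r E` is scalar (and `r Γ` is commutative)
or `r E` has a unique stable line, which is then `Γ`-stable.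
-/
import Fermat.Agent.TW.Primes.AdIrr76

set_option autoImplicit false

namespace Fermat.Agent.TW.Primes.Regular76

open Matrix Polynomial
open Fermat.Agent.TW.Primes.AdIrr76

variable {k : Type*} [Field k] {Γ : Type*} [Group Γ]

/-- The discriminant of the characteristic polynomial of a `2 × 2` matrix. -/
def disc (g : Matrix (Fin 2) (Fin 2) k) : k := g.trace ^ 2 - 4 * g.det

/-- The stabiliser of the line spanned by `v`. -/
def lineStab (r : Γ →* Matrix (Fin 2) (Fin 2) k) (v : Fin 2 → k) (hv : v ≠ 0) : Subgroup Γ where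
  carrier := {σ | ∃ c : k, r σ *ᵥ v = c • v}
  one_mem' := ⟨1, by simp⟩
  mul_mem' := by
    rintro a b ⟨c, hc⟩ ⟨d, hd⟩
    refine ⟨d * c, ?_⟩
    rw [map_mul, ← Matrix.mulVec_mulVec, hd, Matrix.mulVec_smul, hc, smul_smul]
  inv_mem' := by
    rintro a ⟨c, hc⟩
    have hc0 : c ≠ 0 := by
      intro h0
      rw [h0, zero_smul] at hc
      apply hv
      have := congrArg (fun w => r a⁻¹ *ᵥ w) hc
      simp only [Matrix.mulVec_mulVec, rep_inv_mul, Matrix.one_mulVec, Matrix.mulVec_zero] at this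
      exact this
    refine ⟨c⁻¹, ?_⟩
    have := congrArg (fun w => c⁻¹ • (r a⁻¹ *ᵥ w)) hc
    simp only [Matrix.mulVec_mulVec, rep_inv_mul, Matrix.one_mulVec, Matrix.mulVec_smul,
      smul_smul, inv_mul_cancel₀ hc0, one_smul] at this
    exact this.symm

theorem mem_lineStab (r : Γ →* Matrix (Fin 2) (Fin 2) k) (v : Fin 2 → k) (hv : v ≠ 0) (σ : Γ) :
    σ ∈ lineStab r v hv ↔ ∃ c : k, r σ *ᵥ v = c • v := Iff.rfl

/-- A split `2 × 2` matrix has an eigenvector. -/
theorem exists_eigenvector {g : Matrix (Fin 2) (Fin 2) k}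
    (h : ∃ α β : k, g.charpoly = (X - C α) * (X - C β)) :
    ∃ v : Fin 2 → k, v ≠ 0 ∧ ∃ c : k, g *ᵥ v = c • v := by
  obtain ⟨α, β, hαβ⟩ := h
  have h0 : (g - α • (1 : Matrix (Fin 2) (Fin 2) k)).det = 0 := by
    have h1 := congrArg (Polynomial.eval α) hαβ
    rw [Matrix.charpoly_fin_two] at h1
    simp only [eval_sub, eval_add, eval_pow, eval_X, eval_mul, eval_C, sub_self, zero_mul] at h1
    rw [Matrix.det_fin_two]
    rw [Matrix.trace_fin_two, Matrix.det_fin_two] at h1
    simp only [Matrix.sub_apply, Matrix.smul_apply, Matrix.one_apply_eq, smul_eq_mul, mul_one,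
      Matrix.one_apply_ne, ne_eq, zero_ne_one, one_ne_zero, not_false_eq_true, mul_zero, sub_zero]
    linear_combination h1
  obtain ⟨v, hv, hv0⟩ := Matrix.exists_mulVec_eq_zero_iff.mpr h0
  refine ⟨v, hv, α, ?_⟩
  rw [Matrix.sub_mulVec, Matrix.smul_mulVec, Matrix.one_mulVec, sub_eq_zero] at hv0
  exact hv0

/-- `X h X = tr(X h) X - det X adj h` for `2 × 2` matrices. -/
theorem mul_mul_self (X h : Matrix (Fin 2) (Fin 2) k) :
    X * h * X = (X * h).trace • X - X.det • h.adjugate := by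
  ext i j
  fin_cases i <;> fin_cases j <;>
    simp [Matrix.mul_apply, Fin.sum_univ_two, Matrix.trace_fin_two, Matrix.det_fin_two,
      Matrix.adjugate_fin_two] <;> ring

/-- Cayley–Hamilton in traces: `tr(g² h) = tr g · tr(g h) - det g · tr h`. -/
theorem trace_sq_mul (g h : Matrix (Fin 2) (Fin 2) k) :
    (g * g * h).trace = g.trace * (g * h).trace - g.det * h.trace := by
  simp only [Matrix.trace_fin_two, Matrix.mul_apply, Fin.sum_univ_two, Matrix.det_fin_two]
  ring

/-- The kernel of a nonzero `2 × 2` matrix is at most a line. -/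
theorem mem_line_of_mulVec_eq_zero {Y : Matrix (Fin 2) (Fin 2) k} (hY : Y ≠ 0)
    {v w : Fin 2 → k} (hv : v ≠ 0) (h1 : Y *ᵥ v = 0) (h2 : Y *ᵥ w = 0) : ∃ c : k, w = c • v := by
  apply exists_smul_eq_of_det_eq_zero hv
  by_contra hD
  apply hY
  have hD' : w 0 * v 1 - w 1 * v 0 ≠ 0 := sub_ne_zero.mpr hD
  have e1 := fun i => congrFun h1 i
  have e2 := fun i => congrFun h2 i
  simp only [Matrix.mulVec, dotProduct, Fin.sum_univ_two, Pi.zero_apply] at e1 e2
  ext i j
  rw [Matrix.zero_apply]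
  have hi0 : Y i 0 * (w 0 * v 1 - w 1 * v 0) = 0 := by
    linear_combination v 1 * e2 i - w 1 * e1 i
  have hi1 : Y i 1 * (w 0 * v 1 - w 1 * v 0) = 0 := by
    linear_combination w 0 * e1 i - v 0 * e2 i
  fin_cases j
  · exact (mul_eq_zero.mp hi0).resolve_right hD'
  · exact (mul_eq_zero.mp hi1).resolve_right hD'

/-- The key computation for step (B): three vanishing discriminants force
`2 tr(g₀ h) = tr g₀ tr h`. -/
theorem two_mul_trace_mul (h2 : (2 : k) ≠ 0) {g₀ h : Matrix (Fin 2) (Fin 2) k}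
    (hg₀ : g₀.det ≠ 0) (d0 : disc g₀ = 0) (d1 : disc h = 0) (d2 : disc (g₀ * h) = 0)
    (d3 : disc (g₀ * g₀ * h) = 0) : 2 * (g₀ * h).trace = g₀.trace * h.trace := by
  have h4 : (4 : k) ≠ 0 := by
    have : (4 : k) = 2 * 2 := by norm_num
    rw [this]
    exact mul_ne_zero h2 h2
  unfold disc at d0 d1 d2 d3
  rw [Matrix.det_mul] at d2
  rw [trace_sq_mul, Matrix.det_mul, Matrix.det_mul] at d3
  set a := g₀.trace
  set d := g₀.det
  set T := h.trace
  set D := h.det
  set S := (g₀ * h).trace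
  -- `a ^ 2 = 4 d`, `T ^ 2 = 4 D`, `S ^ 2 = 4 d D`, `(a S - d T) ^ 2 = 4 d ^ 2 D`
  have ha0 : a ≠ 0 := by
    intro ha
    rw [ha] at d0
    have : (4 : k) * d = 0 := by linear_combination -d0
    rcases mul_eq_zero.mp this with h | h
    · exact h4 h
    · exact hg₀ h
  -- `a * S * T = 2 * a ^ 2 * D`
  have key : a * (S * T - 2 * a * D) = 0 := by
    have e : (2 : k) * d * (a * (S * T - 2 * a * D)) = 0 := by
      linear_combination (-1 : k) * d3 + a ^ 2 * d2 + d ^ 2 * d1
    rcases mul_eq_zero.mp e with h | h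
    · exact absurd h (mul_ne_zero h2 hg₀)
    · exact h
  have key2 : S * T = 2 * a * D := by
    rcases mul_eq_zero.mp key with h | h
    · exact absurd h ha0
    · linear_combination h
  -- `(2 S - a T) ^ 2 = 0`
  have hsq : (2 * S - a * T) ^ 2 = 0 := by
    linear_combination 4 * d2 + (a ^ 2) * d1 - 4 * a * key2 - 4 * D * d0
  have := pow_eq_zero_iff (two_ne_zero) |>.mp hsq
  linear_combination this

/-- **Step (B).**  Let `E` be a normal subgroup of `Γ` with cyclic quotient.  If `r` is irreducible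
and every `r σ` has its eigenvalues in `k`, some element of `E` has distinct eigenvalues. -/
theorem exists_regular (h2 : (2 : k) ≠ 0) (r : Γ →* Matrix (Fin 2) (Fin 2) k)
    (hirr : ¬ ∃ v : Fin 2 → k, v ≠ 0 ∧ ∀ σ, ∃ c : k, r σ *ᵥ v = c • v)
    (hsplit : ∀ σ, ∃ α β : k, (r σ).charpoly = (X - C α) * (X - C β))
    (E : Subgroup Γ) [hEn : E.Normal] (hcyc : ∃ γ₀ : Γ, ∀ γ : Γ, ∃ j : ℤ, γ₀ ^ j * γ ∈ E) :
    ∃ σ ∈ E, disc (r σ) ≠ 0 := by
  by_contra hcon
  have hd : ∀ σ ∈ E, disc (r σ) = 0 := by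
    intro σ hσ
    by_contra h
    exact hcon ⟨σ, hσ, h⟩
  by_cases hsc : ∀ σ ∈ E, ∃ c : k, r σ = c • (1 : Matrix (Fin 2) (Fin 2) k)
  · -- all of `r E` is scalar: `r Γ` is commutative
    obtain ⟨γ₀, hγ₀⟩ := hcyc
    obtain ⟨v, hv, c, hc⟩ := exists_eigenvector (hsplit γ₀)
    apply hirr
    refine ⟨v, hv, fun σ => ?_⟩
    have hγ₀mem : γ₀ ∈ lineStab r v hv := ⟨c, hc⟩
    have hE : ∀ η ∈ E, η ∈ lineStab r v hv := by
      intro η hη
      obtain ⟨c', hc'⟩ := hsc η hη
      exact ⟨c', by rw [hc', Matrix.smul_mulVec, Matrix.one_mulVec]⟩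
    obtain ⟨j, hj⟩ := hγ₀ σ
    have hσ : σ = (γ₀ ^ j)⁻¹ * (γ₀ ^ j * σ) := by group
    have hmem : σ ∈ lineStab r v hv := by
      rw [hσ]
      exact mul_mem (inv_mem (zpow_mem hγ₀mem j)) (hE _ hj)
    exact hmem
  · -- a non-scalar element with a double eigenvalue
    have hsc' : ∃ σ₀ ∈ E, ¬ ∃ c : k, r σ₀ = c • (1 : Matrix (Fin 2) (Fin 2) k) := by
      by_contra h
      apply hsc
      intro σ hσ
      by_contra h'
      exact h ⟨σ, hσ, h'⟩
    obtain ⟨σ₀, hσ₀, hns⟩ := hsc'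
    set g₀ := r σ₀ with hg₀
    have hdet0 : g₀.det ≠ 0 := by
      intro h0
      have h1 := congrArg Matrix.det (rep_mul_inv r σ₀)
      rw [Matrix.det_mul, ← hg₀, h0, zero_mul, Matrix.det_one] at h1
      exact zero_ne_one h1
    set N' : Matrix (Fin 2) (Fin 2) k := (2 : k) • g₀ - g₀.trace • (1 : Matrix (Fin 2) (Fin 2) k)
      with hN'
    have hN'0 : N' ≠ 0 := by
      intro h0
      apply hns
      refine ⟨g₀.trace / 2, ?_⟩
      have h1 : (2 : k) • g₀ = g₀.trace • (1 : Matrix (Fin 2) (Fin 2) k) := sub_eq_zero.mp h0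
      calc g₀ = (2 : k)⁻¹ • ((2 : k) • g₀) := by rw [smul_smul, inv_mul_cancel₀ h2, one_smul]
        _ = (g₀.trace / 2) • (1 : Matrix (Fin 2) (Fin 2) k) := by
          rw [h1, smul_smul, div_eq_inv_mul]
    have hN'tr : N'.trace = 0 := by
      rw [hN', Matrix.trace_sub, Matrix.trace_smul, Matrix.trace_smul, Matrix.trace_one]
      simp only [Fintype.card_fin, smul_eq_mul, Nat.cast_ofNat]
      ring
    have hN'det : N'.det = 0 := by
      have hd0 := hd σ₀ hσ₀
      unfold disc at hd0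
      rw [← hg₀, Matrix.trace_fin_two, Matrix.det_fin_two] at hd0
      rw [hN', Matrix.det_fin_two, Matrix.trace_fin_two]
      simp only [Matrix.sub_apply, Matrix.smul_apply, Matrix.one_apply_eq, smul_eq_mul, mul_one,
        Matrix.one_apply_ne, ne_eq, zero_ne_one, one_ne_zero, not_false_eq_true, mul_zero,
        sub_zero]
      linear_combination -hd0
    have hN'sq : N' * N' = 0 := by
      rw [mul_self_of_trace_eq_zero hN'tr, hN'det, neg_zero, zero_smul]
    have hNhN : ∀ τ ∈ E, N' * r τ * N' = 0 := by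
      intro τ hτ
      have d2 := hd (σ₀ * τ) (mul_mem hσ₀ hτ)
      have d3 := hd (σ₀ * σ₀ * τ) (mul_mem (mul_mem hσ₀ hσ₀) hτ)
      rw [map_mul] at d2
      rw [map_mul, map_mul] at d3
      have key := two_mul_trace_mul h2 hdet0 (hd σ₀ hσ₀) (hd τ hτ) d2 d3
      rw [mul_mul_self, hN'det, zero_smul, sub_zero]
      have : (N' * r τ).trace = 0 := by
        rw [hN', sub_mul, Matrix.trace_sub, Matrix.smul_mul, Matrix.smul_mul, Matrix.trace_smul,
          Matrix.trace_smul, one_mul, smul_eq_mul, smul_eq_mul]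
        linear_combination key
      rw [this, zero_smul]
    obtain ⟨u₀, hu₀⟩ := exists_mulVec_ne_zero hN'0
    set v := N' *ᵥ u₀ with hv
    have hN'v : N' *ᵥ v = 0 := by
      rw [hv, Matrix.mulVec_mulVec, hN'sq, Matrix.zero_mulVec]
    have hE : ∀ τ ∈ E, τ ∈ lineStab r v hu₀ := by
      intro τ hτ
      have h1 : N' *ᵥ (r τ *ᵥ v) = 0 := by
        rw [hv, Matrix.mulVec_mulVec, Matrix.mulVec_mulVec, hNhN τ hτ,
          Matrix.zero_mulVec]
      obtain ⟨c, hc⟩ := mem_line_of_mulVec_eq_zero hN'0 hu₀ hN'v h1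
      exact ⟨c, hc⟩
    have huniq : ∀ (w : Fin 2 → k) (μ : k), w ≠ 0 → g₀ *ᵥ w = μ • w → ∃ c : k, w = c • v := by
      intro w μ hw hμ
      have h1 : N' *ᵥ w = (2 * μ - g₀.trace) • w := by
        rw [hN', Matrix.sub_mulVec, Matrix.smul_mulVec, Matrix.smul_mulVec, Matrix.one_mulVec, hμ,
          smul_smul, sub_smul]
      have h3 : (2 * μ - g₀.trace) = 0 := by
        have h4 : N' *ᵥ (N' *ᵥ w) = 0 := by
          rw [Matrix.mulVec_mulVec, hN'sq, Matrix.zero_mulVec]
        rw [h1, Matrix.mulVec_smul, h1, smul_smul] at h4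
        rcases smul_eq_zero.mp h4 with h5 | h5
        · exact mul_self_eq_zero.mp h5
        · exact absurd h5 hw
      rw [h3, zero_smul] at h1
      exact mem_line_of_mulVec_eq_zero hN'0 hu₀ hN'v h1
    apply hirr
    refine ⟨v, hu₀, fun γ => ?_⟩
    have hconj : γ⁻¹ * σ₀ * γ ∈ E := by
      have := hEn.conj_mem σ₀ hσ₀ γ⁻¹
      rwa [inv_inv] at this
    obtain ⟨c, hc⟩ := hE _ hconj
    set w := r γ *ᵥ v with hw
    have hw0 : w ≠ 0 := by
      intro h0
      apply hu₀
      have := congrArg (fun x => r γ⁻¹ *ᵥ x) h0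
      simp only [hw, Matrix.mulVec_mulVec, rep_inv_mul, Matrix.one_mulVec, Matrix.mulVec_zero]
        at this
      exact this
    have hgw : g₀ *ᵥ w = c • w := by
      have e : σ₀ * γ = γ * (γ⁻¹ * σ₀ * γ) := by group
      rw [hw, hg₀, Matrix.mulVec_mulVec, ← map_mul, e, map_mul, ← Matrix.mulVec_mulVec, hc,
        Matrix.mulVec_smul]
    obtain ⟨c', hc'⟩ := huniq w c hw0 hgw
    exact ⟨c', hc'⟩

end Fermat.Agent.TW.Primes.Regular76
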