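/-
TW program, WP8 (TW primes), steps (C)+(D) (helper76).

Pure linear algebra / group theory, Mathlib only.  `r : Γ →* M₂(k)`; the twisted adjoint action
`tw r σ X = det (r σ) • (r σ) X (r σ)⁻¹` on `2 × 2` matrices (this is `ad⁰ ρ̄ (1)` when
`det r` is the mod `p` cyclotomic character).  For a trace-zero cocycle `ψ` which is not a
coboundary, `exists_sigma` produces `σ` in a prescribed normal subgroup `E` with cyclic quotient
(`E` = the elements fixing `μ_{p^n}`) such that `r σ` has distinct eigenvalues and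
`tr (r σ · ψ σ) ≠ 0`; by `trace_mul_conj_sub` the latter implies `ψ σ ∉ (σ - 1) N`, and by
`exists_conj_sub_eq` it is equivalent to it.  The only input left as a hypothesis is the
group-theoretic statement (c): cocycles vanishing on the scalar elements of `E` are coboundaries.
-/
import Fermat.Agent.TW.Primes.Regular76

set_option autoImplicit false

namespace Fermat.Agent.TW.Primes.Sigma76

open Matrix Polynomial
open Fermat.Agent.TW.Primes.AdIrr76 Fermat.Agent.TW.Primes.Regular76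

variable {k : Type*} [Field k] {Γ : Type*} [Group Γ]

/-- The twisted adjoint action `σ · X = det(r σ) • (r σ) X (r σ)⁻¹`. -/
def tw (r : Γ →* Matrix (Fin 2) (Fin 2) k) (σ : Γ) (X : Matrix (Fin 2) (Fin 2) k) :
    Matrix (Fin 2) (Fin 2) k :=
  (r σ).det • (r σ * X * r σ⁻¹)

variable (r : Γ →* Matrix (Fin 2) (Fin 2) k)

theorem tw_one (X : Matrix (Fin 2) (Fin 2) k) : tw r 1 X = X := by
  simp [tw]

theorem tw_mul (σ τ : Γ) (X : Matrix (Fin 2) (Fin 2) k) :
    tw r (σ * τ) X = tw r σ (tw r τ X) := by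
  simp only [tw, _root_.mul_inv_rev, map_mul, Matrix.det_mul, Matrix.mul_smul, Matrix.smul_mul,
    smul_smul, mul_assoc]

theorem tw_add (σ : Γ) (X Y : Matrix (Fin 2) (Fin 2) k) :
    tw r σ (X + Y) = tw r σ X + tw r σ Y := by
  simp only [tw, mul_add, add_mul, smul_add]

theorem tw_sub (σ : Γ) (X Y : Matrix (Fin 2) (Fin 2) k) :
    tw r σ (X - Y) = tw r σ X - tw r σ Y := by
  simp only [tw, mul_sub, sub_mul, smul_sub]

theorem tw_zero (σ : Γ) : tw r σ 0 = 0 := by
  simp [tw]

theorem tw_smul (σ : Γ) (c : k) (X : Matrix (Fin 2) (Fin 2) k) :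
    tw r σ (c • X) = c • tw r σ X := by
  simp only [tw, Matrix.mul_smul, Matrix.smul_mul, smul_smul, mul_comm]

theorem trace_tw (σ : Γ) (X : Matrix (Fin 2) (Fin 2) k) :
    (tw r σ X).trace = (r σ).det * X.trace := by
  rw [tw, Matrix.trace_smul, smul_eq_mul, Matrix.trace_mul_comm, ← mul_assoc, rep_inv_mul,
    one_mul]

theorem det_ne_zero (σ : Γ) : (r σ).det ≠ 0 := by
  intro h0
  have h1 := congrArg Matrix.det (rep_mul_inv r σ)
  rw [Matrix.det_mul, h0, zero_mul, Matrix.det_one] at h1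
  exact zero_ne_one h1

/-- Elements with scalar image and determinant one act trivially. -/
theorem tw_of_scalar {τ : Γ} (hdet : (r τ).det = 1) {c : k}
    (hc : r τ = c • (1 : Matrix (Fin 2) (Fin 2) k)) (X : Matrix (Fin 2) (Fin 2) k) :
    tw r τ X = X := by
  rw [tw, hdet, one_smul]
  have h1 : X * r τ = r τ * X := by rw [hc, Matrix.mul_smul, Matrix.smul_mul, mul_one, one_mul]
  rw [← h1, mul_assoc, rep_mul_inv, mul_one]

/-- Trace-zero cocycles for the twisted adjoint action. -/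
structure IsCocycle (ψ : Γ → Matrix (Fin 2) (Fin 2) k) : Prop where
  trace_eq : ∀ σ, (ψ σ).trace = 0
  map_mul : ∀ σ τ, ψ (σ * τ) = ψ σ + tw r σ (ψ τ)

/-- Coboundaries. -/
def IsCoboundary (ψ : Γ → Matrix (Fin 2) (Fin 2) k) : Prop :=
  ∃ X : Matrix (Fin 2) (Fin 2) k, X.trace = 0 ∧ ∀ σ, ψ σ = tw r σ X - X

variable {r}

theorem IsCocycle.map_one {ψ : Γ → Matrix (Fin 2) (Fin 2) k} (h : IsCocycle r ψ) : ψ 1 = 0 := by
  have := h.map_mul 1 1
  rw [mul_one, tw_one] at this
  exact left_eq_add.mp this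

theorem IsCocycle.map_inv {ψ : Γ → Matrix (Fin 2) (Fin 2) k} (h : IsCocycle r ψ) (σ : Γ) :
    tw r σ (ψ σ⁻¹) = -ψ σ := by
  have := h.map_mul σ σ⁻¹
  rw [mul_inv_cancel, h.map_one] at this
  exact (neg_eq_of_add_eq_zero_right this.symm).symm

/-- Equivariance of a cocycle on elements acting trivially. -/
theorem IsCocycle.map_conj {ψ : Γ → Matrix (Fin 2) (Fin 2) k} (h : IsCocycle r ψ) (γ τ : Γ)
    (hτ : ∀ X, tw r τ X = X) : ψ (γ * τ * γ⁻¹) = tw r γ (ψ τ) := by
  rw [mul_assoc, h.map_mul, h.map_mul, hτ, tw_add, h.map_inv]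
  abel

/-! ### The trace criterion -/

/-- `tr(g (g X g⁻¹ - X)) = 0`. -/
theorem trace_mul_conj_sub {g g' : Matrix (Fin 2) (Fin 2) k} (hg : g' * g = 1)
    (X : Matrix (Fin 2) (Fin 2) k) : (g * (g * X * g' - X)).trace = 0 := by
  rw [mul_sub, Matrix.trace_sub, sub_eq_zero]
  calc (g * (g * X * g')).trace = ((g * (g * X)) * g').trace := by simp only [mul_assoc]
    _ = (g' * (g * (g * X))).trace := Matrix.trace_mul_comm _ _
    _ = (g * X).trace := by rw [← mul_assoc, hg, one_mul]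

/-- `g Z + Z g = tr g • Z` if `tr Z = 0 = tr (g Z)`. -/
theorem mul_add_mul_of_trace {g Z : Matrix (Fin 2) (Fin 2) k} (h1 : Z.trace = 0)
    (h2 : (g * Z).trace = 0) : g * Z + Z * g = g.trace • Z := by
  rw [Matrix.trace_fin_two] at h1
  simp only [Matrix.trace_fin_two, Matrix.mul_apply, Fin.sum_univ_two] at h2
  have h11 : Z 1 1 = -Z 0 0 := by linear_combination h1
  rw [h11] at h2
  ext i j
  fin_cases i <;> fin_cases j <;>
    simp only [Fin.zero_eta, Fin.mk_one, Matrix.add_apply, Matrix.mul_apply, Fin.sum_univ_two,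
      Matrix.smul_apply, smul_eq_mul, Matrix.trace_fin_two, h11] <;>
    first | ring1 | linear_combination h2

/-- Cayley–Hamilton for `2 × 2` matrices. -/
theorem mul_self_eq (g : Matrix (Fin 2) (Fin 2) k) :
    g * g = g.trace • g - g.det • (1 : Matrix (Fin 2) (Fin 2) k) := by
  ext i j
  fin_cases i <;> fin_cases j <;>
    simp [Matrix.mul_apply, Fin.sum_univ_two, Matrix.trace_fin_two, Matrix.det_fin_two] <;> ring

/-- The converse: if `g` has distinct eigenvalues, `tr Y = 0` and `tr (g Y) = 0`, then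
`Y = g X g⁻¹ - X` for a trace-zero `X`. -/
theorem exists_conj_sub_eq {g g' : Matrix (Fin 2) (Fin 2) k} (hg : g * g' = 1)
    (hdisc : disc g ≠ 0) {Y : Matrix (Fin 2) (Fin 2) k} (h1 : Y.trace = 0)
    (h2 : (g * Y).trace = 0) :
    ∃ X : Matrix (Fin 2) (Fin 2) k, X.trace = 0 ∧ Y = g * X * g' - X := by
  obtain ⟨Z, hZ⟩ : ∃ Z, Z = Y * g := ⟨_, rfl⟩
  have hCH := mul_self_eq g
  have hZ1 : Z.trace = 0 := by rw [hZ, Matrix.trace_mul_comm]; exact h2
  have hZ2 : (g * Z).trace = 0 := by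
    have e : (g * Z).trace = ((g * g) * Y).trace := by
      rw [hZ, ← mul_assoc, Matrix.trace_mul_comm, ← mul_assoc]
    rw [e, hCH, sub_mul, Matrix.trace_sub, Matrix.smul_mul, Matrix.smul_mul, Matrix.trace_smul,
      Matrix.trace_smul, one_mul, h2, h1, smul_zero, smul_zero, sub_zero]
  have hanti := mul_add_mul_of_trace hZ1 hZ2
  have e1 : Z * g = g.trace • Z - g * Z := by rw [← hanti]; abel
  -- `g Z g = det g • Z`
  have hgZg : g * (Z * g) = g.det • Z := by
    calc g * (Z * g) = g.trace • (g * Z) - (g * g) * Z := by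
          rw [e1, mul_sub, Matrix.mul_smul, mul_assoc]
      _ = g.det • Z := by
          rw [hCH, sub_mul, Matrix.smul_mul, Matrix.smul_mul, one_mul]
          abel
  have e3 : g * (g * Z) = g.trace • (g * Z) - g.det • Z := by
    rw [← mul_assoc, hCH, sub_mul, Matrix.smul_mul, Matrix.smul_mul, one_mul]
  have e4 : (Z * g) * g = g.trace • (Z * g) - g.det • Z := by
    rw [mul_assoc, hCH, mul_sub, Matrix.mul_smul, Matrix.mul_smul, mul_one]
  have e5 : g.trace • (g * Z) + g.trace • (Z * g) = (g.trace * g.trace) • Z := by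
    rw [← smul_add, hanti, smul_smul]
  have e2 : g * (g * Z - Z * g) - (g * Z - Z * g) * g = disc g • Z := by
    have e7 : (g * Z) * g = g.det • Z := by rw [mul_assoc, hgZg]
    rw [mul_sub, sub_mul, e3, e4, hgZg, e7]
    unfold disc
    calc g.trace • (g * Z) - g.det • Z - g.det • Z - (g.det • Z - (g.trace • (Z * g) - g.det • Z))
        = (g.trace • (g * Z) + g.trace • (Z * g)) - (4 * g.det) • Z := by
          rw [show (4 : k) * g.det = g.det + g.det + g.det + g.det by ring, add_smul, add_smul,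
            add_smul]
          abel
      _ = (g.trace ^ 2 - 4 * g.det) • Z := by rw [e5, sub_smul, pow_two]
  refine ⟨(disc g)⁻¹ • (g * Z - Z * g), ?_, ?_⟩
  · rw [Matrix.trace_smul, Matrix.trace_sub, Matrix.trace_mul_comm, sub_self, smul_zero]
  · -- `Y g = g X - X g`
    have e6 : Y * g = g * ((disc g)⁻¹ • (g * Z - Z * g)) - ((disc g)⁻¹ • (g * Z - Z * g)) * g := by
      rw [Matrix.mul_smul, Matrix.smul_mul, ← smul_sub, e2, smul_smul, inv_mul_cancel₀ hdisc,
        one_smul, hZ]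
    calc Y = Y * g * g' := by rw [mul_assoc, hg, mul_one]
      _ = g * ((disc g)⁻¹ • (g * Z - Z * g)) * g' - ((disc g)⁻¹ • (g * Z - Z * g)) := by
        rw [e6, sub_mul, mul_assoc _ g g', hg, mul_one]

/-! ### Step (D): the choice of `σ` -/

/-- Conjugation as a linear map. -/
def conjLin (g g' : Matrix (Fin 2) (Fin 2) k) :
    Matrix (Fin 2) (Fin 2) k →ₗ[k] Matrix (Fin 2) (Fin 2) k :=
  (LinearMap.mulLeft k g).comp (LinearMap.mulRight k g')

theorem conjLin_apply (g g' X : Matrix (Fin 2) (Fin 2) k) : conjLin g g' X = g * X * g' := by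
  simp [conjLin, mul_assoc]

theorem disc_smul (c : k) (g : Matrix (Fin 2) (Fin 2) k) : disc (c • g) = c ^ 2 * disc g := by
  unfold disc
  rw [Matrix.trace_smul, Matrix.det_smul, Fintype.card_fin, smul_eq_mul]
  ring

/-- **Step (D), abstract form.**  `E` is a normal subgroup of `Γ` with cyclic quotient on which
`det r = 1`.  Let `ψ` be a cocycle for the twisted adjoint action which is not a coboundary, and
assume that cocycles vanishing on the elements of `E` with scalar image are coboundaries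
(the group-theoretic input (c)).  Then there is `σ ∈ E` with distinct eigenvalues and
`tr (r σ · ψ σ) ≠ 0`. -/
theorem exists_sigma (h2 : (2 : k) ≠ 0) (K : Type*) [Field K] [Algebra k K] [IsAlgClosed K]
    (r : Γ →* Matrix (Fin 2) (Fin 2) k)
    (hirr : ¬ HasCommonEigenvector K r ⊤)
    (hirr2 : ∀ G : Subgroup Γ, G.index = 2 → ¬ HasCommonEigenvector K r G)
    (hsplit : ∀ σ, ∃ α β : k, (r σ).charpoly = (X - C α) * (X - C β))
    (E : Subgroup Γ) [hEn : E.Normal] (hcyc : ∃ γ₀ : Γ, ∀ γ : Γ, ∃ j : ℤ, γ₀ ^ j * γ ∈ E)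
    (hdetE : ∀ σ ∈ E, (r σ).det = 1)
    {ψ : Γ → Matrix (Fin 2) (Fin 2) k} (hψ : IsCocycle r ψ)
    (hc : (∀ τ ∈ E, (∃ c : k, r τ = c • (1 : Matrix (Fin 2) (Fin 2) k)) → ψ τ = 0) →
      IsCoboundary r ψ)
    (hnon : ¬ IsCoboundary r ψ) :
    ∃ σ ∈ E, disc (r σ) ≠ 0 ∧ (r σ * ψ σ).trace ≠ 0 := by
  classical
  -- irreducibility over `k`
  have hirrk : ¬ ∃ v : Fin 2 → k, v ≠ 0 ∧ ∀ σ, ∃ c : k, r σ *ᵥ v = c • v := by
    rintro ⟨v, hv, h⟩
    exact hirr (hasCommonEigenvector_of_base r ⊤ hv fun σ _ => h σ)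
  obtain ⟨σ₀, hσ₀E, hσ₀⟩ := exists_regular h2 r hirrk hsplit E hcyc
  -- the elements of `E` with scalar image
  set S : Set (Matrix (Fin 2) (Fin 2) k) :=
    {Y | ∃ τ ∈ E, (∃ c : k, r τ = c • (1 : Matrix (Fin 2) (Fin 2) k)) ∧ Y = ψ τ} with hS
  set W := Submodule.span k S with hW
  have htriv : ∀ τ ∈ E, (∃ c : k, r τ = c • (1 : Matrix (Fin 2) (Fin 2) k)) →
      ∀ X, tw r τ X = X := by
    rintro τ hτ ⟨c, hc⟩ X
    exact tw_of_scalar r (hdetE τ hτ) hc X
  have hWtr : ∀ X ∈ W, X.trace = 0 := by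
    have : W ≤ traceZero k := by
      rw [hW, Submodule.span_le]
      rintro Y ⟨τ, _, _, rfl⟩
      exact mem_traceZero.mpr (hψ.trace_eq τ)
    exact fun X hX => mem_traceZero.mp (this hX)
  have hWst : ∀ σ, ∀ X ∈ W, r σ * X * r σ⁻¹ ∈ W := by
    intro σ
    have : W ≤ W.comap (conjLin (r σ) (r σ⁻¹)) := by
      rw [hW, Submodule.span_le]
      rintro Y ⟨τ, hτ, ⟨c, hc⟩, rfl⟩
      rw [SetLike.mem_coe, Submodule.mem_comap, conjLin_apply]
      have hconj : σ * τ * σ⁻¹ ∈ E := hEn.conj_mem τ hτ σ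
      have hsc : r (σ * τ * σ⁻¹) = c • (1 : Matrix (Fin 2) (Fin 2) k) := by
        rw [map_mul, map_mul, hc, Matrix.mul_smul, Matrix.smul_mul, mul_one, rep_mul_inv]
      have h1 : ψ (σ * τ * σ⁻¹) = tw r σ (ψ τ) := hψ.map_conj σ τ (htriv τ hτ ⟨c, hc⟩)
      have h3 : r σ * ψ τ * r σ⁻¹ = (r σ).det⁻¹ • ψ (σ * τ * σ⁻¹) := by
        rw [h1, tw, smul_smul, inv_mul_cancel₀ (det_ne_zero r σ), one_smul]
      rw [h3]
      exact Submodule.smul_mem _ _ (Submodule.subset_span ⟨_, hconj, ⟨c, hsc⟩, rfl⟩)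
    intro X hX
    have := this hX
    rwa [Submodule.mem_comap, conjLin_apply] at this
  rcases eq_bot_or_forall_mem h2 K r hirr hirr2 W hWtr hWst with hbot | hall
  · -- `ψ` vanishes on the scalar elements of `E`
    exfalso
    apply hnon
    apply hc
    intro τ hτ hsc
    have : ψ τ ∈ W := Submodule.subset_span ⟨τ, hτ, hsc, rfl⟩
    rw [hbot, Submodule.mem_bot] at this
    exact this
  · -- some `ψ τ` has nonzero "diagonal part" with respect to `σ₀`
    set g₀ := r σ₀ with hg₀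
    have hex : ∃ τ ∈ E, (∃ c : k, r τ = c • (1 : Matrix (Fin 2) (Fin 2) k)) ∧
        (g₀ * ψ τ).trace ≠ 0 := by
      by_contra hcon
      have hzero : ∀ τ ∈ E, (∃ c : k, r τ = c • (1 : Matrix (Fin 2) (Fin 2) k)) →
          (g₀ * ψ τ).trace = 0 := by
        intro τ hτ hsc
        by_contra h
        exact hcon ⟨τ, hτ, hsc, h⟩
      have hker : W ≤ LinearMap.ker
          ((Matrix.traceLinearMap (Fin 2) k k).comp (LinearMap.mulLeft k g₀)) := by
        rw [hW, Submodule.span_le]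
        rintro Y ⟨τ, hτ, hsc, rfl⟩
        rw [SetLike.mem_coe, LinearMap.mem_ker, LinearMap.comp_apply, LinearMap.mulLeft_apply,
          Matrix.traceLinearMap_apply]
        exact hzero τ hτ hsc
      have hall' : ∀ X : Matrix (Fin 2) (Fin 2) k, X.trace = 0 → (g₀ * X).trace = 0 := by
        intro X hX
        have := hker (hall X hX)
        rwa [LinearMap.mem_ker, LinearMap.comp_apply, LinearMap.mulLeft_apply,
          Matrix.traceLinearMap_apply] at this
      apply hσ₀
      have e1 := hall' !![0, 1; 0, 0] (by simp [Matrix.trace_fin_two])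
      have e2 := hall' !![0, 0; 1, 0] (by simp [Matrix.trace_fin_two])
      have e3 := hall' !![1, 0; 0, -1] (by simp [Matrix.trace_fin_two])
      simp [Matrix.trace_fin_two, Matrix.mul_apply, Fin.sum_univ_two] at e1 e2 e3
      unfold disc
      rw [Matrix.trace_fin_two, Matrix.det_fin_two, e1, e2]
      have : g₀ 0 0 = g₀ 1 1 := by linear_combination e3
      rw [this]
      ring
    obtain ⟨τ, hτE, ⟨c, hcτ⟩, hτtr⟩ := hex
    by_cases h0 : (g₀ * ψ σ₀).trace = 0
    · refine ⟨τ * σ₀, mul_mem hτE hσ₀E, ?_, ?_⟩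
      · have hc0 : c ≠ 0 := by
          intro hc0
          have := det_ne_zero r τ
          rw [hcτ, hc0, zero_smul, Matrix.det_zero] at this
          exact this rfl
        rw [map_mul, hcτ, Matrix.smul_mul, one_mul, disc_smul]
        exact mul_ne_zero (pow_ne_zero 2 hc0) hσ₀
      · have hc0 : c ≠ 0 := by
          intro hc0
          have := det_ne_zero r τ
          rw [hcτ, hc0, zero_smul, Matrix.det_zero] at this
          exact this rfl
        rw [hψ.map_mul, htriv τ hτE ⟨c, hcτ⟩, map_mul, hcτ, Matrix.smul_mul, one_mul,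
          Matrix.smul_mul, Matrix.trace_smul, mul_add, Matrix.trace_add, ← hg₀, h0, add_zero,
          smul_eq_mul]
        exact mul_ne_zero hc0 hτtr
    · exact ⟨σ₀, hσ₀E, hσ₀, h0⟩

end Fermat.Agent.TW.Primes.Sigma76
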