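/-
Program TW (S56), WP8 (helper76): the trace pairing `Tr_{k/F} tr (Y X)` on `2 × 2` matrices is
perfect on trace-zero matrices (`F ⊆ k` finite separable, `2` invertible).  Mathlib only.
-/
import Mathlib

set_option autoImplicit false

namespace Fermat.Agent.TW.Primes.TraceDual76

open Matrix

local notation "M₂" => Matrix (Fin 2) (Fin 2)

variable (F : Type*) {k : Type*} [Field F] [Field k] [Algebra F k]

/-- The `F`-valued pairing `(Y, X) ↦ Tr_{k/F} (tr (Y X))` on `2 × 2` matrices over `k`. -/
noncomputable def trPair (Y X : M₂ k) : F := Algebra.trace F k (Y * X).trace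

theorem trPair_add_left (Y Y' X : M₂ k) : trPair F (Y + Y') X = trPair F Y X + trPair F Y' X := by
  unfold trPair
  rw [add_mul, Matrix.trace_add, map_add]

theorem trPair_sub_left (Y Y' X : M₂ k) : trPair F (Y - Y') X = trPair F Y X - trPair F Y' X := by
  unfold trPair
  rw [sub_mul, Matrix.trace_sub, map_sub]

theorem trPair_add_right (Y X X' : M₂ k) : trPair F Y (X + X') = trPair F Y X + trPair F Y X' := by
  unfold trPair
  rw [mul_add, Matrix.trace_add, map_add]

theorem trPair_zero_left (X : M₂ k) : trPair F (0 : M₂ k) X = 0 := by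
  unfold trPair
  rw [zero_mul, Matrix.trace_zero, map_zero]

theorem trPair_smul_right (a : F) (Y X : M₂ k) :
    trPair F Y (algebraMap F k a • X) = a * trPair F Y X := by
  unfold trPair
  rw [Matrix.mul_smul, Matrix.trace_smul, smul_eq_mul, ← Algebra.smul_def, map_smul, smul_eq_mul]

theorem trPair_smul_left (c : k) (Y X : M₂ k) : trPair F (c • Y) X = trPair F Y (c • X) := by
  unfold trPair
  rw [Matrix.smul_mul, Matrix.mul_smul]

/-- Cyclicity of the trace. -/
theorem trPair_conj (g g' Y X : M₂ k) : trPair F (g * Y * g') X = trPair F Y (g' * X * g) := by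
  unfold trPair
  rw [Matrix.mul_assoc, Matrix.mul_assoc, Matrix.trace_mul_comm, Matrix.mul_assoc,
    Matrix.mul_assoc]

variable [FiniteDimensional F k] [Algebra.IsSeparable F k]

theorem eq_zero_of_forall_trace_mul {y : k} (h : ∀ a : k, Algebra.trace F k (y * a) = 0) :
    y = 0 := by
  have hB := traceForm_nondegenerate F k
  have h1 : (Algebra.traceForm F k).toDual hB y = 0 := by
    ext a
    rw [LinearMap.BilinForm.toDual_def, Algebra.traceForm_apply, h a]
    rfl
  exact (LinearEquiv.map_eq_zero_iff _).mp h1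

theorem exists_trace_mul_eq (f : k → F) (hadd : ∀ a b, f (a + b) = f a + f b)
    (hsmul : ∀ (c : F) (a : k), f (algebraMap F k c * a) = c * f a) :
    ∃ y : k, ∀ a, f a = Algebra.trace F k (y * a) := by
  have hB := traceForm_nondegenerate F k
  let fl : Module.Dual F k :=
    { toFun := f
      map_add' := hadd
      map_smul' := fun c a => by
        rw [Algebra.smul_def, hsmul, RingHom.id_apply, smul_eq_mul] }
  refine ⟨((Algebra.traceForm F k).toDual hB).symm fl, fun a => ?_⟩
  have := LinearMap.BilinForm.apply_toDual_symm_apply (hB := hB) fl a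
  rw [Algebra.traceForm_apply] at this
  rw [this]
  rfl

/-- The pairing is non-degenerate on trace-zero matrices (`2` invertible). -/
theorem eq_zero_of_trPair_eq_zero (h2 : (2 : k) ≠ 0) {Y : M₂ k} (hY : Y.trace = 0)
    (h : ∀ X : M₂ k, X.trace = 0 → trPair F Y X = 0) : Y = 0 := by
  rw [Matrix.trace_fin_two] at hY
  have key : ∀ (B : M₂ k), B.trace = 0 → (Y * B).trace = 0 := by
    intro B hB
    apply eq_zero_of_forall_trace_mul F
    intro a
    have := h (a • B) (by rw [Matrix.trace_smul, hB, smul_zero])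
    unfold trPair at this
    rw [Matrix.mul_smul, Matrix.trace_smul, smul_eq_mul, mul_comm] at this
    exact this
  have h12 := key !![0, 1; 0, 0] (by simp [Matrix.trace_fin_two])
  have h21 := key !![0, 0; 1, 0] (by simp [Matrix.trace_fin_two])
  have hH := key !![1, 0; 0, -1] (by simp [Matrix.trace_fin_two])
  simp only [Matrix.trace_fin_two, Matrix.mul_apply, Fin.sum_univ_two, Matrix.of_apply,
    Matrix.cons_val', Matrix.cons_val_zero, Matrix.cons_val_one, Matrix.cons_val_fin_one,
    mul_zero, mul_one, add_zero, zero_add, mul_neg] at h12 h21 hH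
  have h00 : Y 0 0 = 0 := by
    have : (2 : k) * Y 0 0 = 0 := by linear_combination hH + hY
    exact (mul_eq_zero.mp this).resolve_left h2
  have h11 : Y 1 1 = 0 := by rw [h00, zero_add] at hY; exact hY
  ext i j
  fin_cases i <;> fin_cases j
  · exact h00
  · simpa using h21
  · simpa using h12
  · exact h11

/-- Every `F`-linear functional on trace-zero matrices is `trPair Y` for a trace-zero `Y`. -/
theorem exists_trPair_eq (h2 : (2 : k) ≠ 0) (lam : M₂ k → F)
    (hadd : ∀ X X' : M₂ k, lam (X + X') = lam X + lam X')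
    (hsmul : ∀ (c : F) (X : M₂ k), lam (algebraMap F k c • X) = c * lam X) :
    ∃ Y : M₂ k, Y.trace = 0 ∧ ∀ X : M₂ k, X.trace = 0 → lam X = trPair F Y X := by
  have hex : ∀ B : M₂ k, ∃ y : k, ∀ a : k, lam (a • B) = Algebra.trace F k (y * a) := by
    intro B
    apply exists_trace_mul_eq F (fun a => lam (a • B))
    · intro a b
      show lam ((a + b) • B) = _
      rw [add_smul, hadd]
    · intro c a
      show lam ((algebraMap F k c * a) • B) = _
      rw [mul_smul, hsmul]
  obtain ⟨yH, hyH⟩ := hex !![1, 0; 0, -1]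
  obtain ⟨y12, hy12⟩ := hex !![0, 1; 0, 0]
  obtain ⟨y21, hy21⟩ := hex !![0, 0; 1, 0]
  refine ⟨!![yH / 2, y21; y12, -(yH / 2)], by simp [Matrix.trace_fin_two], fun X hX => ?_⟩
  rw [Matrix.trace_fin_two] at hX
  have hX11 : X 1 1 = -X 0 0 := by linear_combination hX
  have hdecomp : X = X 0 0 • !![1, 0; 0, -1] + (X 0 1 • !![0, 1; 0, 0] + X 1 0 • !![0, 0; 1, 0]) := by
    ext i j
    fin_cases i <;> fin_cases j <;> simp [hX11]
  conv_lhs => rw [hdecomp]
  rw [hadd, hadd, hyH, hy12, hy21]
  unfold trPair
  rw [← map_add, ← map_add]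
  congr 1
  simp only [Matrix.trace_fin_two, Matrix.mul_apply, Fin.sum_univ_two, Matrix.of_apply,
    Matrix.cons_val', Matrix.cons_val_zero, Matrix.cons_val_one, Matrix.cons_val_fin_one]
  rw [hX11]
  field_simp
  ring

end Fermat.Agent.TW.Primes.TraceDual76
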