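/-
Program TW (S56), WP8 (helper76): the dictionary between `ad0Dual p ρbar = ad⁰ρbar^*(1)` (End-model
of `Defs52`) and trace-zero `2 × 2` matrices, through the trace form `Tr_{k/𝔽_p} tr (Y X)`.

* `toMat`, `ofMat`: elements of `ad0 p ρbar` as trace-zero matrices;
* `dualMat`, `ofDualMat`: elements of `ad0Dual p ρbar` as trace-zero matrices; the Galois action
  becomes the twisted adjoint action `Sigma76.tw` (`dualMat_ρ`, uses `det ρbar = cycloChar`);
* `matCocycle`: cocycles; `isCocycle_matCocycle`, `H1π_eq_zero_of_isCoboundary`,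
  `exists_of_resH1At_eq_zero`, `exists_level_matCocycle`.
-/
import Mathlib
import Fermat.Agent.TW.Spec.Contract52
import Fermat.Agent.TW.Primes.Sigma76
import Fermat.Agent.TW.Primes.GQBridge76
import Fermat.Agent.TW.Primes.TraceDual76

set_option autoImplicit false

namespace Fermat.Agent.TW.Primes.DualDict76

open Matrix groupCohomology ExtCitation CategoryTheory
open Fermat.Agent.TW.Spec.Defs52 Fermat.Agent.TW.Spec.Contract52
open Fermat.Agent.TW.Primes.AdIrr76 Fermat.Agent.TW.Primes.Sigma76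
  Fermat.Agent.TW.Primes.GQBridge76 Fermat.Agent.TW.Primes.TraceDual76

local notation "Qb" => AlgebraicClosure ℚ
local notation "M₂" => Matrix (Fin 2) (Fin 2)

variable (p : ℕ) [Fact p.Prime] {k : Type} [Field k] [Algebra (ZMod p) k]
  (ρbar : ResidualGaloisRep k) (b : Module.Basis (Fin 2) k ρbar.V)

/-! ### Elements of `ad0` as matrices -/

/-- The matrix of an element of `ad0 p ρbar` in the basis `b`. -/
noncomputable def toMat (x : ad0 p ρbar) : M₂ k := LinearMap.toMatrix b b (ad0ToEnd p ρbar x)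

theorem trace_toMat (x : ad0 p ρbar) : (toMat p ρbar b x).trace = 0 := by
  have hx : ad0ToEnd p ρbar x ∈ End0 ρbar := (show End0 ρbar from x).2
  rw [mem_End0_iff, LinearMap.trace_eq_matrix_trace k b] at hx
  exact hx

theorem toMat_add (x y : ad0 p ρbar) :
    toMat p ρbar b (x + y) = toMat p ρbar b x + toMat p ρbar b y := by
  unfold toMat
  rw [← map_add]
  rfl

theorem toMat_smul (a : ZMod p) (x : ad0 p ρbar) :
    toMat p ρbar b (a • x) = algebraMap (ZMod p) k a • toMat p ρbar b x := by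
  unfold toMat
  rw [← map_smul]
  rfl

theorem toMat_ρ (g : GQ) (x : ad0 p ρbar) :
    toMat p ρbar b ((ad0 p ρbar).ρ g x) =
      matRep ρbar b g * toMat p ρbar b x * matRep ρbar b g⁻¹ := by
  unfold toMat
  rw [ad0_ρ_apply, LinearMap.toMatrix_mul, LinearMap.toMatrix_mul, matRep_apply, matRep_apply]

theorem toMat_injective : Function.Injective (toMat p ρbar b) := by
  intro x y h
  have h1 : ad0ToEnd p ρbar x = ad0ToEnd p ρbar y := (LinearMap.toMatrix b b).injective h
  exact Subtype.ext h1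

/-- The matrix `E₁₁`. -/
def e11 : M₂ k := !![1, 0; 0, 0]

theorem trace_e11 : (e11 : M₂ k).trace = 1 := by
  simp [e11, Matrix.trace_fin_two]

/-- The element of `ad0 p ρbar` with matrix `X - tr X • E₁₁`. -/
noncomputable def ofMat (X : M₂ k) : ad0 p ρbar :=
  (⟨Matrix.toLin b b (X - X.trace • e11), by
    rw [mem_End0_iff, LinearMap.trace_eq_matrix_trace k b, LinearMap.toMatrix_toLin,
      Matrix.trace_sub, Matrix.trace_smul, trace_e11, smul_eq_mul, mul_one, sub_self]⟩ : End0 ρbar)

theorem toMat_ofMat {X : M₂ k} (hX : X.trace = 0) : toMat p ρbar b (ofMat p ρbar b X) = X := by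
  unfold toMat ofMat
  show LinearMap.toMatrix b b (Matrix.toLin b b (X - X.trace • e11)) = X
  rw [LinearMap.toMatrix_toLin, hX, zero_smul, sub_zero]

theorem ofMat_toMat (x : ad0 p ρbar) : ofMat p ρbar b (toMat p ρbar b x) = x := by
  apply toMat_injective p ρbar b
  rw [toMat_ofMat p ρbar b (trace_toMat p ρbar b x)]

theorem ofMat_add (X Y : M₂ k) :
    ofMat p ρbar b (X + Y) = ofMat p ρbar b X + ofMat p ρbar b Y := by
  apply toMat_injective p ρbar b
  rw [toMat_add]
  unfold toMat ofMat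
  show LinearMap.toMatrix b b (Matrix.toLin b b (X + Y - (X + Y).trace • e11)) =
    LinearMap.toMatrix b b (Matrix.toLin b b (X - X.trace • e11)) +
    LinearMap.toMatrix b b (Matrix.toLin b b (Y - Y.trace • e11))
  rw [LinearMap.toMatrix_toLin, LinearMap.toMatrix_toLin, LinearMap.toMatrix_toLin,
    Matrix.trace_add, add_smul]
  abel

theorem ofMat_smul (a : ZMod p) (X : M₂ k) :
    ofMat p ρbar b (algebraMap (ZMod p) k a • X) = a • ofMat p ρbar b X := by
  apply toMat_injective p ρbar b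
  rw [toMat_smul]
  unfold toMat ofMat
  show LinearMap.toMatrix b b (Matrix.toLin b b
      (algebraMap (ZMod p) k a • X - (algebraMap (ZMod p) k a • X).trace • e11)) =
    algebraMap (ZMod p) k a • LinearMap.toMatrix b b (Matrix.toLin b b (X - X.trace • e11))
  rw [LinearMap.toMatrix_toLin, LinearMap.toMatrix_toLin, Matrix.trace_smul, smul_sub, smul_smul,
    smul_eq_mul]


/-! ### Elements of `ad0Dual` as matrices -/

/-- Evaluation of an element of `ad0Dual p ρbar` on an element of `ad0 p ρbar`. -/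
noncomputable def ev (m : ad0Dual p ρbar) (x : ad0 p ρbar) : ZMod p :=
  (show Module.Dual (ZMod p) (ad0 p ρbar) from m) x

theorem ev_add_left (m m' : ad0Dual p ρbar) (x : ad0 p ρbar) :
    ev p ρbar (m + m') x = ev p ρbar m x + ev p ρbar m' x := rfl

theorem ev_sub_left (m m' : ad0Dual p ρbar) (x : ad0 p ρbar) :
    ev p ρbar (m - m') x = ev p ρbar m x - ev p ρbar m' x := rfl

theorem ev_add_right (m : ad0Dual p ρbar) (x y : ad0 p ρbar) :
    ev p ρbar m (x + y) = ev p ρbar m x + ev p ρbar m y :=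
  map_add (show Module.Dual (ZMod p) (ad0 p ρbar) from m) x y

theorem ev_smul_right (m : ad0Dual p ρbar) (a : ZMod p) (x : ad0 p ρbar) :
    ev p ρbar m (a • x) = a * ev p ρbar m x :=
  map_smul (show Module.Dual (ZMod p) (ad0 p ρbar) from m) a x

theorem ev_ρ (g : GQ) (m : ad0Dual p ρbar) (x : ad0 p ρbar) :
    ev p ρbar ((ad0Dual p ρbar).ρ g m) x =
      ((cycloChar p g : (ZMod p)ˣ) : ZMod p) * ev p ρbar m ((ad0 p ρbar).ρ g⁻¹ x) := rfl

theorem ev_ext {m m' : ad0Dual p ρbar} (h : ∀ x, ev p ρbar m x = ev p ρbar m' x) : m = m' :=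
  LinearMap.ext (f := (show Module.Dual (ZMod p) (ad0 p ρbar) from m))
    (g := (show Module.Dual (ZMod p) (ad0 p ρbar) from m')) h

variable [Finite k]

theorem exists_dualMat (h2 : (2 : k) ≠ 0) (m : ad0Dual p ρbar) :
    ∃ Y : M₂ k, Y.trace = 0 ∧
      ∀ x : ad0 p ρbar, ev p ρbar m x = trPair (ZMod p) Y (toMat p ρbar b x) := by
  have : FiniteDimensional (ZMod p) k := Module.Finite.of_finite
  obtain ⟨Y, hY, h⟩ := exists_trPair_eq (ZMod p) h2 (fun X => ev p ρbar m (ofMat p ρbar b X))
    (fun X X' => by rw [ofMat_add, ev_add_right])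
    (fun c X => by rw [ofMat_smul, ev_smul_right])
  refine ⟨Y, hY, fun x => ?_⟩
  have := h (toMat p ρbar b x) (trace_toMat p ρbar b x)
  rw [ofMat_toMat] at this
  exact this

/-- The trace-zero matrix representing an element of `ad0Dual p ρbar` through the trace form. -/
noncomputable def dualMat (h2 : (2 : k) ≠ 0) (m : ad0Dual p ρbar) : M₂ k :=
  Classical.choose (exists_dualMat p ρbar b h2 m)

theorem trace_dualMat (h2 : (2 : k) ≠ 0) (m : ad0Dual p ρbar) :
    (dualMat p ρbar b h2 m).trace = 0 :=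
  (Classical.choose_spec (exists_dualMat p ρbar b h2 m)).1

theorem ev_eq_trPair (h2 : (2 : k) ≠ 0) (m : ad0Dual p ρbar) (x : ad0 p ρbar) :
    ev p ρbar m x = trPair (ZMod p) (dualMat p ρbar b h2 m) (toMat p ρbar b x) :=
  (Classical.choose_spec (exists_dualMat p ρbar b h2 m)).2 x

theorem dualMat_unique (h2 : (2 : k) ≠ 0) (m : ad0Dual p ρbar) {Y : M₂ k} (hY : Y.trace = 0)
    (h : ∀ x : ad0 p ρbar, ev p ρbar m x = trPair (ZMod p) Y (toMat p ρbar b x)) :
    dualMat p ρbar b h2 m = Y := by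
  have : FiniteDimensional (ZMod p) k := Module.Finite.of_finite
  rw [← sub_eq_zero]
  apply eq_zero_of_trPair_eq_zero (ZMod p) h2
  · rw [Matrix.trace_sub, trace_dualMat, hY, sub_zero]
  · intro X hX
    have h1 := h (ofMat p ρbar b X)
    rw [ev_eq_trPair p ρbar b h2, toMat_ofMat p ρbar b hX] at h1
    rw [trPair_sub_left, h1, sub_self]

theorem dualMat_injective (h2 : (2 : k) ≠ 0) : Function.Injective (dualMat p ρbar b h2) := by
  intro m m' h
  apply ev_ext
  intro x
  rw [ev_eq_trPair p ρbar b h2, ev_eq_trPair p ρbar b h2, h]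

theorem dualMat_add (h2 : (2 : k) ≠ 0) (m m' : ad0Dual p ρbar) :
    dualMat p ρbar b h2 (m + m') = dualMat p ρbar b h2 m + dualMat p ρbar b h2 m' := by
  apply dualMat_unique
  · rw [Matrix.trace_add, trace_dualMat, trace_dualMat, add_zero]
  · intro x
    rw [ev_add_left, trPair_add_left, ev_eq_trPair p ρbar b h2, ev_eq_trPair p ρbar b h2]

theorem dualMat_sub (h2 : (2 : k) ≠ 0) (m m' : ad0Dual p ρbar) :
    dualMat p ρbar b h2 (m - m') = dualMat p ρbar b h2 m - dualMat p ρbar b h2 m' := by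
  apply dualMat_unique
  · rw [Matrix.trace_sub, trace_dualMat, trace_dualMat, sub_zero]
  · intro x
    rw [ev_sub_left, trPair_sub_left, ev_eq_trPair p ρbar b h2, ev_eq_trPair p ρbar b h2]

/-- The Galois action on `ad0Dual` is the twisted adjoint action on matrices. -/
theorem dualMat_ρ (h2 : (2 : k) ≠ 0)
    (hdet : (GaloisRepAdic.ofResidualGaloisRep ρbar).DetIsCyclotomic p) (g : GQ)
    (m : ad0Dual p ρbar) :
    dualMat p ρbar b h2 ((ad0Dual p ρbar).ρ g m) =
      tw (matRep ρbar b) g (dualMat p ρbar b h2 m) := by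
  apply dualMat_unique
  · rw [trace_tw, trace_dualMat, mul_zero]
  · intro x
    rw [ev_ρ, ev_eq_trPair p ρbar b h2, toMat_ρ, inv_inv, tw, trPair_smul_left,
      det_eq_cycloChar b p hdet g, trPair_smul_right, trPair_conj]

/-- The element of `ad0Dual` represented by a matrix. -/
noncomputable def ofDualMat (Y : M₂ k) : ad0Dual p ρbar :=
  (show Module.Dual (ZMod p) (ad0 p ρbar) from
    { toFun := fun x => trPair (ZMod p) Y (toMat p ρbar b x)
      map_add' := fun x y => by rw [toMat_add, trPair_add_right]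
      map_smul' := fun a x => by
        rw [toMat_smul, trPair_smul_right, RingHom.id_apply, smul_eq_mul] })

theorem dualMat_ofDualMat (h2 : (2 : k) ≠ 0) {Y : M₂ k} (hY : Y.trace = 0) :
    dualMat p ρbar b h2 (ofDualMat p ρbar b Y) = Y :=
  dualMat_unique p ρbar b h2 _ hY fun _ => rfl

/-! ### Cocycles -/

section Cocycles

variable (h2 : (2 : k) ≠ 0)
  (hdet : (GaloisRepAdic.ofResidualGaloisRep ρbar).DetIsCyclotomic p)

/-- The matrix cocycle of a cocycle with values in `ad0Dual`. -/
noncomputable def matCocycle (c : cocycles₁ (ad0Dual p ρbar)) (g : GQ) : M₂ k :=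
  dualMat p ρbar b h2 (c g)

include hdet in
theorem isCocycle_matCocycle (c : cocycles₁ (ad0Dual p ρbar)) :
    IsCocycle (matRep ρbar b) (matCocycle p ρbar b h2 c) := by
  refine ⟨fun σ => trace_dualMat p ρbar b h2 _, fun σ τ => ?_⟩
  unfold matCocycle
  rw [(mem_cocycles₁_iff c).1 c.2 σ τ, dualMat_add, dualMat_ρ p ρbar b h2 hdet, add_comm]

include hdet in
/-- If the matrix cocycle is a coboundary, the class vanishes. -/
theorem H1π_eq_zero_of_isCoboundary (c : cocycles₁ (ad0Dual p ρbar))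
    (h : IsCoboundary (matRep ρbar b) (matCocycle p ρbar b h2 c)) :
    (H1π (ad0Dual p ρbar)).hom c = 0 := by
  obtain ⟨X, hX, hc⟩ := h
  rw [H1π_eq_zero_iff]
  refine ⟨ofDualMat p ρbar b X, ?_⟩
  funext g
  apply dualMat_injective p ρbar b h2
  show dualMat p ρbar b h2 ((ad0Dual p ρbar).ρ g (ofDualMat p ρbar b X) - ofDualMat p ρbar b X) = _
  rw [dualMat_sub, dualMat_ρ p ρbar b h2 hdet, dualMat_ofDualMat p ρbar b h2 hX]
  exact (hc g).symm

include hdet in
/-- If the class dies locally at `q`, the matrix cocycle is a coboundary on the image of the local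
Galois group. -/
theorem exists_of_resH1At_eq_zero (q : Nat.Primes) (c : cocycles₁ (ad0Dual p ρbar))
    (h : resH1At q (ad0Dual p ρbar) ((H1π (ad0Dual p ρbar)).hom c) = 0) :
    ∃ X : M₂ k, X.trace = 0 ∧ ∀ τ : primeLocalGaloisGroup q,
      matCocycle p ρbar b h2 c (locAt q τ) = tw (matRep ρbar b) (locAt q τ) X - X := by
  have h1 := H1π_comp_map_apply (locAt q) (𝟙 (resAt q (ad0Dual p ρbar))) c
  have h3 : (H1π (resAt q (ad0Dual p ρbar))).hom
      ((mapCocycles₁ (locAt q) (𝟙 (resAt q (ad0Dual p ρbar)))).hom c) = 0 := by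
    rw [← h1]; exact h
  rw [H1π_eq_zero_iff] at h3
  obtain ⟨m, hm⟩ := h3
  refine ⟨dualMat p ρbar b h2 (show ad0Dual p ρbar from m), trace_dualMat p ρbar b h2 _,
    fun τ => ?_⟩
  have h4 := congrFun hm τ
  have h5 : c (locAt q τ) = (ad0Dual p ρbar).ρ (locAt q τ) (show ad0Dual p ρbar from m) -
      (show ad0Dual p ρbar from m) := h4.symm
  unfold matCocycle
  rw [h5, dualMat_sub, dualMat_ρ p ρbar b h2 hdet]

/-- Level-constancy passes to the matrix cocycle. -/
theorem exists_level_matCocycle {S : Finset Nat.Primes} (c : cocycles₁ (ad0Dual p ρbar))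
    (hc : IsLevelConstantS₁ S c) :
    ∃ L : IntermediateField ℚ Qb, FiniteDimensional ℚ L ∧
      ∀ g s : GQ, (∀ x ∈ L, s x = x) →
        matCocycle p ρbar b h2 c (g * s) = matCocycle p ρbar b h2 c g := by
  obtain ⟨F, hF, h⟩ := hc
  refine ⟨F, hF.1, fun g s hs => ?_⟩
  unfold matCocycle
  rw [h g s ((IntermediateField.mem_fixingSubgroup_iff F s).mpr hs)]

end Cocycles

end Fermat.Agent.TW.Primes.DualDict76
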