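/-
Program TW (S56), WP8 (helper76): the DETECTION theorem.

`detection`: under the hypotheses of S56 on `ρbar` (and the group-theoretic input (c), `CohInput`),
every non-zero level-constant class `y ∈ H¹(G_ℚ, ad⁰ρbar^*(1))` restricts non-trivially to the
local Galois group at some prime `q ∉ T`, `q ≡ 1 mod p ^ (n + 1)`, with distinct Frobenius
eigenvalues.  Proof: `DualDict76` (matrix cocycle of `y`), `Sigma76.exists_sigma`,
`Cheb76.exists_frobenius`, `FrobConj96`, `LocalGlobal97`.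
-/
import Mathlib
import Fermat.Agent.TW.Spec.Contract52
import Fermat.Agent.TW.Primes.Sigma76
import Fermat.Agent.TW.Primes.GQBridge76
import Fermat.Agent.TW.Primes.Cheb76
import Fermat.Agent.TW.Primes.DualDict76
import Fermat.Agent.TW.LocalQ.FrobConj96
import Fermat.Agent.TW.Bridge.LocalGlobal97

set_option autoImplicit false

namespace Fermat.Agent.TW.Primes.Detect76

open Matrix groupCohomology ExtCitation CategoryTheory Polynomial
open scoped Pointwise
open Fermat.Agent.TW.Spec.Defs52 Fermat.Agent.TW.Spec.Contract52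
open Fermat.Agent.TW.Primes.AdIrr76 Fermat.Agent.TW.Primes.Regular76
  Fermat.Agent.TW.Primes.Sigma76 Fermat.Agent.TW.Primes.GQBridge76
  Fermat.Agent.TW.Primes.Cheb76 Fermat.Agent.TW.Primes.DualDict76

local notation "Qb" => AlgebraicClosure ℚ
local notation "M₂" => Matrix (Fin 2) (Fin 2)

/-! ### Abstract lemmas -/

section Abstract

variable {k : Type*} [Field k] {Γ : Type*} [Group Γ] {r : Γ →* M₂ k}

theorem tw_neg (σ : Γ) (X : M₂ k) : tw r σ (-X) = -tw r σ X := by
  have := tw_sub r σ 0 X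
  rwa [zero_sub, tw_zero, zero_sub] at this

/-- A cocycle which is a coboundary at `g⁻¹ φ g` is a coboundary at `φ`. -/
theorem conj_coboundary {ψ : Γ → M₂ k} (hψ : IsCocycle r ψ) (g φ : Γ) (X : M₂ k)
    (h : ψ (g⁻¹ * φ * g) = tw r (g⁻¹ * φ * g) X - X) :
    ψ φ = tw r φ (tw r g X - ψ g) - (tw r g X - ψ g) := by
  have e : φ = g * ((g⁻¹ * φ * g) * g⁻¹) := by group
  have e2 : g * (g⁻¹ * φ * g) = φ * g := by group
  conv_lhs => rw [e]
  rw [hψ.map_mul, hψ.map_mul, h, tw_add, tw_sub, ← tw_mul, ← tw_mul, e2, tw_mul, tw_mul,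
    hψ.map_inv, tw_neg, tw_sub]
  abel

/-- The discriminant in terms of the roots of the characteristic polynomial. -/
theorem ne_of_disc_ne_zero {g : M₂ k} {α β : k} (h : g.charpoly = (X - C α) * (X - C β))
    (hd : disc g ≠ 0) : α ≠ β := by
  rintro rfl
  apply hd
  have h0 := congrArg (Polynomial.eval 0) h
  have h1 := congrArg (Polynomial.eval 1) h
  rw [Matrix.charpoly_fin_two] at h0 h1
  simp only [eval_add, eval_sub, eval_mul, eval_pow, eval_X, eval_C] at h0 h1
  unfold disc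
  have ht : g.trace = 2 * α := by linear_combination h0 - h1
  have hdet : g.det = α * α := by linear_combination h0
  rw [ht, hdet]
  ring

end Abstract


/-! ### The detection theorem -/

section Detection

variable (p : ℕ) [Fact p.Prime] {k : Type} [Field k] [Algebra (ZMod p) k]
  (ρbar : ResidualGaloisRep k)

/-- The group-theoretic input (c): a cocycle for the twisted adjoint action of the (finite) image
of `ρbar`, vanishing on the elements of `G_{ℚ(ζ_{p^{n+1}})}` with scalar image, is a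
coboundary. -/
def CohInput (b : Module.Basis (Fin 2) k ρbar.V) : Prop :=
  ∀ (n : ℕ) (ψ : GQ → M₂ k), IsCocycle (matRep ρbar b) ψ →
    (∃ L : IntermediateField ℚ Qb, FiniteDimensional ℚ L ∧
      ∀ g s : GQ, (∀ x ∈ L, s x = x) → ψ (g * s) = ψ g) →
    (∀ τ ∈ fixRoots (p ^ (n + 1)), (∃ c : k, matRep ρbar b τ = c • (1 : M₂ k)) → ψ τ = 0) →
    IsCoboundary (matRep ρbar b) ψ

omit [Algebra (ZMod p) k] in
theorem two_ne_zero_of_detIsCyclotomic (hp2 : p ≠ 2)
    (hdet : (GaloisRepAdic.ofResidualGaloisRep ρbar).DetIsCyclotomic p) : (2 : k) ≠ 0 := by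
  intro h2
  have hp0 : (p : k) = 0 := natCast_eq_zero_of_detIsCyclotomic p hdet
  have hodd : Odd p := (Fact.out : p.Prime).odd_of_ne_two hp2
  obtain ⟨m, hm⟩ := hodd
  rw [hm, Nat.cast_add, Nat.cast_mul, Nat.cast_ofNat, h2, zero_mul, zero_add, Nat.cast_one] at hp0
  exact one_ne_zero hp0

variable [Finite k]

/-- **Detection.**  A non-zero level-constant class in `H¹(G_ℚ, ad⁰ρbar^*(1))` restricts
non-trivially to the decomposition group at some Taylor–Wiles prime of level `n` outside `T`. -/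
theorem detection (hp2 : p ≠ 2) (habs : ρbar.IsAbsolutelyIrreducible)
    (hdet : (GaloisRepAdic.ofResidualGaloisRep ρbar).DetIsCyclotomic p)
    (hsplit : ∀ σ : GQ, ∃ α β : k, LinearMap.charpoly (ρbar.ρ σ) = (X - C α) * (X - C β))
    (hTW : ∀ (K : Type) [Field K] [Algebra k K] (G : Subgroup GQ), G.index = 2 →
      ∀ V : Submodule K (ρbar.baseChange K).V,
        (∀ σ ∈ G, ∀ x ∈ V, (ρbar.baseChange K).ρ σ x ∈ V) → V = ⊥ ∨ V = ⊤)
    (hC : ∀ b : Module.Basis (Fin 2) k ρbar.V, CohInput p ρbar b)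
    (n : ℕ) (T : Finset ℕ) (hunr : ∀ q : Nat.Primes, (q : ℕ) ∉ T → ρbar.IsUnramifiedAt q)
    (S : Finset Nat.Primes) (y : H1 (ad0Dual p ρbar)) (hy : y ∈ continuousH1S S (ad0Dual p ρbar))
    (hy0 : y ≠ 0) :
    ∃ q : Nat.Primes, (q : ℕ) ∉ T ∧ p ^ (n + 1) ∣ (q : ℕ) - 1 ∧
      DistinctFrobEigenvalues ρbar q ∧ resH1At q (ad0Dual p ρbar) y ≠ 0 := by
  classical
  have h2 : (2 : k) ≠ 0 := two_ne_zero_of_detIsCyclotomic p ρbar hp2 hdet
  set b := someBasis ρbar with hb
  obtain ⟨c, hc, rfl⟩ := (mem_continuousH1S_iff S (ad0Dual p ρbar) y).1 hy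
  have hψ := isCocycle_matCocycle p ρbar b h2 hdet c
  have hψL := exists_level_matCocycle p ρbar b h2 c hc
  have hnon : ¬ IsCoboundary (matRep ρbar b) (matCocycle p ρbar b h2 c) := fun h =>
    hy0 (H1π_eq_zero_of_isCoboundary p ρbar b h2 hdet c h)
  have hn1 : n + 1 ≠ 0 := Nat.succ_ne_zero n
  have hdetE : ∀ σ ∈ fixRoots (p ^ (n + 1)), (matRep ρbar b σ).det = 1 := fun σ hσ =>
    det_eq_one_of_mem_fixRoots b p hdet hn1 hσ
  obtain ⟨σ, hσE, hσd, hσt⟩ := exists_sigma h2 (AlgebraicClosure k) (matRep ρbar b)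
    (not_hasCommonEigenvector_top b habs)
    (fun G hG => not_hasCommonEigenvector_of_index_two b hTW G hG)
    (split_matRep b hsplit) (fixRoots (p ^ (n + 1)))
    (exists_generator_mod_fixRoots p hp2 (n + 1) hn1) hdetE hψ
    (hC b n _ hψ hψL) hnon
  have hpn : p ^ (n + 1) ≠ 0 := pow_ne_zero _ (Fact.out : p.Prime).ne_zero
  obtain ⟨q, P, φ, hq, hqT, hP, hφ, hφE, hd, ht⟩ :=
    exists_frobenius (matRep ρbar b) h2 hψ (p ^ (n + 1)) hpn (exists_level ρbar b) hψL hdetE
      hσE hσd hσt (insert p T)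
  have hqp : q ≠ p := fun h => hqT (by rw [h]; exact Finset.mem_insert_self p T)
  have hqT' : q ∉ T := fun h => hqT (Finset.mem_insert_of_mem h)
  refine ⟨⟨q, hq⟩, hqT', dvd_sub_one_of_isFrobeniusAt p hq hqp hP hφ (n + 1) hφE, ?_, ?_⟩
  · -- distinct eigenvalues
    obtain ⟨α, β, hαβ⟩ := hsplit φ
    have hαβ' : (matRep ρbar b φ).charpoly = (X - C α) * (X - C β) := by
      rw [charpoly_matRep, hαβ]
    exact Fermat.Agent.TW.LocalQ.FrobConj96.distinctFrobEigenvalues_of_one ρbar hq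
      (hunr ⟨q, hq⟩ hqT') hP hφ (ne_of_disc_ne_zero hαβ' hd) hαβ
  · -- the local class is non-zero
    intro hres
    obtain ⟨X, hX, hloc⟩ := exists_of_resH1At_eq_zero p ρbar b h2 hdet ⟨q, hq⟩ c hres
    obtain ⟨g, hg⟩ := Fermat.Agent.TW.LocalQ.FrobConj96.exists_smul_primeLocalPlace ⟨q, hq⟩
      (A := P) hP
    have hφ' : (primeLocalPlace ⟨q, hq⟩).IsFrobeniusAt (g⁻¹ * φ * g) q := by
      have h1 := Fermat.Agent.TW.LocalQ.FrobConj96.isFrobeniusAt_conj g⁻¹ hφ
      rw [← hg, inv_smul_smul, inv_inv] at h1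
      exact h1
    obtain ⟨τ, hτ⟩ := Fermat.Agent.TW.Bridge.LocalGlobal97.exists_primeLocalToGlobal_eq ⟨q, hq⟩
      hφ'.mem_decompositionSubgroup
    have h3 := hloc τ
    have hτ' : locAt ⟨q, hq⟩ τ = g⁻¹ * φ * g := hτ
    rw [hτ'] at h3
    have h4 := conj_coboundary hψ g φ X h3
    apply ht
    rw [h4, tw_of_det_eq_one (matRep ρbar b) (hdetE φ hφE)]
    exact trace_mul_conj_sub (rep_inv_mul (matRep ρbar b) φ) _

end Detection

end Fermat.Agent.TW.Primes.Detect76
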