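import Mathlib
import Fermat.Agent.Lib.FrobeniusExists

/-!
# Program TW (S56), WP8: the absolute Galois group permutes the places over a prime transitively
(helper52)

* `exists_smul_eq_of_liesOverPrime` : two valuation subrings `V`, `V'` of `ℚ̄` over the same prime
  `ℓ` are conjugate: `∃ g, g • V = V'`.

The proof applies Mathlib's `Algebra.IsInvariant.exists_smul_of_under_eq_of_profinite` to the centres
of `V` and `V'` on the ring `Zbar` of all algebraic integers, and
`Lib.FrobeniusExists.exists_num_den` (every element of `V` is a quotient of algebraic integers with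
denominator a unit of `V`) to recover the valuation rings from their centres.
-/

set_option autoImplicit false

open scoped Pointwise

namespace Fermat.Agent.TW.Primes.PlaceTrans52

open Fermat.Agent.Lib.FrobeniusExists

attribute [local instance] isGalois_Qbar isIntegral_Qbar instTopZbar

local instance : DiscreteTopology Zbar := ⟨rfl⟩

attribute [local instance] continuousSMul_Zbar isInvariant_Zbar

/-- The ring homomorphism from the algebraic integers to a valuation subring of `ℚ̄`. -/
noncomputable def toVal (V : ValuationSubring Qbar) : Zbar →+* V :=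
  (algebraMap Zbar Qbar).codRestrict V.toSubring
    (fun b => mem_valuationSubring_of_isIntegral V b.2)

/-- The centre of a valuation subring of `ℚ̄` on the ring of algebraic integers. -/
noncomputable def center (V : ValuationSubring Qbar) : Ideal Zbar :=
  Ideal.comap (toVal V) (IsLocalRing.maximalIdeal V)

theorem mem_center_iff (V : ValuationSubring Qbar) (b : Zbar) :
    b ∈ center V ↔ (b : Qbar) ∈ V.nonunits := by
  rw [center, Ideal.mem_comap, ← ValuationSubring.coe_mem_nonunits_iff]
  rfl

instance center_isPrime (V : ValuationSubring Qbar) : (center V).IsPrime :=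
  Ideal.comap_isPrime (toVal V) _

theorem under_center (V : ValuationSubring Qbar) (ℓ : ℕ) (hℓ : ℓ.Prime)
    (hV : V.LiesOverPrime ℓ) : (center V).under ℤ = Ideal.span {(ℓ : ℤ)} := by
  have hPmax : (Ideal.span {(ℓ : ℤ)}).IsMaximal := by
    haveI : Fact ℓ.Prime := ⟨hℓ⟩
    exact Int.ideal_span_isMaximal_of_prime ℓ
  refine (hPmax.eq_of_le (Ideal.IsPrime.under ℤ (center V)).ne_top ?_).symm
  rw [Ideal.span_le]
  intro z hz
  rw [Set.mem_singleton_iff] at hz
  subst hz
  change algebraMap ℤ Zbar (ℓ : ℤ) ∈ center V
  rw [mem_center_iff]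
  have hV' : (ℓ : Qbar) ∈ V.nonunits := hV
  simpa using hV'

/-- If `g` maps the centre of `V` to the centre of `V'`, it maps `V` into `V'`. -/
theorem apply_mem_of_center_eq (V V' : ValuationSubring Qbar) (ℓ : ℕ) (hℓ : ℓ.Prime)
    (hV : V.LiesOverPrime ℓ) (g : GQ) (h : center V' = g • center V) {x : Qbar} (hx : x ∈ V) :
    g x ∈ V' := by
  obtain ⟨b, c, hb, hc, hbV, hxb⟩ := exists_num_den V ℓ hℓ hV hx
  let b' : Zbar := ⟨b, hb⟩
  let c' : Zbar := ⟨c, hc⟩
  have hb'Q : b' ∉ center V := fun h' => hbV ((mem_center_iff V b').mp h')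
  have hgb : g • b' ∉ center V' := by
    rw [h]
    intro h'
    exact hb'Q (Ideal.smul_mem_pointwise_smul_iff.mp h')
  have hgbV : g b ∉ V'.nonunits := fun h' => hgb ((mem_center_iff V' (g • b')).mpr h')
  have hgb_mem : g b ∈ V' := mem_valuationSubring_of_isIntegral V' (g • b').2
  have hgc_mem : g c ∈ V' := mem_valuationSubring_of_isIntegral V' (g • c').2
  have hv1 : V'.valuation (g b) = 1 :=
    le_antisymm ((V'.valuation_le_one_iff _).mpr hgb_mem) (not_lt.mp hgbV)
  have hgb0 : g b ≠ 0 := by
    intro h0
    rw [h0, map_zero] at hv1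
    exact zero_ne_one hv1
  have hinv : (g b)⁻¹ ∈ V' := by
    rw [← V'.valuation_le_one_iff, map_inv₀, hv1, inv_one]
  have hx' : g x = g c * (g b)⁻¹ := by
    rw [← hxb, map_mul]
    field_simp
  rw [hx']
  exact mul_mem hgc_mem hinv

/-- **Transitivity.** Two valuation subrings of `ℚ̄` over the same prime are conjugate under the
absolute Galois group. -/
theorem exists_smul_eq_of_liesOverPrime (ℓ : ℕ) (hℓ : ℓ.Prime) (V V' : ValuationSubring Qbar)
    (hV : V.LiesOverPrime ℓ) (hV' : V'.LiesOverPrime ℓ) : ∃ g : GQ, g • V = V' := by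
  have hPQ : (center V).under ℤ = (center V').under ℤ := by
    rw [under_center V ℓ hℓ hV, under_center V' ℓ hℓ hV']
  obtain ⟨g, hg⟩ := Algebra.IsInvariant.exists_smul_of_under_eq_of_profinite (A := ℤ) (G := GQ)
    (center V) (center V') hPQ
  refine ⟨g, ?_⟩
  have hg' : center V = g⁻¹ • center V' := by
    rw [hg, inv_smul_smul]
  apply SetLike.ext
  intro x
  rw [ValuationSubring.mem_pointwise_smul_iff_inv_smul_mem]
  constructor
  · intro h
    have := apply_mem_of_center_eq V V' ℓ hℓ hV g hg h
    simpa using this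
  · intro h
    exact apply_mem_of_center_eq V' V ℓ hℓ hV' g⁻¹ hg' h

end Fermat.Agent.TW.Primes.PlaceTrans52
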