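import Mathlib
import Fermat.Agent.TW.Primes.PlaceTrans52
import Fermat.Agent.PT.BR.UnramBridge13
import Fermat.Agent.ES.FROB.FrobFacts12
import Fermat.Agent.TW.Spec.Contract52

/-!
# Program TW (S56), WP8: conjugating Frobenius elements and inertia groups between the places over
a prime (helper52)

* `isFrobeniusAt_iff` : elementwise characterisation of Frobenius elements.
* `isFrobeniusAt_smul` : `g φ g⁻¹` is a Frobenius element at `g • A`.
* `exists_conj_isFrobeniusAt` : Frobenius elements at two places over `q` are conjugate up to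
  inertia.
* `distinctFrobEigenvalues_of_isFrobeniusAt` : if `ρbar` is unramified at `q` and ONE Frobenius
  element at ONE place over `q` has distinct eigenvalues in `k`, then
  `Contract52.DistinctFrobEigenvalues ρbar q` (all places, all Frobenius elements).
* `inertiaSubgroupIn_le_of_normal` : a normal subgroup containing the inertia group at one place
  over `q` contains the inertia groups at all places over `q`.
-/

set_option autoImplicit false

open scoped Pointwise
open Polynomial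

namespace Fermat.Agent.TW.Primes.FrobConj52

open Fermat.Agent.Lib.FrobeniusExists Fermat.Agent.TW.Primes.PlaceTrans52

section Generic

variable {K L : Type*} [Field K] [Field L] [Algebra K L]

/-- Elementwise characterisation of Frobenius elements. -/
theorem isFrobeniusAt_iff (A : ValuationSubring L) (σ : L ≃ₐ[K] L) (q : ℕ) :
    A.IsFrobeniusAt σ q ↔ σ ∈ A.decompositionSubgroup K ∧
      ∀ x ∈ A, σ x - x ^ q ∈ A.nonunits := by
  constructor
  · intro h
    refine ⟨h.mem_decompositionSubgroup, fun x hx => ?_⟩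
    set g : A.decompositionSubgroup K := ⟨σ, h.mem_decompositionSubgroup⟩ with hg
    set xA : A := ⟨x, hx⟩ with hxA
    have h1 := h.smul_residue_eq (IsLocalRing.residue A xA)
    rw [← IsLocalRing.ResidueField.residue_smul, ← map_pow, ← sub_eq_zero, ← map_sub,
      IsLocalRing.residue_eq_zero_iff, ← ValuationSubring.coe_mem_nonunits_iff] at h1
    exact h1
  · rintro ⟨hσ, h⟩
    refine ⟨hσ, fun xbar => ?_⟩
    obtain ⟨x, rfl⟩ := IsLocalRing.residue_surjective xbar
    rw [← IsLocalRing.ResidueField.residue_smul, ← map_pow, ← sub_eq_zero, ← map_sub,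
      IsLocalRing.residue_eq_zero_iff, ← ValuationSubring.coe_mem_nonunits_iff]
    exact h x x.2

end Generic

/-- `g σ g⁻¹` stabilises `g • A` when `σ` stabilises `A`. -/
theorem conj_mem_decompositionSubgroup_smul (g : GQ) {A : ValuationSubring Qbar} {σ : GQ}
    (hσ : σ ∈ A.decompositionSubgroup ℚ) :
    g * σ * g⁻¹ ∈ (g • A).decompositionSubgroup ℚ := by
  have h1 : σ • A = A := hσ
  show (g * σ * g⁻¹) • (g • A) = g • A
  rw [← mul_smul, mul_assoc, inv_mul_cancel, mul_one, mul_smul, h1]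

/-- `g φ g⁻¹` is a Frobenius element at `g • A`. -/
theorem isFrobeniusAt_smul (g : GQ) {A : ValuationSubring Qbar} {φ : GQ} {q : ℕ}
    (h : A.IsFrobeniusAt φ q) : (g • A).IsFrobeniusAt (g * φ * g⁻¹) q := by
  rw [isFrobeniusAt_iff] at h ⊢
  refine ⟨conj_mem_decompositionSubgroup_smul g h.1, fun x hx => ?_⟩
  rw [Fermat.Agent.PT.BR.UnramBridge13.mem_smul_nonunits_iff]
  have hx' : g⁻¹ x ∈ A := by
    have := (ValuationSubring.mem_pointwise_smul_iff_inv_smul_mem).mp hx
    simpa using this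
  have h2 := h.2 _ hx'
  have h3 : g⁻¹ ((g * φ * g⁻¹) x - x ^ q) = φ (g⁻¹ x) - (g⁻¹ x) ^ q := by
    rw [map_sub, map_pow, AlgEquiv.mul_apply, AlgEquiv.mul_apply, ← AlgEquiv.mul_apply g⁻¹ g,
      inv_mul_cancel, AlgEquiv.one_apply]
  rw [h3]
  exact h2

/-- Frobenius elements at two places over `q` are conjugate up to inertia:
`φ' = τ * (g φ g⁻¹)` with `τ` in the inertia group at `A'`. -/
theorem exists_conj_isFrobeniusAt (q : ℕ) (hq : q.Prime) {A A' : ValuationSubring Qbar}
    (hA : A.LiesOverPrime q) (hA' : A'.LiesOverPrime q) {φ φ' : GQ}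
    (hφ : A.IsFrobeniusAt φ q) (hφ' : A'.IsFrobeniusAt φ' q) :
    ∃ g τ : GQ, g • A = A' ∧ τ ∈ A'.inertiaSubgroupIn ℚ ∧ φ' = τ * (g * φ * g⁻¹) := by
  obtain ⟨g, hg⟩ := exists_smul_eq_of_liesOverPrime q hq A A' hA hA'
  have h1 : A'.IsFrobeniusAt (g * φ * g⁻¹) q := hg ▸ isFrobeniusAt_smul g hφ
  refine ⟨g, φ' * (g * φ * g⁻¹)⁻¹, hg,
    Fermat.Agent.ES.FROB.FrobFacts12.mul_inv_mem_inertiaSubgroupIn A' h1 hφ', ?_⟩
  rw [inv_mul_cancel_right]

/-- A normal subgroup containing the inertia group at one place over `q` contains the inertia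
groups at all places over `q`. -/
theorem inertiaSubgroupIn_le_of_normal (q : ℕ) (hq : q.Prime) {A A' : ValuationSubring Qbar}
    (hA : A.LiesOverPrime q) (hA' : A'.LiesOverPrime q) (N : Subgroup GQ) [N.Normal]
    (h : A.inertiaSubgroupIn ℚ ≤ N) : A'.inertiaSubgroupIn ℚ ≤ N := by
  obtain ⟨g, hg⟩ := exists_smul_eq_of_liesOverPrime q hq A' A hA' hA
  intro σ hσ
  have h1 := Fermat.Agent.PT.BR.UnramBridge13.conj_mem_inertiaSubgroupIn hq hA' g hσ
  rw [hg] at h1
  have h2 : g * σ * g⁻¹ ∈ N := h h1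
  have h3 := Subgroup.Normal.conj_mem ‹N.Normal› _ h2 g⁻¹
  simpa [mul_assoc] using h3

section Eigen

open Fermat.Agent.TW.Spec.Contract52

variable {k : Type} [Field k] (ρbar : ResidualGaloisRep k)

/-- If `ρbar` is unramified at `q` and one Frobenius element at one place over `q` has distinct
eigenvalues `α ≠ β` in `k`, then every Frobenius element at every place over `q` has the same
characteristic polynomial `(X - α)(X - β)`. -/
theorem distinctFrobEigenvalues_of_isFrobeniusAt (q : ℕ) (hq : q.Prime)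
    (hunr : ρbar.IsUnramifiedAt q) {A : ValuationSubring Qbar} (hA : A.LiesOverPrime q)
    {φ : GQ} (hφ : A.IsFrobeniusAt φ q) {α β : k} (hαβ : α ≠ β)
    (hchar : LinearMap.charpoly (ρbar.ρ φ) = (X - C α) * (X - C β)) :
    DistinctFrobEigenvalues ρbar q := by
  intro P hP φ' hφ'
  obtain ⟨g, τ, -, hτ, rfl⟩ := exists_conj_isFrobeniusAt q hq hA hP hφ hφ'
  refine ⟨α, β, hαβ, ?_⟩
  have h1 : ρbar.ρ τ = 1 := hunr P hP τ hτ
  have hinv : ρbar.ρ g * ρbar.ρ g⁻¹ = 1 := by rw [← map_mul, mul_inv_cancel, map_one]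
  have hinv' : ρbar.ρ g⁻¹ * ρbar.ρ g = 1 := by rw [← map_mul, inv_mul_cancel, map_one]
  let e : ρbar.V ≃ₗ[k] ρbar.V := LinearEquiv.ofLinear (ρbar.ρ g) (ρbar.ρ g⁻¹) hinv hinv'
  have h2 : ρbar.ρ (τ * (g * φ * g⁻¹)) = e.conj (ρbar.ρ φ) := by
    rw [map_mul, h1, one_mul, map_mul, map_mul]
    rfl
  rw [h2, LinearEquiv.charpoly_conj, hchar]

end Eigen

end Fermat.Agent.TW.Primes.FrobConj52
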