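import Mathlib
import Fermat.Agent.TW.Primes.FrobConj52
import Fermat.Agent.TW.Cocycle.DecompSurj95
import Fermat.Agent.TW.OrdLocal.PadicPlace97
import Fermat.Agent.TW.Spec.Contract52

/-!
# Program TW (S56), WP8: classes that die locally at `Q` are unramified at `Q` (helper52)

* `exists_level_of_smooth` : a finite smooth module is trivial on an open subgroup.
* `mem_continuousH1S_of_res_eq_zero` : if `M` is finite, smooth and unramified outside `S`, a class
  `y ∈ H¹_{S ∪ Q}(G_ℚ, M)` whose restriction to the local Galois group at every `q ∈ Q` vanishes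
  lies in `H¹_S(G_ℚ, M)`.

Proof: for a cocycle `c` of `y`, `N = {s | s acts trivially on M and c s = 0}` is an open normal
subgroup; `c` is constant on its cosets; it contains the inertia groups at all places over the
primes outside `S` (at `q ∈ Q`: at the distinguished place because `c` is a coboundary on the
image of the local Galois group, which contains the inertia group; at the other places over `q`
by normality and transitivity).
-/

set_option autoImplicit false

open CategoryTheory groupCohomology ExtCitation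

namespace Fermat.Agent.TW.Primes.InertiaKill52

open Fermat.Agent.Lib.FrobeniusExists
open Fermat.Agent.TW.Spec.Defs52 (locAt resAt resH1At)
open Fermat.Agent.TW.Spec.Contract52 (IsSmoothUnramified)

attribute [local instance] isGalois_Qbar isIntegral_Qbar

variable {p : ℕ} [Fact p.Prime]

/-- A finite smooth module is trivial on the absolute Galois group of a finite extension. -/
theorem exists_level_of_smooth (M : Rep.{0} (ZMod p) GQ) [FiniteDimensional (ZMod p) M]
    (hsm : ∀ m : M, ∃ F : IntermediateField ℚ Qbar, FiniteDimensional ℚ F ∧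
      ∀ s ∈ F.fixingSubgroup, M.ρ s m = m) :
    ∃ F : IntermediateField ℚ Qbar, FiniteDimensional ℚ F ∧
      ∀ s ∈ F.fixingSubgroup, M.ρ s = 1 := by
  classical
  haveI : Finite M := Module.finite_of_finite (ZMod p)
  choose Fm hFmfin hFm using hsm
  haveI : ∀ m, FiniteDimensional ℚ (Fm m) := hFmfin
  refine ⟨⨆ m, Fm m, inferInstance, fun s hs => ?_⟩
  apply LinearMap.ext
  intro m
  exact hFm m s (IntermediateField.fixingSubgroup_antitone (le_iSup Fm m) hs)

/-- **Inertia lemma.** -/
theorem mem_continuousH1S_of_res_eq_zero (S Q : Finset Nat.Primes) (M : Rep.{0} (ZMod p) GQ)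
    (hM : IsSmoothUnramified p S M) {y : H1 M}
    (hy : y ∈ continuousH1S (S ∪ Q) M) (h : ∀ q ∈ Q, resH1At q M y = 0) :
    y ∈ continuousH1S S M := by
  classical
  obtain ⟨c, hc, rfl⟩ := (mem_continuousH1S_iff (S ∪ Q) M y).1 hy
  obtain ⟨F, hF, hcF⟩ := hc
  haveI := hM.finite
  obtain ⟨FM, hFMfin, hFM⟩ := exists_level_of_smooth M hM.smooth
  haveI := hF.1
  haveI := hFMfin
  have hcoc : ∀ s t : GQ, c.1 (s * t) = M.ρ s (c.1 t) + c.1 s :=
    fun s t => (mem_cocycles₁_iff c.1).1 c.2 s t
  have hc1 : c.1 1 = 0 := cocycles₁_map_one c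
  have hρinv : ∀ s : GQ, M.ρ s = 1 → M.ρ s⁻¹ = 1 := by
    intro s hs
    have h1 : M.ρ s⁻¹ * M.ρ s = 1 := by rw [← map_mul, inv_mul_cancel, map_one]
    rwa [hs, mul_one] at h1
  -- the subgroup
  let N : Subgroup GQ :=
    { carrier := {s | M.ρ s = 1 ∧ c.1 s = 0}
      mul_mem' := by
        rintro s t ⟨hs1, hs2⟩ ⟨ht1, ht2⟩
        refine ⟨by rw [map_mul, hs1, ht1, one_mul], ?_⟩
        rw [hcoc, ht2, map_zero, hs2, add_zero]
      one_mem' := ⟨map_one _, hc1⟩
      inv_mem' := by
        rintro s ⟨hs1, hs2⟩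
        refine ⟨hρinv s hs1, ?_⟩
        have h1 := hcoc s⁻¹ s
        rw [inv_mul_cancel, hc1, hs2, map_zero, zero_add] at h1
        exact h1.symm }
  have hNmem : ∀ s : GQ, s ∈ N ↔ (M.ρ s = 1 ∧ c.1 s = 0) := fun s => Iff.rfl
  haveI hNnormal : N.Normal := by
    constructor
    rintro n ⟨hn1, hn2⟩ g
    refine ⟨by rw [map_mul, map_mul, hn1, mul_one, ← map_mul, mul_inv_cancel, map_one], ?_⟩
    have h1 := hcoc (g * n) g⁻¹
    have h2 := hcoc g n
    have h3 := hcoc g g⁻¹
    rw [mul_inv_cancel, hc1] at h3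
    rw [h1, h2, hn2, map_zero, zero_add, map_mul, Module.End.mul_apply, hn1, Module.End.one_apply]
    exact h3.symm
  -- `N` is open
  have hLN : (F ⊔ FM).fixingSubgroup ≤ N := by
    intro s hs
    rw [IntermediateField.fixingSubgroup_sup] at hs
    refine ⟨hFM s hs.2, ?_⟩
    have h1 : c.1 (1 * s) = c.1 1 := hcF 1 s hs.1
    rwa [one_mul, hc1] at h1
  have hNopen : IsOpen (N : Set GQ) :=
    Subgroup.isOpen_mono hLN (F ⊔ FM).fixingSubgroup_isOpen
  have hNclosed : IsClosed (N : Set GQ) := Subgroup.isClosed_of_isOpen N hNopen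
  let Nc : ClosedSubgroup GQ := ⟨N, hNclosed⟩
  have hfix : (IntermediateField.fixedField N).fixingSubgroup = N :=
    InfiniteGalois.fixingSubgroup_fixedField Nc
  have hle : IntermediateField.fixedField N ≤ F ⊔ FM := by
    have h1 := IntermediateField.fixedField_antitone hLN
    rwa [InfiniteGalois.fixedField_fixingSubgroup] at h1
  -- inertia at the primes outside `S` lies in `N`
  have hinert : ∀ q : Nat.Primes, q ∉ S → ∀ A : ValuationSubring Qbar,
      A.LiesOverPrime (q : ℕ) → A.inertiaSubgroupIn ℚ ≤ N := by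
    intro q hqS A hA
    by_cases hqQ : q ∈ Q
    · -- the distinguished place, then normality
      refine Fermat.Agent.TW.Primes.FrobConj52.inertiaSubgroupIn_le_of_normal (q : ℕ) q.2
        (Fermat.Agent.TW.OrdLocal.PadicPlace97.primeLocalPlace_liesOverPrime q) hA N ?_
      intro σ hσ
      have hσ1 : M.ρ σ = 1 := hM.unramified q hqS _
        (Fermat.Agent.TW.OrdLocal.PadicPlace97.primeLocalPlace_liesOverPrime q) σ hσ
      refine ⟨hσ1, ?_⟩
      obtain ⟨τ, rfl⟩ :=
        Fermat.Agent.TW.Cocycle.DecompSurj95.exists_primeLocalToGlobal_eq_of_mem_inertia q hσ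
      have h0 := h q hqQ
      have h1 := H1π_comp_map_apply (A := M) (B := resAt q M) (locAt q) (𝟙 (resAt q M)) c
      have h2 : (H1π (resAt q M)).hom (mapCocycles₁ (locAt q) (𝟙 (resAt q M)) c) = 0 :=
        h1.symm.trans h0
      rw [H1π_eq_zero_iff] at h2
      obtain ⟨m, hm⟩ := h2
      have h3 := congrFun hm τ
      have h4 : (mapCocycles₁ (locAt q) (𝟙 (resAt q M)) c) τ = c.1 (locAt q τ) := rfl
      have h5 : (d₀₁ (resAt q M)).hom m τ = M.ρ (locAt q τ) m - m := rfl
      rw [h4, h5] at h3
      rw [← h3, hσ1, Module.End.one_apply, sub_self]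
    · have hq : q ∉ S ∪ Q := fun hmem => (Finset.mem_union.mp hmem).elim hqS hqQ
      intro σ hσ
      have hσF : σ ∈ F.fixingSubgroup := hF.2 q hq A hA hσ
      refine ⟨hM.unramified q hqS A hA σ hσ, ?_⟩
      have h1 : c.1 (1 * σ) = c.1 1 := hcF 1 σ hσF
      rwa [one_mul, hc1] at h1
  -- conclusion
  refine (mem_continuousH1S_iff S M _).2 ⟨c, ⟨IntermediateField.fixedField N, ⟨?_, ?_⟩, ?_⟩, rfl⟩
  · exact FiniteDimensional.of_injective (IntermediateField.inclusion hle).toLinearMap
      (IntermediateField.inclusion_injective hle)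
  · intro q hq A hA
    rw [hfix]
    exact hinert q hq A hA
  · intro g s hs
    rw [hfix] at hs
    obtain ⟨-, hs2⟩ := hs
    show c.1 (g * s) = c.1 g
    rw [hcoc, hs2, map_zero, zero_add]

end Fermat.Agent.TW.Primes.InertiaKill52
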