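import Mathlib
import Fermat.Agent.TW.Primes.InertiaKill52

/-!
# Program TW (S56), WP8: greedy choice of Taylor–Wiles primes (helper52)

* `exists_killing_finset` : abstract linear algebra. If every nonzero vector of a finite-dimensional
  space `W` is detected by a "good" index outside any given finite set, there is a set of exactly
  `finrank W` good indices detecting every nonzero vector of `W` (greedy choice, then padding).
* `twPrimesExist_of_detection` : `Contract52.TWPrimesExist p ρbar` from
  (sm) `ad⁰ρbar^*(1)` is finite, smooth and unramified outside `Smin`,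
  (fin) `H¹_{Smin}(G_ℚ, ad⁰ρbar^*(1))` is finite-dimensional,
  (det) every nonzero class of it is detected by a Taylor–Wiles prime of any level outside any
  finite set,
  using the inertia lemma `InertiaKill52.mem_continuousH1S_of_res_eq_zero`.
-/

set_option autoImplicit false

open CategoryTheory groupCohomology ExtCitation Module

namespace Fermat.Agent.TW.Primes.Greedy52

section Abstract

variable {K H I : Type*} [Field K] [AddCommGroup H] [Module K H]
  {X : I → Type*} [∀ i, AddCommGroup (X i)] [∀ i, Module K (X i)]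
  (f : ∀ i, H →ₗ[K] X i) (W : Submodule K H)

/-- The vectors of `W` killed by all `f i`, `i ∈ s`. -/
def killed (s : Finset I) : Submodule K H where
  carrier := {y | y ∈ W ∧ ∀ i ∈ s, f i y = 0}
  add_mem' := by
    rintro a b ⟨ha, ha'⟩ ⟨hb, hb'⟩
    exact ⟨W.add_mem ha hb, fun i hi => by rw [map_add, ha' i hi, hb' i hi, add_zero]⟩
  zero_mem' := ⟨W.zero_mem, fun i _ => map_zero _⟩
  smul_mem' := by
    rintro c a ⟨ha, ha'⟩
    exact ⟨W.smul_mem c ha, fun i hi => by rw [map_smul, ha' i hi, smul_zero]⟩

theorem mem_killed_iff (s : Finset I) (y : H) :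
    y ∈ killed f W s ↔ y ∈ W ∧ ∀ i ∈ s, f i y = 0 := Iff.rfl

theorem killed_le (s : Finset I) : killed f W s ≤ W := fun _ h => h.1

theorem killed_mono [DecidableEq I] (s : Finset I) (i : I) :
    killed f W (insert i s) ≤ killed f W s :=
  fun _ h => ⟨h.1, fun j hj => h.2 j (Finset.mem_insert_of_mem hj)⟩

/-- **Greedy choice with padding.** -/
theorem exists_killing_finset [DecidableEq I] [FiniteDimensional K W] (good : I → Prop)
    (hdet : ∀ T' : Finset I, ∀ y ∈ W, y ≠ 0 → ∃ i, i ∉ T' ∧ good i ∧ f i y ≠ 0) :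
    ∃ s : Finset I, s.card = finrank K W ∧ (∀ i ∈ s, good i) ∧
      ∀ y ∈ W, (∀ i ∈ s, f i y = 0) → y = 0 := by
  classical
  haveI hfinK : ∀ s : Finset I, FiniteDimensional K (killed f W s) := fun s =>
    Submodule.finiteDimensional_of_le (killed_le f W s)
  have key : ∀ k : ℕ, k ≤ finrank K W → ∃ s : Finset I, s.card = k ∧ (∀ i ∈ s, good i) ∧
      finrank K (killed f W s) + k ≤ finrank K W := by
    intro k
    induction k with
    | zero =>
      intro _
      exact ⟨∅, rfl, fun i hi => absurd hi (Finset.notMem_empty i),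
        by rw [add_zero]; exact Submodule.finrank_mono (killed_le f W ∅)⟩
    | succ k ih =>
      intro hk
      obtain ⟨s, hcard, hgood, hdim⟩ := ih (Nat.le_of_succ_le hk)
      -- a nonzero vector of `W`, in `killed s` if possible
      have hW : ∃ y ∈ W, y ≠ 0 ∧ (killed f W s ≠ ⊥ → y ∈ killed f W s) := by
        by_cases hU : killed f W s = ⊥
        · have hWne : W ≠ ⊥ := by
            intro hbot
            rw [hbot, finrank_bot] at hk
            omega
          obtain ⟨y, hy, hy0⟩ := (Submodule.ne_bot_iff W).mp hWne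
          exact ⟨y, hy, hy0, fun h => absurd hU h⟩
        · obtain ⟨y, hy, hy0⟩ := (Submodule.ne_bot_iff _).mp hU
          exact ⟨y, hy.1, hy0, fun _ => hy⟩
      obtain ⟨y, hyW, hy0, hyU⟩ := hW
      obtain ⟨i, his, higood, hiy⟩ := hdet s y hyW hy0
      refine ⟨insert i s, by rw [Finset.card_insert_of_notMem his, hcard], ?_, ?_⟩
      · intro j hj
        rcases Finset.mem_insert.mp hj with rfl | hj
        · exact higood
        · exact hgood j hj
      · by_cases hU : killed f W s = ⊥
        · have h0 : killed f W (insert i s) = ⊥ := by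
            rw [eq_bot_iff, ← hU]
            exact killed_mono f W s i
          rw [h0, finrank_bot]
          omega
        · have hlt : killed f W (insert i s) < killed f W s := by
            refine lt_of_le_of_ne (killed_mono f W s i) ?_
            intro heq
            have hy' : y ∈ killed f W (insert i s) := heq ▸ hyU hU
            exact hiy (hy'.2 i (Finset.mem_insert_self i s))
          have := Submodule.finrank_lt_finrank_of_lt hlt
          omega
  obtain ⟨s, hcard, hgood, hdim⟩ := key (finrank K W) le_rfl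
  refine ⟨s, hcard, hgood, fun y hy hys => ?_⟩
  have h0 : finrank K (killed f W s) = 0 := by omega
  have hbot : killed f W s = ⊥ := Submodule.finrank_eq_zero.mp h0
  have : y ∈ killed f W s := ⟨hy, hys⟩
  rw [hbot] at this
  exact (Submodule.mem_bot K).mp this

end Abstract

section TW

open Fermat.Agent.TW.Spec.Defs52 Fermat.Agent.TW.Spec.Contract52
open Fermat.Agent.TW.Primes.InertiaKill52

variable (p : ℕ) [Fact p.Prime] {k : Type} [Field k] [Algebra (ZMod p) k]
  (ρbar : ResidualGaloisRep k)

/-- **Detection**: every nonzero class of `H¹_{Smin}(G_ℚ, ad⁰ρbar^*(1))` is detected by a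
Taylor–Wiles prime of level `n` outside any finite set (WP8 core: Chebotarev + group theory). -/
def DetectsDual (Smin : Finset Nat.Primes) : Prop :=
  ∀ (n : ℕ) (T' : Finset ℕ), ∀ y ∈ continuousH1S Smin (ad0Dual p ρbar), y ≠ 0 →
    ∃ q : Nat.Primes, (q : ℕ) ∉ T' ∧ p ^ (n + 1) ∣ (q : ℕ) - 1 ∧
      DistinctFrobEigenvalues ρbar (q : ℕ) ∧ resH1At q (ad0Dual p ρbar) y ≠ 0

/-- **WP8, top assembly.** -/
theorem twPrimesExist_of_detection
    (hsm : ∀ Smin : Finset Nat.Primes, pPrime p ∈ Smin →
      (∀ q : Nat.Primes, q ∉ Smin → ρbar.IsUnramifiedAt q) →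
        IsSmoothUnramified p Smin (ad0Dual p ρbar))
    (hfin : ∀ Smin : Finset Nat.Primes, pPrime p ∈ Smin →
      (∀ q : Nat.Primes, q ∉ Smin → ρbar.IsUnramifiedAt q) →
        FiniteDimensional (ZMod p) (continuousH1S Smin (ad0Dual p ρbar)))
    (hdet : ∀ Smin : Finset Nat.Primes, pPrime p ∈ Smin →
      (∀ q : Nat.Primes, q ∉ Smin → ρbar.IsUnramifiedAt q) → DetectsDual p ρbar Smin) :
    TWPrimesExist p ρbar := by
  classical
  intro T Smin hpS hT hunr
  haveI := hfin Smin hpS hunr
  refine ⟨finrank (ZMod p) (continuousH1S Smin (ad0Dual p ρbar)), fun n => ?_⟩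
  obtain ⟨s, hcard, hgood, hkill⟩ := exists_killing_finset
    (fun q : Nat.Primes => resH1At q (ad0Dual p ρbar)) (continuousH1S Smin (ad0Dual p ρbar))
    (fun q : Nat.Primes => (q : ℕ) ∉ T ∧ p ^ (n + 1) ∣ (q : ℕ) - 1 ∧
      DistinctFrobEigenvalues ρbar (q : ℕ))
    (fun T' y hy hy0 => by
      obtain ⟨q, hqT, hqn, hqd, hqy⟩ := hdet Smin hpS hunr n
        (T ∪ T'.image (fun q : Nat.Primes => (q : ℕ))) y hy hy0
      refine ⟨q, fun hq => hqT (Finset.mem_union_right _ (Finset.mem_image_of_mem _ hq)),
        ⟨fun hq => hqT (Finset.mem_union_left _ hq), hqn, hqd⟩, hqy⟩)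
  let e : Fin (finrank (ZMod p) (continuousH1S Smin (ad0Dual p ρbar))) ≃ ↥s :=
    (Finset.equivFinOfCardEq hcard).symm
  have himage : Finset.univ.image (fun i => (e i : Nat.Primes)) = s := by
    ext q
    simp only [Finset.mem_image, Finset.mem_univ, true_and]
    constructor
    · rintro ⟨i, rfl⟩
      exact (e i).2
    · intro hq
      exact ⟨e.symm ⟨q, hq⟩, by rw [Equiv.apply_symm_apply]⟩
  refine ⟨fun i => (e i : Nat.Primes), Subtype.val_injective.comp e.injective,
    fun i => ⟨(hgood _ (e i).2).1, (hgood _ (e i).2).2.1⟩, fun i => (hgood _ (e i).2).2.2, ?_⟩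
  rw [himage]
  intro y hy hys
  exact hkill y (mem_continuousH1S_of_res_eq_zero Smin s (ad0Dual p ρbar) (hsm Smin hpS hunr) hy hys)
    hys

end TW

end Fermat.Agent.TW.Primes.Greedy52
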