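/-
Program TW (S56), WP8 (helper76): `Contract52.TWPrimesExist p ρbar` from the hypotheses of S56 and
the group-theoretic input (c) (`Detect76.CohInput`).  Glue of `Detect76.detection`,
`Greedy52.twPrimesExist_of_detection`, `SmoothEnd95`, PT finiteness of `H¹_S`.
-/
import Mathlib
import Fermat.Agent.TW.Primes.Detect76
import Fermat.Agent.TW.Primes.Greedy52
import Fermat.Agent.TW.Cocycle.SmoothEnd95
import Fermat.Agent.PT.PRO.FinH1S55_9
import Fermat.Agent.PT.GLOB.H1FiniteCoh15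

set_option autoImplicit false

namespace Fermat.Agent.TW.Primes.TWPrimes76

open Matrix groupCohomology ExtCitation CategoryTheory Polynomial
open Fermat.Agent.TW.Spec.Defs52 Fermat.Agent.TW.Spec.Contract52
open Fermat.Agent.TW.Primes.Detect76 Fermat.Agent.TW.Primes.Greedy52

local notation "Qb" => AlgebraicClosure ℚ
local notation "M₂" => Matrix (Fin 2) (Fin 2)

variable (p : ℕ) [Fact p.Prime] {k : Type} [Field k] [Algebra (ZMod p) k]
  (ρbar : ResidualGaloisRep k) [Finite k]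

/-- `Greedy52.DetectsDual` from `Detect76.detection`. -/
theorem detectsDual (hp2 : p ≠ 2) (habs : ρbar.IsAbsolutelyIrreducible)
    (hdet : (GaloisRepAdic.ofResidualGaloisRep ρbar).DetIsCyclotomic p)
    (hsplit : ∀ σ : GQ, ∃ α β : k, LinearMap.charpoly (ρbar.ρ σ) = (X - C α) * (X - C β))
    (hTW : ∀ (K : Type) [Field K] [Algebra k K] (G : Subgroup GQ), G.index = 2 →
      ∀ V : Submodule K (ρbar.baseChange K).V,
        (∀ σ ∈ G, ∀ x ∈ V, (ρbar.baseChange K).ρ σ x ∈ V) → V = ⊥ ∨ V = ⊤)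
    (hC : ∀ b : Module.Basis (Fin 2) k ρbar.V, CohInput p ρbar b)
    (Smin : Finset Nat.Primes) (hunr : ∀ q : Nat.Primes, q ∉ Smin → ρbar.IsUnramifiedAt q) :
    DetectsDual p ρbar Smin := by
  classical
  intro n T' y hy hy0
  obtain ⟨q, hqT, hqn, hqd, hqy⟩ := detection p ρbar hp2 habs hdet hsplit hTW hC n
    (T' ∪ Smin.image (fun q : Nat.Primes => (q : ℕ)))
    (fun q hq => hunr q fun hqS => hq (Finset.mem_union_right _ (Finset.mem_image_of_mem _ hqS)))
    Smin y hy hy0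
  exact ⟨q, fun h => hqT (Finset.mem_union_left _ h), hqn, hqd, hqy⟩

/-- Finiteness of `H¹_S(G_ℚ, ad⁰ρbar^*(1))`. -/
theorem finiteDimensional_continuousH1S_ad0Dual (Smin : Finset Nat.Primes) (hpS : pPrime p ∈ Smin)
    (hunr : ∀ q : Nat.Primes, q ∉ Smin → ρbar.IsUnramifiedAt q) :
    FiniteDimensional (ZMod p) (continuousH1S Smin (ad0Dual p ρbar)) := by
  have hkfin : Module.Finite (ZMod p) k := Module.Finite.of_finite
  have hM := Fermat.Agent.TW.Cocycle.SmoothEnd95.isSmoothUnramified_ad0 p ρbar Smin hunr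
  have hM' := Fermat.Agent.TW.Cocycle.SmoothEnd95.isSmoothUnramified_ad0Dual p ρbar Smin hpS hunr
  have := hM.finite
  have := hM'.finite
  obtain ⟨F₀, hF₀, hζ, -, h2⟩ := Fermat.Agent.PT.PRO.FinH1S55_9.exists_F0 Smin hpS (ad0 p ρbar)
    hM.smooth hM.unramified
  have := hF₀.1
  exact Fermat.Agent.PT.GLOB.H1FiniteCoh15.finiteDimensional_continuousH1S Smin (ad0Dual p ρbar)
    F₀ hF₀ (Fermat.Agent.S14.Fields.zeta_spec p) hζ (fun s hs a => by
      have h3 : (ad0Dual p ρbar).ρ s = 1 := h2 s hs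
      rw [h3]; rfl)

/-- **WP8**: Taylor–Wiles primes exist, given the group-theoretic input (c). -/
theorem twPrimesExist (hp2 : p ≠ 2) (habs : ρbar.IsAbsolutelyIrreducible)
    (hdet : (GaloisRepAdic.ofResidualGaloisRep ρbar).DetIsCyclotomic p)
    (hsplit : ∀ σ : GQ, ∃ α β : k, LinearMap.charpoly (ρbar.ρ σ) = (X - C α) * (X - C β))
    (hTW : ∀ (K : Type) [Field K] [Algebra k K] (G : Subgroup GQ), G.index = 2 →
      ∀ V : Submodule K (ρbar.baseChange K).V,
        (∀ σ ∈ G, ∀ x ∈ V, (ρbar.baseChange K).ρ σ x ∈ V) → V = ⊥ ∨ V = ⊤)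
    (hC : ∀ b : Module.Basis (Fin 2) k ρbar.V, CohInput p ρbar b) :
    TWPrimesExist p ρbar := by
  have hkfin : Module.Finite (ZMod p) k := Module.Finite.of_finite
  exact twPrimesExist_of_detection p ρbar
    (fun Smin hpS hunr =>
      Fermat.Agent.TW.Cocycle.SmoothEnd95.isSmoothUnramified_ad0Dual p ρbar Smin hpS hunr)
    (fun Smin hpS hunr => finiteDimensional_continuousH1S_ad0Dual p ρbar Smin hpS hunr)
    (fun Smin _ hunr => detectsDual p ρbar hp2 habs hdet hsplit hTW hC Smin hunr)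

end Fermat.Agent.TW.Primes.TWPrimes76
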