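/-
Program TW (S56), WP8 (helper76): the (c)-ADAPTER.

`FinVanish k` is the finite-group statement (c′): `H¹(Γ, ad⁰ ⊗ det) = 0` for a finite group `Γ`
with a faithful, `k`-split, `k`-irreducible `r : Γ →* M₂(k)` having an element of determinant `2`.
`cohInput_of_finVanish` deduces `Detect76.CohInput` (for `G_ℚ`) from it:
* a cocycle vanishing on `E ∩ ker r` vanishes on `ker r` (`eq_zero_of_rep_eq_one`: `G_ℚ / E` is
  abelian, so the values on `ker r` are invariants of `ad⁰(1)`, which vanish by `AdIrr76.stable_line`);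
* hence it factors through the finite group `G_ℚ ⧸ ker r` (`isCoboundary_of_finVanish`);
* a Frobenius element at `2` has determinant `2` (`exists_det_eq_two`).
`twPrimesExist_of_finVanish`: `Contract52.TWPrimesExist` from the S56 hypotheses and `FinVanish k`.
-/
import Mathlib
import Fermat.Agent.TW.Primes.Detect76
import Fermat.Agent.TW.Primes.TWPrimes76
import Fermat.Agent.ES.FROB.FrobFacts12
import Fermat.Agent.TW.OrdLocal.PadicPlace97

set_option autoImplicit false

namespace Fermat.Agent.TW.Primes.CohAdapter76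

open Matrix Polynomial
open Fermat.Agent.TW.Primes.AdIrr76 Fermat.Agent.TW.Primes.Regular76
  Fermat.Agent.TW.Primes.Sigma76 Fermat.Agent.TW.Primes.GQBridge76
  Fermat.Agent.TW.Primes.Cheb76 Fermat.Agent.TW.Primes.Detect76

local notation "Qb" => AlgebraicClosure ℚ
local notation "GQ" => (AlgebraicClosure ℚ ≃ₐ[ℚ] AlgebraicClosure ℚ)
local notation "M₂" => Matrix (Fin 2) (Fin 2)

/-- (c′): the finite-group statement.  For a finite group `Γ` with a faithful two-dimensional
representation `r` over `k`, all of whose elements have their eigenvalues in `k`, irreducible over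
`k` and with some element of determinant `2`, every cocycle for the twisted adjoint action on
trace-zero matrices is a coboundary. -/
def FinVanish (k : Type) [Field k] : Prop :=
  ∀ (Γ : Type) [Group Γ] [Finite Γ] (r : Γ →* M₂ k), Function.Injective r →
    (∀ σ, ∃ α β : k, (r σ).charpoly = (X - C α) * (X - C β)) →
    (¬ ∃ v : Fin 2 → k, v ≠ 0 ∧ ∀ σ, ∃ c : k, r σ *ᵥ v = c • v) →
    (∃ σ, (r σ).det = 2) →
    ∀ ψ : Γ → M₂ k, IsCocycle r ψ → IsCoboundary r ψ

section Abstract

variable {k : Type*} [Field k] {Γ : Type*} [Group Γ] (r : Γ →* M₂ k)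

theorem tw_eq_self_of_rep_eq_one {h : Γ} (hh : r h = 1) (X : M₂ k) : tw r h X = X := by
  rw [tw, hh, rep_inv_eq_one r hh, Matrix.det_one, one_smul, one_mul, mul_one]

/-- A cocycle vanishing on `E ∩ ker r`, with `Γ / E` abelian, vanishes on `ker r`. -/
theorem eq_zero_of_rep_eq_one (h2 : (2 : k) ≠ 0) (K : Type*) [Field K] [Algebra k K]
    [IsAlgClosed K] (hirr : ¬ HasCommonEigenvector K r ⊤)
    (hirr2 : ∀ G : Subgroup Γ, G.index = 2 → ¬ HasCommonEigenvector K r G)
    (E : Subgroup Γ) (hab : ∀ g h : Γ, g * h * g⁻¹ * h⁻¹ ∈ E)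
    {ψ : Γ → M₂ k} (hψ : IsCocycle r ψ) (hZ : ∀ τ ∈ E, r τ = 1 → ψ τ = 0)
    {h : Γ} (hh : r h = 1) : ψ h = 0 := by
  by_contra hne
  have hinv : ∀ σ : Γ, tw r σ (ψ h) = ψ h := by
    intro σ
    have hc1 : r (σ * h * σ⁻¹ * h⁻¹) = 1 := by
      rw [map_mul, map_mul, map_mul, hh, rep_inv_eq_one r hh, mul_one, mul_one, rep_mul_inv]
    have hc0 : ψ (σ * h * σ⁻¹ * h⁻¹) = 0 := hZ _ (hab σ h) hc1
    have e1 : σ * h * σ⁻¹ = (σ * h * σ⁻¹ * h⁻¹) * h := by group
    have h3 := hψ.map_conj σ h (tw_eq_self_of_rep_eq_one r hh)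
    rw [e1, hψ.map_mul, hc0, zero_add, tw_eq_self_of_rep_eq_one r hc1] at h3
    exact h3.symm
  have hst : ∀ σ, ∃ c : k, r σ * ψ h = c • (ψ h * r σ) := by
    intro σ
    have hd : (r σ).det ≠ 0 := det_ne_zero r σ
    refine ⟨(r σ).det⁻¹, ?_⟩
    have h4 := hinv σ
    unfold tw at h4
    have h5 : (r σ).det • (r σ * ψ h) = ψ h * r σ := by
      calc (r σ).det • (r σ * ψ h) = ((r σ).det • (r σ * ψ h * r σ⁻¹)) * r σ := by
            rw [Matrix.smul_mul, mul_assoc (r σ * ψ h), rep_inv_mul, mul_one]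
        _ = ψ h * r σ := by rw [h4]
    rw [← h5, smul_smul, inv_mul_cancel₀ hd, one_smul]
  rcases stable_line h2 K r hne (hψ.trace_eq h) hst with h6 | ⟨G, hG, h6⟩
  · exact hirr h6
  · exact hirr2 G hG h6

end Abstract


section Quotient

variable {k : Type} [Field k] {Γ : Type} [Group Γ] (r : Γ →* M₂ k)

/-- The representation induced on `Γ ⧸ ker r`. -/
noncomputable def rbarQ : Γ ⧸ r.ker →* M₂ k :=
  QuotientGroup.lift r.ker r (fun _ hx => hx)

theorem rbarQ_mk (g : Γ) : rbarQ r (QuotientGroup.mk g) = r g := rfl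

theorem rbarQ_injective : Function.Injective (rbarQ r) := by
  intro a b
  induction a using QuotientGroup.induction_on with
  | H a =>
    induction b using QuotientGroup.induction_on with
    | H b =>
      intro hab
      rw [rbarQ_mk, rbarQ_mk] at hab
      apply QuotientGroup.eq.mpr
      show r (a⁻¹ * b) = 1
      rw [map_mul, ← hab, rep_inv_mul]

theorem tw_rbarQ (g : Γ) (X : M₂ k) :
    tw (rbarQ r) (QuotientGroup.mk g) X = tw r g X := rfl

/-- Reduction of the vanishing statement to the finite quotient `Γ ⧸ ker r`. -/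
theorem isCoboundary_of_finVanish [Finite k] (hFV : FinVanish k)
    (hsplit : ∀ σ, ∃ α β : k, (r σ).charpoly = (X - C α) * (X - C β))
    (hirrk : ¬ ∃ v : Fin 2 → k, v ≠ 0 ∧ ∀ σ, ∃ c : k, r σ *ᵥ v = c • v)
    (hdet2 : ∃ σ, (r σ).det = 2)
    {ψ : Γ → M₂ k} (hψ : IsCocycle r ψ) (hker : ∀ h, r h = 1 → ψ h = 0) :
    IsCoboundary r ψ := by
  have hconst : ∀ a b : Γ, a⁻¹ * b ∈ r.ker → ψ a = ψ b := by
    intro a b hab
    have e : b = a * (a⁻¹ * b) := by group
    rw [e, hψ.map_mul, hker _ hab, tw_zero, add_zero]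
  let ψbar : Γ ⧸ r.ker → M₂ k := fun x =>
    Quotient.liftOn' x ψ (fun a b hab => hconst a b (QuotientGroup.leftRel_apply.mp hab))
  have hψbar : ∀ g : Γ, ψbar (QuotientGroup.mk g) = ψ g := fun g => rfl
  have hcoc : IsCocycle (rbarQ r) ψbar := by
    refine ⟨fun x => ?_, fun x y => ?_⟩
    · induction x using QuotientGroup.induction_on with
      | H a => rw [hψbar]; exact hψ.trace_eq a
    · induction x using QuotientGroup.induction_on with
      | H a =>
        induction y using QuotientGroup.induction_on with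
        | H b =>
          rw [← QuotientGroup.mk_mul, hψbar, hψbar, hψbar, tw_rbarQ]
          exact hψ.map_mul a b
  have hfin : Finite (Γ ⧸ r.ker) := Finite.of_injective _ (rbarQ_injective r)
  have h1 := hFV (Γ ⧸ r.ker) (rbarQ r) (rbarQ_injective r)
    (fun x => by
      induction x using QuotientGroup.induction_on with
      | H a => exact hsplit a)
    (by
      rintro ⟨v, hv, h⟩
      exact hirrk ⟨v, hv, fun σ => h (QuotientGroup.mk σ)⟩)
    (by
      obtain ⟨σ, hσ⟩ := hdet2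
      exact ⟨QuotientGroup.mk σ, hσ⟩)
    ψbar hcoc
  obtain ⟨Y, hY, h⟩ := h1
  exact ⟨Y, hY, fun σ => h (QuotientGroup.mk σ)⟩

end Quotient

section Galois

variable (p : ℕ) [hp : Fact p.Prime]

/-- `G_ℚ / fixRoots (p ^ n)` is abelian. -/
theorem commutator_mem_fixRoots (n : ℕ) (hn : n ≠ 0) (g h : GQ) :
    g * h * g⁻¹ * h⁻¹ ∈ fixRoots (p ^ n) := by
  apply ker_cycloMod_le p n hn
  rw [MonoidHom.mem_ker, map_mul, map_mul, map_mul, map_inv, map_inv]
  rw [mul_comm (cycloMod p n g), mul_assoc, mul_assoc, mul_inv_cancel_left, mul_inv_cancel]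

variable {k : Type} [Field k] {ρbar : ResidualGaloisRep k} (b : Module.Basis (Fin 2) k ρbar.V)

open Fermat.Agent.ES.J.CycloChar8 in
/-- Some element of `G_ℚ` has determinant `2` (a Frobenius element at `2`). -/
theorem exists_det_eq_two (hp2 : p ≠ 2)
    (hdet : (GaloisRepAdic.ofResidualGaloisRep ρbar).DetIsCyclotomic p) :
    ∃ σ : GQ, (matRep ρbar b σ).det = 2 := by
  have h2p : Nat.Prime 2 := Nat.prime_two
  set P := ExtCitation.primeLocalPlace ⟨2, h2p⟩ with hP
  have hPl : P.LiesOverPrime 2 :=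
    Fermat.Agent.TW.OrdLocal.PadicPlace97.primeLocalPlace_liesOverPrime ⟨2, h2p⟩
  obtain ⟨σ, hσ⟩ := Fermat.Agent.ES.FROB.FrobFacts12.exists_isFrobeniusAt_of 2 h2p P hPl
  refine ⟨σ, ?_⟩
  have h1 : (cyclo p σ : ℤ_[p]) = ((2 : ℕ) : ℤ_[p]) :=
    cyclo_of_isFrobeniusAt p h2p (Ne.symm hp2) P hPl hσ
  have h3 := det_eq_natCast_of_detIsCyclotomic b p hdet one_ne_zero (σ := σ) (a := 2) (by
    intro μ hμ
    have h4 := cyclo_spec p σ (n := 1) μ hμ
    rw [h1, map_natCast] at h4
    have hp3 : 2 < p ^ 1 := by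
      rw [pow_one]
      have := hp.out.two_le
      omega
    have h5 : ((2 : ℕ) : ZMod (p ^ 1)).val = 2 := by
      have : NeZero (p ^ 1) := ⟨pow_ne_zero _ hp.out.ne_zero⟩
      rw [ZMod.val_natCast, Nat.mod_eq_of_lt hp3]
    rw [h5] at h4
    exact h4)
  rw [h3, Nat.cast_ofNat]

variable [Finite k]

/-- **The adapter.**  The finite-group statement (c′) implies the input (c) of `detection`. -/
theorem cohInput_of_finVanish (hFV : FinVanish k) (hp2 : p ≠ 2)
    (habs : ρbar.IsAbsolutelyIrreducible)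
    (hdet : (GaloisRepAdic.ofResidualGaloisRep ρbar).DetIsCyclotomic p)
    (hsplit : ∀ σ : GQ, ∃ α β : k, LinearMap.charpoly (ρbar.ρ σ) = (X - C α) * (X - C β))
    (hTW : ∀ (K : Type) [Field K] [Algebra k K] (G : Subgroup GQ), G.index = 2 →
      ∀ V : Submodule K (ρbar.baseChange K).V,
        (∀ σ ∈ G, ∀ x ∈ V, (ρbar.baseChange K).ρ σ x ∈ V) → V = ⊥ ∨ V = ⊤) :
    CohInput p ρbar b := by
  intro n ψ hψ _ hZ
  have h2 : (2 : k) ≠ 0 := two_ne_zero_of_detIsCyclotomic p ρbar hp2 hdet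
  have hirr := not_hasCommonEigenvector_top b habs
  have hirr2 := fun G hG => not_hasCommonEigenvector_of_index_two b hTW G hG
  have hker : ∀ h : GQ, matRep ρbar b h = 1 → ψ h = 0 := fun h hh =>
    eq_zero_of_rep_eq_one (matRep ρbar b) h2 (AlgebraicClosure k) hirr hirr2
      (fixRoots (p ^ (n + 1))) (commutator_mem_fixRoots p (n + 1) (Nat.succ_ne_zero n)) hψ
      (fun τ hτ h1 => hZ τ hτ ⟨1, by rw [h1, one_smul]⟩) hh
  have hirrk : ¬ ∃ v : Fin 2 → k, v ≠ 0 ∧ ∀ σ, ∃ c : k, matRep ρbar b σ *ᵥ v = c • v := by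
    rintro ⟨v, hv, h⟩
    exact hirr (hasCommonEigenvector_of_base (matRep ρbar b) ⊤ hv fun σ _ => h σ)
  exact isCoboundary_of_finVanish (matRep ρbar b) hFV (split_matRep b hsplit) hirrk
    (exists_det_eq_two p b hp2 hdet) hψ hker

end Galois


section Final

open Fermat.Agent.TW.Spec.Defs52 Fermat.Agent.TW.Spec.Contract52

/-- **WP8 modulo (c′)**: Taylor–Wiles primes exist if the finite-group statement holds. -/
theorem twPrimesExist_of_finVanish (p : ℕ) [Fact p.Prime] {k : Type} [Field k]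
    [Algebra (ZMod p) k] (ρbar : ResidualGaloisRep k) [Finite k] (hFV : FinVanish k)
    (hp2 : p ≠ 2) (habs : ρbar.IsAbsolutelyIrreducible)
    (hdet : (GaloisRepAdic.ofResidualGaloisRep ρbar).DetIsCyclotomic p)
    (hsplit : ∀ σ : GQ, ∃ α β : k, LinearMap.charpoly (ρbar.ρ σ) = (X - C α) * (X - C β))
    (hTW : ∀ (K : Type) [Field K] [Algebra k K] (G : Subgroup GQ), G.index = 2 →
      ∀ V : Submodule K (ρbar.baseChange K).V,
        (∀ σ ∈ G, ∀ x ∈ V, (ρbar.baseChange K).ρ σ x ∈ V) → V = ⊥ ∨ V = ⊤) :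
    TWPrimesExist p ρbar :=
  Fermat.Agent.TW.Primes.TWPrimes76.twPrimesExist p ρbar hp2 habs hdet hsplit hTW
    (fun b => cohInput_of_finVanish p b hFV hp2 habs hdet hsplit hTW)

end Final

end Fermat.Agent.TW.Primes.CohAdapter76
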