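/-
TW program, WP8 (c): the bridge between the two shapes of the finite-group vanishing statement
(helper96).

* `TwistedH1Vanish k` : helper78's statement #473, literally: for a (finite) subgroup
  `G ≤ GL₂(k)` all of whose elements have square discriminant, moving every point of
  `OnePoint k` (Mathlib's Möbius action) and containing an element of determinant `2`, every
  trace-zero cocycle `ψ : G → M₂(k)` for the twisted adjoint action is a coboundary.
* `finVanish_of_twisted : TwistedH1Vanish k → CohAdapter76.FinVanish k`, where `FinVanish k`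
  (helper76) is the statement consumed by `CohAdapter76.twPrimesExist_of_finVanish`.
-/
import Mathlib
import Fermat.Agent.TW.Primes.CohAdapter76

set_option autoImplicit false

namespace Fermat.Agent.TW.Primes.FinBridge96

open Matrix Polynomial
open Fermat.Agent.TW.Primes.Sigma76 Fermat.Agent.TW.Primes.CohAdapter76

/-- helper78's statement #473 (the twisted `H¹` of a finite irreducible split subgroup of
`GL₂(k)` containing an element of determinant `2` vanishes). -/
def TwistedH1Vanish (k : Type) [Field k] [DecidableEq k] : Prop :=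
  ∀ (G : Subgroup (GL (Fin 2) k)) [Finite G],
    (∀ g ∈ G, IsSquare (g.val.discr)) →
    (∀ x : OnePoint k, ∃ g ∈ G, g • x ≠ x) →
    (∃ g ∈ G, g.val.det = 2) →
    ∀ ψ : G → Matrix (Fin 2) (Fin 2) k, (∀ g, (ψ g).trace = 0) →
      (∀ g h : G, ψ (g * h) =
        ψ g + (g.1.val.det) • (g.1.val * ψ h * ((g.1)⁻¹ : GL (Fin 2) k).val)) →
      ∃ Y : Matrix (Fin 2) (Fin 2) k, Y.trace = 0 ∧
        ∀ g : G, ψ g = (g.1.val.det) • (g.1.val * Y * ((g.1)⁻¹ : GL (Fin 2) k).val) - Y

section Lines

variable {k : Type*} [Field k] [DecidableEq k]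

/-- A point of `OnePoint k` fixed by `g ∈ GL₂(k)` gives an eigenvector of `g`: the vector
`(1, 0)` for `∞` and `(c, 1)` for `c`. -/
def vecOf : OnePoint k → (Fin 2 → k)
  | none => ![1, 0]
  | some c => ![c, 1]

omit [DecidableEq k] in
theorem vecOf_ne_zero (x : OnePoint k) : vecOf x ≠ 0 := by
  cases x with
  | infty =>
    intro h
    have := congrFun h 0
    simp [vecOf] at this
  | coe c =>
    intro h
    have := congrFun h 1
    simp [vecOf] at this

theorem exists_smul_vecOf_of_smul_eq {g : GL (Fin 2) k} {x : OnePoint k} (h : g • x = x) :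
    ∃ c : k, g.val *ᵥ vecOf x = c • vecOf x := by
  cases x with
  | infty =>
    rw [OnePoint.smul_infty_eq_self_iff] at h
    refine ⟨g 0 0, ?_⟩
    ext i
    fin_cases i
    · simp [vecOf, Matrix.mulVec, dotProduct, Fin.sum_univ_two]
    · simpa [vecOf, Matrix.mulVec, dotProduct, Fin.sum_univ_two] using h
  | coe c =>
    rw [OnePoint.smul_some_eq_ite] at h
    split_ifs at h with h0
    · exact absurd h (OnePoint.infty_ne_coe c)
    · rw [OnePoint.coe_eq_coe, div_eq_iff h0] at h
      refine ⟨g 1 0 * c + g 1 1, ?_⟩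
      ext i
      fin_cases i
      · simp [vecOf, Matrix.mulVec, dotProduct, Fin.sum_univ_two]
        linear_combination h
      · simp [vecOf, Matrix.mulVec, dotProduct, Fin.sum_univ_two]

end Lines

section Bridge

variable {k : Type} [Field k] [DecidableEq k]

omit [DecidableEq k] in
theorem isSquare_discr_of_charpoly {g : Matrix (Fin 2) (Fin 2) k} {α β : k}
    (h : g.charpoly = (X - C α) * (X - C β)) : IsSquare g.discr := by
  have h0 := congrArg (Polynomial.eval 0) h
  have h1 := congrArg (Polynomial.eval 1) h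
  rw [Matrix.charpoly_fin_two] at h0 h1
  simp only [eval_add, eval_sub, eval_mul, eval_pow, eval_X, eval_C] at h0 h1
  have hdet : g.det = α * β := by linear_combination h0
  have ht : g.trace = α + β := by linear_combination h0 - h1
  rw [Matrix.discr_fin_two]
  exact ⟨α - β, by rw [ht, hdet]; ring⟩

/-- **The bridge.** helper78's statement implies helper76's `FinVanish`. -/
theorem finVanish_of_twisted (h : TwistedH1Vanish k) : FinVanish k := by
  intro Γ _ _ r hinj hsplit hirr hdet ψ hψ
  classical
  set rU : Γ →* GL (Fin 2) k := r.toHomUnits with hrU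
  have hval : ∀ σ, (rU σ).val = r σ := fun σ => MonoidHom.coe_toHomUnits r σ
  have hinv : ∀ σ, ((rU σ)⁻¹ : GL (Fin 2) k).val = r σ⁻¹ := by
    intro σ
    rw [← map_inv, hval]
  have hUinj : Function.Injective rU := by
    intro a b hab
    apply hinj
    rw [← hval, ← hval, hab]
  let e : Γ ≃* rU.range := MonoidHom.ofInjective hUinj
  have he : ∀ σ, ((e σ : rU.range) : GL (Fin 2) k) = rU σ := fun σ => rfl
  have : Finite rU.range := Finite.of_equiv Γ e.toEquiv
  have key := h rU.range ?_ ?_ ?_ (fun g => ψ (e.symm g)) (fun g => hψ.trace_eq _) ?_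
  · obtain ⟨Y, hY0, hY⟩ := key
    refine ⟨Y, hY0, fun σ => ?_⟩
    have := hY (e σ)
    simp only [MulEquiv.symm_apply_apply] at this
    rw [this, he, hval, hinv]
    rfl
  · rintro g ⟨σ, rfl⟩
    obtain ⟨α, β, hαβ⟩ := hsplit σ
    rw [hval]
    exact isSquare_discr_of_charpoly hαβ
  · intro x
    by_contra hcon
    push Not at hcon
    apply hirr
    refine ⟨vecOf x, vecOf_ne_zero x, fun σ => ?_⟩
    obtain ⟨c, hc⟩ := exists_smul_vecOf_of_smul_eq (hcon (rU σ) ⟨σ, rfl⟩)
    exact ⟨c, by rw [← hval]; exact hc⟩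
  · obtain ⟨σ, hσ⟩ := hdet
    exact ⟨rU σ, ⟨σ, rfl⟩, by rw [hval]; exact hσ⟩
  · intro g g'
    obtain ⟨σ, rfl⟩ := e.surjective g
    obtain ⟨τ, rfl⟩ := e.surjective g'
    simp only [← map_mul, MulEquiv.symm_apply_apply]
    rw [hψ.map_mul, he, hval, hinv]
    rfl

end Bridge

section Final

open Fermat.Agent.TW.Spec.Defs52 Fermat.Agent.TW.Spec.Contract52

/-- **WP8 modulo helper78's statement #473**: Taylor–Wiles primes exist if the twisted `H¹` of
finite irreducible split subgroups of `GL₂(k)` with an element of determinant `2` vanishes. -/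
theorem twPrimesExist_of_twisted (p : ℕ) [Fact p.Prime] {k : Type} [Field k] [DecidableEq k]
    [Algebra (ZMod p) k] (ρbar : ResidualGaloisRep k) [Finite k] (hT : TwistedH1Vanish k)
    (hp2 : p ≠ 2) (habs : ρbar.IsAbsolutelyIrreducible)
    (hdet : (GaloisRepAdic.ofResidualGaloisRep ρbar).DetIsCyclotomic p)
    (hsplit : ∀ σ : GQ, ∃ α β : k, LinearMap.charpoly (ρbar.ρ σ) = (X - C α) * (X - C β))
    (hTW : ∀ (K : Type) [Field K] [Algebra k K] (G : Subgroup GQ), G.index = 2 →
      ∀ V : Submodule K (ρbar.baseChange K).V,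
        (∀ σ ∈ G, ∀ x ∈ V, (ρbar.baseChange K).ρ σ x ∈ V) → V = ⊥ ∨ V = ⊤) :
    TWPrimesExist p ρbar :=
  twPrimesExist_of_finVanish p ρbar (finVanish_of_twisted hT) hp2 habs hdet hsplit hTW

end Final

end Fermat.Agent.TW.Primes.FinBridge96
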