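import Mathlib
import Fermat.Agent.TW.Primes.FinBridge96
import Fermat.Agent.TW.Dickson.Final78

/-!
# Program TW (S56), WP8 closed: Taylor–Wiles primes exist (helper52)

Assembly of helper78's vanishing theorem `Final78.twisted_h1_vanish` (the group-theoretic input
(c)) with helper96's bridge `FinBridge96.twPrimesExist_of_twisted` (which rests on helper76's
detection theorem and adapter, and on `Greedy52`):

`twPrimesExist : Contract52.TWPrimesExist p ρbar` under the hypotheses of S56.
-/

set_option autoImplicit false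

open Polynomial

namespace Fermat.Agent.TW.Primes.TWPrimesFinal52

open Fermat.Agent.TW.Spec.Defs52 Fermat.Agent.TW.Spec.Contract52
open Fermat.Agent.TW.Primes.FinBridge96

/-- The finite-group vanishing statement (c), from helper78's theorem. -/
theorem twistedH1Vanish (p : ℕ) [Fact p.Prime] (hp2 : p ≠ 2) {k : Type} [Field k]
    [DecidableEq k] [Finite k] [CharP k p] : TwistedH1Vanish k := by
  classical
  letI : Fintype k := Fintype.ofFinite k
  intro G _ hsplit hirr hdet ψ htr hcoc
  exact Fermat.Agent.TW.Dickson.Final78.twisted_h1_vanish p hp2 G hsplit hirr hdet ψ htr hcoc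

/-- **WP8 is closed**: Taylor–Wiles primes exist under the hypotheses of S56. -/
theorem twPrimesExist (p : ℕ) [Fact p.Prime] {k : Type} [Field k]
    [Algebra (ZMod p) k] (ρbar : ResidualGaloisRep k) [Finite k]
    (hp2 : p ≠ 2) (habs : ρbar.IsAbsolutelyIrreducible)
    (hdet : (GaloisRepAdic.ofResidualGaloisRep ρbar).DetIsCyclotomic p)
    (hsplit : ∀ σ : GQ, ∃ α β : k, LinearMap.charpoly (ρbar.ρ σ) = (X - C α) * (X - C β))
    (hTW : ∀ (K : Type) [Field K] [Algebra k K] (G : Subgroup GQ), G.index = 2 →
      ∀ V : Submodule K (ρbar.baseChange K).V,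
        (∀ σ ∈ G, ∀ x ∈ V, (ρbar.baseChange K).ρ σ x ∈ V) → V = ⊥ ∨ V = ⊤) :
    TWPrimesExist p ρbar := by
  classical
  haveI : CharP k p := charP_of_injective_algebraMap (algebraMap (ZMod p) k).injective p
  exact twPrimesExist_of_twisted p ρbar (twistedH1Vanish p hp2) hp2 habs hdet hsplit hTW

end Fermat.Agent.TW.Primes.TWPrimesFinal52
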