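/-
Program TW (S56), work package WP8, items (a) and (b) (helper89): the two small contract closers
against `Contract52` (End model, `ZMod p` coefficients).

* `globalInvariantsZero : Contract52.GlobalInvariantsZero p ρbar`
    (`H⁰(G_ℚ, ad⁰ ρ̄) = 0`: Schur's lemma for the absolutely irreducible `ρ̄` + trace zero + `p` odd);
* `archimedeanTerm : Contract52.ArchimedeanTerm p ρbar`
    (`H¹(ℝ, ad⁰ ρ̄) = 0` as `p` is odd, and `h⁰(ℝ, ad⁰ ρ̄) ≥ [k : 𝔽_p]`: the determinant of `ρ̄` is the
    mod `p` cyclotomic character, so `det ρ̄(c) = -1`, hence `tr ρ̄(c) = 0` by Cayley–Hamilton and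
    `t ↦ t • ρ̄(c)` embeds `k` into the invariants of complex conjugation on `ad⁰ ρ̄`).
-/
import Mathlib
import Fermat.Agent.TW.Spec.Contract52
import Fermat.Agent.TW.Cocycle.SmoothEnd95
import Fermat.Agent.S53.ResidualCore
import Fermat.Agent.PT.BR.Arch7

set_option autoImplicit false
set_option linter.unusedSectionVars false

open CategoryTheory groupCohomology ExtCitation
open Fermat.Agent.TW.Spec.Defs52 Fermat.Agent.TW.Spec.Contract52

namespace Fermat.Agent.TW.Primes.ArchGlob89

local notation "Qb" => AlgebraicClosure ℚ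

/-! ### Characteristic `p` -/

section CharP

variable {p : ℕ} [Fact p.Prime] {k : Type} [Field k] [Algebra (ZMod p) k]

theorem charP_k : CharP k p := by
  have : CharP (ZMod p) p := ZMod.charP p
  exact charP_of_injective_algebraMap (algebraMap (ZMod p) k).injective p

theorem natCast_p_eq_zero_k : ((p : ℕ) : k) = 0 := by
  have := charP_k (p := p) (k := k)
  exact CharP.cast_eq_zero k p

theorem two_ne_zero_k (hp2 : p ≠ 2) : (2 : k) ≠ 0 := by
  have := charP_k (p := p) (k := k)
  intro h0
  have h1 : ((2 : ℕ) : k) = 0 := by rw [Nat.cast_ofNat]; exact h0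
  rw [CharP.cast_eq_zero_iff k p] at h1
  exact hp2 ((Nat.prime_dvd_prime_iff_eq (Fact.out : p.Prime) Nat.prime_two).mp h1)

end CharP

/-! ### (a) `H⁰(G_ℚ, ad⁰ ρ̄) = 0` -/

section Global

variable (p : ℕ) [Fact p.Prime] {k : Type} [Field k] [Algebra (ZMod p) k]
  (ρbar : ResidualGaloisRep k)

/-- A `G_ℚ`-invariant element of `ad⁰ ρ̄` vanishes (`ρ̄` absolutely irreducible, `p` odd). -/
theorem eq_zero_of_forall_ρ_eq (hp2 : p ≠ 2) (habs : ρbar.IsAbsolutelyIrreducible)
    (x : ad0 p ρbar) (hx : ∀ g : GQ, (ad0 p ρbar).ρ g x = x) : x = 0 := by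
  have hcomm : ∀ σ : GQ, ad0ToEnd p ρbar x * ρbar.ρ σ = ρbar.ρ σ * ad0ToEnd p ρbar x := by
    intro σ
    have h1 := congrArg (ad0ToEnd p ρbar) (hx σ)
    rw [ad0_ρ_apply] at h1
    have h2 : ρbar.ρ σ⁻¹ * ρbar.ρ σ = 1 := by rw [← map_mul, inv_mul_cancel, map_one]
    calc ad0ToEnd p ρbar x * ρbar.ρ σ
        = (ρbar.ρ σ * ad0ToEnd p ρbar x * ρbar.ρ σ⁻¹) * ρbar.ρ σ := by rw [h1]
      _ = ρbar.ρ σ * ad0ToEnd p ρbar x := by rw [mul_assoc, h2, mul_one]
  obtain ⟨c, hc⟩ := Fermat.Agent.S53.schur_end ρbar habs _ hcomm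
  have htr : LinearMap.trace k ρbar.V (ad0ToEnd p ρbar x) = 0 :=
    (mem_End0_iff ρbar _).1 (show End0 ρbar from x).2
  rw [hc, map_smul, LinearMap.trace_one, ρbar.finrank_eq, smul_eq_mul] at htr
  have h2 : ((2 : ℕ) : k) ≠ 0 := by
    rw [Nat.cast_ofNat]; exact two_ne_zero_k (p := p) hp2
  have hc0 : c = 0 := (mul_eq_zero.mp htr).resolve_right h2
  apply Fermat.Agent.TW.Cocycle.SmoothEnd95.ad0ToEnd_inj p ρbar
  rw [hc, hc0, zero_smul]
  rfl

/-- **WP8 (a)**: `H⁰(G_ℚ, ad⁰ ρ̄) = 0`. -/
theorem globalInvariantsZero (hp2 : p ≠ 2) (habs : ρbar.IsAbsolutelyIrreducible) :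
    GlobalInvariantsZero p ρbar := by
  unfold GlobalInvariantsZero
  have hbot : (ad0 p ρbar).ρ.invariants = ⊥ := by
    rw [eq_bot_iff]
    intro x hx
    rw [Representation.mem_invariants] at hx
    rw [Submodule.mem_bot]
    exact eq_zero_of_forall_ρ_eq p ρbar hp2 habs x hx
  rw [hbot]
  exact finrank_bot (ZMod p) _

end Global

/-! ### Linear algebra: an involution of determinant `-1` on a plane has trace `0` -/

section Involution

variable {k : Type} [Field k] {V : Type} [AddCommGroup V] [Module k V]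

theorem trace_eq_zero_of_mul_self_of_det (hV : Module.finrank k V = 2) (c : Module.End k V)
    (hcc : c * c = 1) (hdet : LinearMap.det c = -1) : LinearMap.trace k V c = 0 := by
  have : Module.Finite k V := Module.finite_of_finrank_eq_succ hV
  let b : Module.Basis (Fin 2) k V := Module.finBasisOfFinrankEq k V hV
  set A : Matrix (Fin 2) (Fin 2) k := LinearMap.toMatrix b b c with hA
  have hAA : A * A = 1 := by
    rw [hA, ← LinearMap.toMatrix_mul, hcc, LinearMap.toMatrix_one]
  have hdA : A.det = -1 := by rw [hA, LinearMap.det_toMatrix, hdet]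
  have htA : LinearMap.trace k V c = A.trace := LinearMap.trace_eq_matrix_trace k b c
  have hCH := Matrix.aeval_self_charpoly A
  rw [Matrix.charpoly_fin_two, hdA] at hCH
  simp only [map_sub, map_add, map_mul, map_pow, map_neg, map_one, Polynomial.aeval_X,
    Polynomial.aeval_C] at hCH
  rw [sq, hAA] at hCH
  -- `1 - algebraMap (tr A) * A + -1 = 0`
  have h1 : algebraMap k (Matrix (Fin 2) (Fin 2) k) A.trace * A = 0 := by
    have : (1 : Matrix (Fin 2) (Fin 2) k) - algebraMap k (Matrix (Fin 2) (Fin 2) k) A.trace * A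
        + -1 = -(algebraMap k (Matrix (Fin 2) (Fin 2) k) A.trace * A) := by abel
    rw [this, neg_eq_zero] at hCH
    exact hCH
  have h2 : algebraMap k (Matrix (Fin 2) (Fin 2) k) A.trace = 0 := by
    have := congrArg (· * A) h1
    simp only [mul_assoc, hAA, mul_one, zero_mul] at this
    exact this
  rw [htA]
  exact (map_eq_zero_iff _ (algebraMap k (Matrix (Fin 2) (Fin 2) k)).injective).mp h2

end Involution

/-! ### Complex conjugation inverts roots of unity -/

theorem complexConjugation_apply_of_pow_eq_one {m : ℕ} (hm : m ≠ 0) {ζ : Qb} (hζ : ζ ^ m = 1) :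
    complexConjugation ζ = ζ⁻¹ := by
  apply complexEmbedding.toRingHom.injective
  change complexEmbedding (complexConjugation ζ) = complexEmbedding ζ⁻¹
  rw [complexEmbedding_complexConjugation, map_inv₀]
  have h1 : (complexEmbedding ζ) ^ m = 1 := by rw [← map_pow, hζ, map_one]
  have h2 : ‖complexEmbedding ζ‖ = 1 := Complex.norm_eq_one_of_pow_eq_one h1 hm
  exact (Complex.inv_eq_conj h2).symm

/-! ### (b) the archimedean place -/

section Arch

variable (p : ℕ) [Fact p.Prime] {k : Type} [Field k] [Algebra (ZMod p) k]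
  (ρbar : ResidualGaloisRep k)

/-- `det ρ̄(c) = -1` when `det ρ̄` is the mod `p` cyclotomic character. -/
theorem det_complexConjugation
    (hdet : (GaloisRepAdic.ofResidualGaloisRep ρbar).DetIsCyclotomic p) :
    LinearMap.det (ρbar.ρ complexConjugation) = -1 := by
  have hp : p.Prime := Fact.out
  have hμ : ∀ μ : Qb, μ ^ p ^ 1 = 1 → complexConjugation μ = μ ^ (p - 1) := by
    intro μ hμ
    rw [pow_one] at hμ
    rw [complexConjugation_apply_of_pow_eq_one hp.ne_zero hμ]
    have hμ0 : μ ≠ 0 := by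
      rintro rfl
      rw [zero_pow hp.ne_zero] at hμ
      exact zero_ne_one hμ
    rw [eq_comm, ← mul_right_inj' hμ0, mul_inv_cancel₀ hμ0, ← pow_succ',
      Nat.sub_add_cancel hp.one_le, hμ]
  have h := hdet.2 1 complexConjugation (p - 1) hμ
  have hp0 : ((p ^ 1 : ℕ) : k) = 0 := by rw [pow_one]; exact natCast_p_eq_zero_k
  rw [hp0, Ideal.mem_span_singleton, zero_dvd_iff, sub_eq_zero] at h
  have h1 : ((p - 1 : ℕ) : k) = -1 := by
    rw [Nat.cast_sub hp.one_le, natCast_p_eq_zero_k, Nat.cast_one, zero_sub]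
  exact h.trans h1

theorem trace_complexConjugation
    (hdet : (GaloisRepAdic.ofResidualGaloisRep ρbar).DetIsCyclotomic p) :
    LinearMap.trace k ρbar.V (ρbar.ρ complexConjugation) = 0 := by
  apply trace_eq_zero_of_mul_self_of_det ρbar.finrank_eq
  · rw [← map_mul, complexConjugation_mul_self, map_one]
  · exact det_complexConjugation p ρbar hdet

/-- `ad⁰ ρ̄` restricted to the archimedean decomposition group (`𝔽_p`-coefficients). -/
noncomputable abbrev Marc : Rep.{0} (ZMod p) archimedeanDecomposition :=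
  Rep.res archimedeanLoc (ad0 p ρbar)

/-- Read an element of `Marc` as an endomorphism of `ρbar.V` (additive). -/
def toEndA : Marc p ρbar →+ Module.End k ρbar.V where
  toFun x := ad0ToEnd p ρbar x
  map_zero' := rfl
  map_add' _ _ := rfl

theorem toEndA_injective : Function.Injective (toEndA p ρbar) := by
  intro x y h
  exact Subtype.ext h

theorem toEndA_smul (a : ZMod p) (x : Marc p ρbar) :
    toEndA p ρbar (a • x) = algebraMap (ZMod p) k a • toEndA p ρbar x := rfl

theorem toEndA_ρ (g : archimedeanDecomposition) (x : Marc p ρbar) :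
    toEndA p ρbar ((Marc p ρbar).ρ g x) =
      ρbar.ρ (archimedeanLoc g) * toEndA p ρbar x * ρbar.ρ (archimedeanLoc g)⁻¹ := rfl

/-- A trace-zero endomorphism as an element of `Marc`. -/
def ofEndA (f : Module.End k ρbar.V) (hf : LinearMap.trace k ρbar.V f = 0) : Marc p ρbar :=
  (⟨f, (mem_End0_iff ρbar f).2 hf⟩ : End0 ρbar)

@[simp] theorem toEndA_ofEndA (f : Module.End k ρbar.V) (hf : LinearMap.trace k ρbar.V f = 0) :
    toEndA p ρbar (ofEndA p ρbar f hf) = f := rfl

/-- every element of the archimedean decomposition group commutes with complex conjugation. -/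
theorem ρ_archimedeanLoc_commute (g : archimedeanDecomposition) :
    ρbar.ρ (archimedeanLoc g) * ρbar.ρ complexConjugation =
      ρbar.ρ complexConjugation * ρbar.ρ (archimedeanLoc g) := by
  obtain ⟨n, hn⟩ := Subgroup.mem_zpowers_iff.mp g.2
  have h : Commute (archimedeanLoc g) complexConjugation := by
    have : archimedeanLoc g = complexConjugation ^ n := hn.symm
    rw [this]
    exact (Commute.refl complexConjugation).zpow_left n
  rw [← map_mul, ← map_mul, h.eq]

/-- `t • ρ̄(c)` is fixed by the archimedean decomposition group. -/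
theorem smul_complexConjugation_mem_invariants
    (hdet : (GaloisRepAdic.ofResidualGaloisRep ρbar).DetIsCyclotomic p) (t : k) :
    ofEndA p ρbar (t • ρbar.ρ complexConjugation)
      (by rw [map_smul, trace_complexConjugation p ρbar hdet, smul_zero]) ∈
      (Marc p ρbar).ρ.invariants := by
  rw [Representation.mem_invariants]
  intro g
  apply toEndA_injective p ρbar
  rw [toEndA_ρ, toEndA_ofEndA]
  have h1 : ρbar.ρ (archimedeanLoc g) * ρbar.ρ (archimedeanLoc g)⁻¹ = 1 := by
    rw [← map_mul, mul_inv_cancel, map_one]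
  rw [mul_smul_comm, ρ_archimedeanLoc_commute, smul_mul_assoc, mul_assoc, h1, mul_one]

/-- The `𝔽_p`-linear embedding `k → H⁰(ℝ, ad⁰ ρ̄)`, `t ↦ t • ρ̄(c)`. -/
noncomputable def archEmbed
    (hdet : (GaloisRepAdic.ofResidualGaloisRep ρbar).DetIsCyclotomic p) :
    k →ₗ[ZMod p] (Marc p ρbar).ρ.invariants where
  toFun t := ⟨_, smul_complexConjugation_mem_invariants p ρbar hdet t⟩
  map_add' s t := by
    apply Subtype.ext
    apply toEndA_injective p ρbar
    show (s + t) • ρbar.ρ complexConjugation =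
      s • ρbar.ρ complexConjugation + t • ρbar.ρ complexConjugation
    rw [add_smul]
  map_smul' a t := by
    apply Subtype.ext
    apply toEndA_injective p ρbar
    show (a • t) • ρbar.ρ complexConjugation =
      algebraMap (ZMod p) k a • (t • ρbar.ρ complexConjugation)
    rw [Algebra.smul_def a t, mul_smul]

theorem archEmbed_injective
    (hdet : (GaloisRepAdic.ofResidualGaloisRep ρbar).DetIsCyclotomic p) :
    Function.Injective (archEmbed p ρbar hdet) := by
  rw [injective_iff_map_eq_zero]
  intro t ht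
  have h1 : t • ρbar.ρ complexConjugation = 0 := by
    have := congrArg (fun y : (Marc p ρbar).ρ.invariants => toEndA p ρbar (y : Marc p ρbar)) ht
    exact this
  have h2 : t • (1 : Module.End k ρbar.V) = 0 := by
    have := congrArg (· * ρbar.ρ complexConjugation) h1
    simp only [smul_mul_assoc, zero_mul] at this
    rw [← map_mul, complexConjugation_mul_self, map_one] at this
    exact this
  have : Nontrivial ρbar.V := Fermat.Agent.S53.residual_nontrivial ρbar
  exact (smul_eq_zero.mp h2).resolve_right one_ne_zero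

/-- **WP8 (b)**: `H¹(ℝ, ad⁰ ρ̄) = 0` and `h⁰(ℝ, ad⁰ ρ̄) ≥ [k : 𝔽_p]`. -/
theorem archimedeanTerm (hp2 : p ≠ 2) [Finite k]
    (hdet : (GaloisRepAdic.ofResidualGaloisRep ρbar).DetIsCyclotomic p) :
    ArchimedeanTerm p ρbar := by
  refine ⟨fun x => ?_, ?_⟩
  · have := Fermat.Agent.PT.BR.Arch7.subsingleton_H1_arch hp2 (ad0 p ρbar)
    exact Subsingleton.elim _ _
  · have : Module.Finite (ZMod p) k := Module.Finite.of_finite
    have hfin : Module.Finite (ZMod p) (Marc p ρbar) :=
      Fermat.Agent.TW.Cocycle.SmoothEnd95.finite_ad0 p ρbar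
    exact LinearMap.finrank_le_finrank_of_injective (archEmbed_injective p ρbar hdet)

end Arch

end Fermat.Agent.TW.Primes.ArchGlob89
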