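import Mathlib
import Fermat.Agent.PT.PRO.FinH1S55_9
import Fermat.Agent.PT.GLOB.H1FiniteCoh15
import Fermat.Agent.TW.Spec.Contract52

/-!
# Program TW (S56): finiteness of `H¹_S(G_ℚ, M)` and `H¹_S(G_ℚ, M^*(1))` (helper52)

For `M` finite, smooth and unramified outside `S ∋ p` (`Contract52.IsSmoothUnramified p S M`), the
Prelude groups `continuousH1S S M` and `continuousH1S S (M.dualTwist (cycloChar p))` are
finite-dimensional over `ZMod p`. (Pure citation of PT: `FinH1S55_9.exists_F0` and
`H1FiniteCoh15.finiteDimensional_continuousH1S`.) These are the finiteness clauses of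
`Contract52.BaseCase` and the hypothesis `(fin)` of `Greedy52.twPrimesExist_of_detection`.
-/

set_option autoImplicit false

open CategoryTheory groupCohomology ExtCitation

namespace Fermat.Agent.TW.Primes.FinH1S52

open Fermat.Agent.TW.Spec.Defs52 (GQ)
open Fermat.Agent.TW.Spec.Contract52

variable {p : ℕ} [Fact p.Prime] (S : Finset Nat.Primes) (hpS : pPrime p ∈ S)
  (M : Rep.{0} (ZMod p) GQ) (hM : IsSmoothUnramified p S M)

include hpS hM in
theorem finiteDimensional_continuousH1S :
    FiniteDimensional (ZMod p) (continuousH1S S M) := by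
  haveI := hM.finite
  obtain ⟨F₀, hF₀, hζ, h1, -⟩ :=
    Fermat.Agent.PT.PRO.FinH1S55_9.exists_F0 S hpS M hM.smooth hM.unramified
  haveI := hF₀.1
  exact Fermat.Agent.PT.GLOB.H1FiniteCoh15.finiteDimensional_continuousH1S S M F₀ hF₀
    (Fermat.Agent.S14.Fields.zeta_spec p) hζ (fun s hs a => by rw [h1 s hs]; rfl)

include hpS hM in
theorem finiteDimensional_continuousH1S_dual :
    FiniteDimensional (ZMod p) (continuousH1S S (dualOf p M)) := by
  haveI := hM.finite
  obtain ⟨F₀, hF₀, hζ, -, h2⟩ :=
    Fermat.Agent.PT.PRO.FinH1S55_9.exists_F0 S hpS M hM.smooth hM.unramified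
  haveI := hF₀.1
  haveI : FiniteDimensional (ZMod p) (M.dualTwist (cycloChar p)) :=
    inferInstanceAs (FiniteDimensional (ZMod p) (Module.Dual (ZMod p) M))
  exact Fermat.Agent.PT.GLOB.H1FiniteCoh15.finiteDimensional_continuousH1S S
    (M.dualTwist (cycloChar p)) F₀ hF₀
    (Fermat.Agent.S14.Fields.zeta_spec p) hζ (fun s hs a => by rw [h2 s hs]; rfl)

end Fermat.Agent.TW.Primes.FinH1S52
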