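/-
Program TW (S56), WP8 (c′) (helper76): the BOREL COMPUTATION.  Mathlib + `Sigma76` only.

`r : Γ →* M₂(k)` injective, `ψ` a cocycle for the twisted adjoint action `Sigma76.tw`, `P` a
subgroup with `r P` upper unipotent.
* `tw_tri`: explicit formula for `tw r b Y` when `r b` is upper triangular;
* `exists_reduced`: after subtracting a coboundary, `ψ` has values in `k e` on `P`, provided the
  `f`-component dies (characteristic `3`: `f_comp_zero_char_three`; or a normalising element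
  `[[a, c], [0, d]]` with `d³ ≠ a`);
* `linear_of_torus`: the derivation lemma on a finite subfield;
* `borel_coboundary_cyclic`, `borel_coboundary`: `ψ|_P` is a coboundary if `P` is cyclic, resp. if
  the entries of `P` form a finite subfield `E` and `diag (t, t⁻¹)`, `t ∈ Eˣ`, normalise `P`.
-/
import Mathlib
import Fermat.Agent.TW.Primes.Sigma76

set_option autoImplicit false

namespace Fermat.Agent.TW.Primes.BorelCoh76

open Matrix
open Fermat.Agent.TW.Primes.AdIrr76 Fermat.Agent.TW.Primes.Sigma76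

local notation "M₂" => Matrix (Fin 2) (Fin 2)

variable {k : Type*} [Field k] {Γ : Type*} [Group Γ] (r : Γ →* M₂ k)

/-- The twisted adjoint action of an element with upper triangular image. -/
theorem tw_tri {b : Γ} {a c d : k} (hb : r b = !![a, c; 0, d]) (Y : M₂ k) :
    tw r b Y = !![d * (a * Y 0 0 + c * Y 1 0),
      a ^ 2 * Y 0 1 + a * c * Y 1 1 - a * c * Y 0 0 - c ^ 2 * Y 1 0;
      d ^ 2 * Y 1 0, a * d * Y 1 1 - c * d * Y 1 0] := by
  have hdet : (r b).det = a * d := by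
    rw [hb, Matrix.det_fin_two]
    simp
  have hne : a * d ≠ 0 := by
    rw [← hdet]; exact det_ne_zero r b
  have ha : a ≠ 0 := left_ne_zero_of_mul hne
  have hd : d ≠ 0 := right_ne_zero_of_mul hne
  have hinv : r b⁻¹ = !![a⁻¹, -(c * a⁻¹ * d⁻¹); 0, d⁻¹] := by
    have h1 : r b * !![a⁻¹, -(c * a⁻¹ * d⁻¹); 0, d⁻¹] = 1 := by
      rw [hb]
      ext i j
      fin_cases i <;> fin_cases j <;>
        simp only [Fin.zero_eta, Fin.mk_one, Fin.isValue, Matrix.mul_apply,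
          Fin.sum_univ_two, Matrix.of_apply, Matrix.cons_val', Matrix.cons_val_zero,
          Matrix.cons_val_one, Matrix.cons_val_fin_one, Matrix.one_apply_eq,
          Matrix.one_apply_ne, ne_eq, zero_ne_one, one_ne_zero, not_false_eq_true] <;>
        field_simp <;> ring
    calc r b⁻¹ = r b⁻¹ * (r b * !![a⁻¹, -(c * a⁻¹ * d⁻¹); 0, d⁻¹]) := by rw [h1, mul_one]
      _ = !![a⁻¹, -(c * a⁻¹ * d⁻¹); 0, d⁻¹] := by rw [← mul_assoc, rep_inv_mul, one_mul]
  unfold tw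
  rw [hdet, hinv, hb]
  ext i j
  fin_cases i <;> fin_cases j <;>
    simp only [Fin.zero_eta, Fin.mk_one, Fin.isValue, Matrix.smul_apply, Matrix.mul_apply,
      Fin.sum_univ_two, Matrix.of_apply, Matrix.cons_val', Matrix.cons_val_zero,
      Matrix.cons_val_one, Matrix.cons_val_fin_one, smul_eq_mul] <;>
    field_simp <;> ring

/-- The entries of `tw r b Y` for upper triangular `r b`. -/
theorem tw_tri_10 {b : Γ} {a c d : k} (hb : r b = !![a, c; 0, d]) (Y : M₂ k) :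
    tw r b Y 1 0 = d ^ 2 * Y 1 0 := by
  rw [tw_tri r hb]; rfl

theorem tw_tri_00 {b : Γ} {a c d : k} (hb : r b = !![a, c; 0, d]) (Y : M₂ k) :
    tw r b Y 0 0 = d * (a * Y 0 0 + c * Y 1 0) := by
  rw [tw_tri r hb]; rfl

theorem tw_tri_01 {b : Γ} {a c d : k} (hb : r b = !![a, c; 0, d]) (Y : M₂ k) :
    tw r b Y 0 1 = a ^ 2 * Y 0 1 + a * c * Y 1 1 - a * c * Y 0 0 - c ^ 2 * Y 1 0 := by
  rw [tw_tri r hb]; rfl

/-- Upper unipotent matrices. -/
def up (x : k) : M₂ k := !![1, x; 0, 1]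

theorem up_zero : up (0 : k) = 1 := by
  ext i j
  fin_cases i <;> fin_cases j <;> simp [up]

theorem up_mul (x y : k) : up x * up y = up (x + y) := by
  ext i j
  fin_cases i <;> fin_cases j <;>
    simp only [up, Fin.zero_eta, Fin.mk_one, Fin.isValue, Matrix.mul_apply,
      Fin.sum_univ_two, Matrix.of_apply, Matrix.cons_val', Matrix.cons_val_zero,
      Matrix.cons_val_one, Matrix.cons_val_fin_one] <;> ring

theorem up_injective : Function.Injective (up : k → M₂ k) := by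
  intro x y h
  have := congrFun (congrFun h 0) 1
  simpa [up] using this

theorem up_01 (x : k) : up x 0 1 = x := rfl

/-- Entries of `tw r σ Y` for unipotent `r σ`. -/
theorem tw_up_10 {σ : Γ} {x : k} (hσ : r σ = up x) (Y : M₂ k) : tw r σ Y 1 0 = Y 1 0 := by
  rw [tw_tri_10 r hσ]; ring

theorem tw_up_00 {σ : Γ} {x : k} (hσ : r σ = up x) (Y : M₂ k) :
    tw r σ Y 0 0 = Y 0 0 + x * Y 1 0 := by
  rw [tw_tri_00 r hσ]; ring

theorem tw_up_01 {σ : Γ} {x : k} (hσ : r σ = up x) (Y : M₂ k) :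
    tw r σ Y 0 1 = Y 0 1 + x * Y 1 1 - x * Y 0 0 - x ^ 2 * Y 1 0 := by
  rw [tw_tri_01 r hσ]; ring


/-! ### General cocycle identities -/

section General

variable {r} {ψ : Γ → M₂ k}

theorem tw_neg_eq (g : Γ) (X : M₂ k) : tw r g (-X) = -tw r g X := by
  have := tw_sub r g 0 X
  rwa [zero_sub, tw_zero, zero_sub] at this

theorem ent11 (hψ : IsCocycle r ψ) (s : Γ) : ψ s 1 1 = -ψ s 0 0 := by
  have := hψ.trace_eq s
  rw [Matrix.trace_fin_two] at this
  linear_combination this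

/-- Subtracting a coboundary from a cocycle. -/
theorem isCocycle_sub_cob (hψ : IsCocycle r ψ) {Y₀ : M₂ k} (hY₀ : Y₀.trace = 0) :
    IsCocycle r (fun s => ψ s - (tw r s Y₀ - Y₀)) := by
  refine ⟨fun s => ?_, fun s t => ?_⟩
  · rw [Matrix.trace_sub, Matrix.trace_sub, hψ.trace_eq, trace_tw, hY₀, mul_zero, sub_zero,
      sub_zero]
  · show ψ (s * t) - (tw r (s * t) Y₀ - Y₀) =
      ψ s - (tw r s Y₀ - Y₀) + tw r s (ψ t - (tw r t Y₀ - Y₀))
    rw [hψ.map_mul, tw_sub, tw_sub, ← tw_mul]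
    abel

theorem isCoboundary_on_of_sub_cob {P : Subgroup Γ} {Y₀ Y : M₂ k}
    (h : ∀ s ∈ P, ψ s - (tw r s Y₀ - Y₀) = tw r s Y - Y) :
    ∀ s ∈ P, ψ s = tw r s (Y + Y₀) - (Y + Y₀) := by
  intro s hs
  have := h s hs
  rw [tw_add]
  rw [sub_eq_iff_eq_add] at this
  rw [this]
  abel

/-- The general conjugation formula. -/
theorem map_conj_general (hψ : IsCocycle r ψ) (b σ : Γ) :
    ψ (b * σ * b⁻¹) = ψ b + tw r b (ψ σ) - tw r (b * σ * b⁻¹) (ψ b) := by
  have h1 : ψ (b * σ * b⁻¹) = ψ b + tw r b (ψ σ) + tw r (b * σ) (ψ b⁻¹) := by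
    rw [hψ.map_mul, hψ.map_mul]
  have h2 : tw r (b * σ) (ψ b⁻¹) = -tw r (b * σ * b⁻¹) (ψ b) := by
    have e : b * σ = (b * σ * b⁻¹) * b := by group
    conv_lhs => rw [e]
    rw [tw_mul, hψ.map_inv, tw_neg_eq]
  rw [h1, h2]
  abel

end General


/-! ### Cocycles on unipotent elements -/

section Unipotent

variable {r} {ψ : Γ → M₂ k}

theorem coc10 (hψ : IsCocycle r ψ) {σ : Γ} {x : k} (hσ : r σ = up x) (τ : Γ) :
    ψ (σ * τ) 1 0 = ψ σ 1 0 + ψ τ 1 0 := by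
  rw [hψ.map_mul, Matrix.add_apply, tw_up_10 r hσ]

theorem coc00 (hψ : IsCocycle r ψ) {σ : Γ} {x : k} (hσ : r σ = up x) (τ : Γ) :
    ψ (σ * τ) 0 0 = ψ σ 0 0 + ψ τ 0 0 + x * ψ τ 1 0 := by
  rw [hψ.map_mul, Matrix.add_apply, tw_up_00 r hσ]
  ring

theorem coc01 (hψ : IsCocycle r ψ) {σ : Γ} {x : k} (hσ : r σ = up x) (τ : Γ) :
    ψ (σ * τ) 0 1 = ψ σ 0 1 + ψ τ 0 1 - 2 * x * ψ τ 0 0 - x ^ 2 * ψ τ 1 0 := by
  rw [hψ.map_mul, Matrix.add_apply, tw_up_01 r hσ, ent11 hψ]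
  ring

theorem up_of_mul {σ τ : Γ} {x y : k} (hσ : r σ = up x) (hτ : r τ = up y) :
    r (σ * τ) = up (x + y) := by
  rw [map_mul, hσ, hτ, up_mul]

theorem comm_of_up (hinj : Function.Injective r) {σ τ : Γ} {x y : k} (hσ : r σ = up x)
    (hτ : r τ = up y) : σ * τ = τ * σ := by
  apply hinj
  rw [up_of_mul hσ hτ, up_of_mul hτ hσ, add_comm]

theorem sym10 (hψ : IsCocycle r ψ) (hinj : Function.Injective r) {σ τ : Γ} {x y : k}
    (hσ : r σ = up x) (hτ : r τ = up y) : x * ψ τ 1 0 = y * ψ σ 1 0 := by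
  have h1 := coc00 hψ hσ τ
  have h2 := coc00 hψ hτ σ
  rw [comm_of_up hinj hσ hτ] at h1
  linear_combination h2 - h1

theorem sym01 (hψ : IsCocycle r ψ) (hinj : Function.Injective r) {σ τ : Γ} {x y : k}
    (hσ : r σ = up x) (hτ : r τ = up y) :
    2 * x * ψ τ 0 0 + x ^ 2 * ψ τ 1 0 = 2 * y * ψ σ 0 0 + y ^ 2 * ψ σ 1 0 := by
  have h1 := coc01 hψ hσ τ
  have h2 := coc01 hψ hτ σ
  rw [comm_of_up hinj hσ hτ] at h1
  linear_combination h1 - h2

/-- In characteristic `3` the `f`-component vanishes. -/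
theorem f_comp_eq_zero_of_char_three [CharP k 3] (hψ : IsCocycle r ψ)
    (hinj : Function.Injective r) {σ : Γ} {x : k} (hσ : r σ = up x) (hx : x ≠ 0) :
    ψ σ 1 0 = 0 := by
  have h3 : (3 : k) = 0 := by
    have := CharP.cast_eq_zero k 3
    exact_mod_cast this
  have hσ2 : r (σ * σ) = up (x + x) := up_of_mul hσ hσ
  have hσ3 : σ * (σ * σ) = 1 := by
    apply hinj
    rw [up_of_mul hσ hσ2, map_one, ← up_zero]
    congr 1
    linear_combination x * h3
  have e0 : ψ (σ * (σ * σ)) 0 1 = 0 := by rw [hσ3, hψ.map_one]; rfl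
  rw [coc01 hψ hσ, coc01 hψ hσ, coc00 hψ hσ, coc10 hψ hσ] at e0
  have h5 : x ^ 2 * ψ σ 1 0 = 0 := by
    linear_combination e0 - (ψ σ 0 1 - 2 * x * ψ σ 0 0 - 2 * x ^ 2 * ψ σ 1 0) * h3
  rcases mul_eq_zero.mp h5 with h | h
  · exact absurd ((pow_eq_zero_iff two_ne_zero).mp h) hx
  · exact h

end Unipotent


/-! ### Reduction to the `e`-component -/

section Reduction

variable {r} {ψ : Γ → M₂ k}

omit [Field k] in
theorem ext_entries {A B : M₂ k} (h1 : A 0 0 = B 0 0) (h2 : A 0 1 = B 0 1) (h3 : A 1 0 = B 1 0)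
    (h4 : A 1 1 = B 1 1) : A = B := by
  ext i j
  fin_cases i <;> fin_cases j <;> assumption

theorem tw_up_11 {σ : Γ} {x : k} (hσ : r σ = up x) (Y : M₂ k) :
    tw r σ Y 1 1 = Y 1 1 - x * Y 1 0 := by
  rw [tw_tri r hσ]
  show (1 : k) * 1 * Y 1 1 - x * 1 * Y 1 0 = _
  ring

/-- Conjugating a unipotent element by an upper triangular one. -/
theorem conj_up_entry {b σ : Γ} {a c d x y : k} (hb : r b = !![a, c; 0, d]) (hσ : r σ = up x)
    (hτ : r (b * σ * b⁻¹) = up y) : y * d = a * x := by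
  have h1 : r (b * σ * b⁻¹) * r b = r b * r σ := by
    rw [← map_mul, ← map_mul]
    congr 1
    group
  rw [hτ, hb, hσ] at h1
  have h2 := congrFun (congrFun h1 0) 1
  simp only [up, Fin.isValue, Matrix.mul_apply, Fin.sum_univ_two, Matrix.of_apply,
    Matrix.cons_val', Matrix.cons_val_zero, Matrix.cons_val_one, Matrix.cons_val_fin_one] at h2
  linear_combination h2

theorem tri_ne_zero {b : Γ} {a c d : k} (hb : r b = !![a, c; 0, d]) : a ≠ 0 ∧ d ≠ 0 := by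
  have hdet : (r b).det = a * d := by
    rw [hb, Matrix.det_fin_two]
    simp
  have hne : a * d ≠ 0 := by
    rw [← hdet]; exact det_ne_zero r b
  exact ⟨left_ne_zero_of_mul hne, right_ne_zero_of_mul hne⟩

/-- After subtracting a coboundary, the cocycle has values in `k e` on `P`. -/
theorem exists_reduced (h2 : (2 : k) ≠ 0) (hψ : IsCocycle r ψ) (hinj : Function.Injective r)
    (P : Subgroup Γ) (hP : ∀ s ∈ P, ∃ x, r s = up x)
    (hW : (∀ σ ∈ P, ψ σ 1 0 = 0) ∨ ∃ (b : Γ) (a c d : k), r b = !![a, c; 0, d] ∧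
      (∀ s ∈ P, b * s * b⁻¹ ∈ P) ∧ d ^ 3 ≠ a) :
    ∃ Y₀ : M₂ k, Y₀.trace = 0 ∧ ∀ τ ∈ P,
      (ψ τ - (tw r τ Y₀ - Y₀)) 1 0 = 0 ∧ (ψ τ - (tw r τ Y₀ - Y₀)) 0 0 = 0 := by
  by_cases hex : ∃ σ₁ ∈ P, ∃ x₁ : k, r σ₁ = up x₁ ∧ x₁ ≠ 0
  · obtain ⟨σ₁, hσ₁P, x₁, hσ₁, hx₁⟩ := hex
    -- the `f`-component of `ψ σ₁` vanishes
    have hf1 : ψ σ₁ 1 0 = 0 := by
      rcases hW with hW | ⟨b, a, c, d, hb, hnorm, hne⟩
      · exact hW σ₁ hσ₁P
      · obtain ⟨y, hτ⟩ := hP _ (hnorm σ₁ hσ₁P)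
        have hyd := conj_up_entry hb hσ₁ hτ
        have hconj := map_conj_general hψ b σ₁
        have e10 := congrFun (congrFun hconj 1) 0
        rw [Matrix.sub_apply, Matrix.add_apply, tw_tri_10 r hb, tw_up_10 r hτ] at e10
        have hs := sym10 hψ hinj hσ₁ hτ
        have hd : d ≠ 0 := (tri_ne_zero hb).2
        have h5 : x₁ * (d ^ 3 - a) * ψ σ₁ 1 0 = 0 := by
          linear_combination (-(x₁ * d)) * e10 + d * hs + ψ σ₁ 1 0 * hyd
        rcases mul_eq_zero.mp h5 with h | h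
        · rcases mul_eq_zero.mp h with h | h
          · exact absurd h hx₁
          · exact absurd (sub_eq_zero.mp h) hne
        · exact h
    have hf : ∀ τ ∈ P, ψ τ 1 0 = 0 := by
      intro τ hτP
      obtain ⟨y, hτ⟩ := hP τ hτP
      have hs := sym10 hψ hinj hσ₁ hτ
      rw [hf1, mul_zero] at hs
      exact (mul_eq_zero.mp hs).resolve_left hx₁
    have hb0 : ∀ τ ∈ P, ∀ y, r τ = up y → ψ τ 0 0 = ψ σ₁ 0 0 / x₁ * y := by
      intro τ hτP y hτ
      have hs := sym01 hψ hinj hσ₁ hτ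
      rw [hf τ hτP, hf1, mul_zero, mul_zero, add_zero, add_zero] at hs
      field_simp
      have : x₁ * ψ τ 0 0 = y * ψ σ₁ 0 0 := by
        have h3 : (2 : k) * (x₁ * ψ τ 0 0 - y * ψ σ₁ 0 0) = 0 := by linear_combination hs
        have := (mul_eq_zero.mp h3).resolve_left h2
        linear_combination this
      linear_combination this
    refine ⟨!![0, 0; ψ σ₁ 0 0 / x₁, 0], by simp [Matrix.trace_fin_two], fun τ hτP => ?_⟩
    obtain ⟨y, hτ⟩ := hP τ hτP
    constructor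
    · rw [Matrix.sub_apply, Matrix.sub_apply, tw_up_10 r hτ, sub_self, sub_zero]
      exact hf τ hτP
    · rw [Matrix.sub_apply, Matrix.sub_apply, tw_up_00 r hτ, hb0 τ hτP y hτ]
      simp only [Matrix.of_apply, Matrix.cons_val', Matrix.cons_val_zero, Matrix.cons_val_one,
        Matrix.cons_val_fin_one]
      ring
  · -- `P` is trivial
    refine ⟨0, Matrix.trace_zero _ _, fun τ hτP => ?_⟩
    obtain ⟨y, hτ⟩ := hP τ hτP
    have hy : y = 0 := by
      by_contra hy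
      exact hex ⟨τ, hτP, y, hτ, hy⟩
    have hτ1 : τ = 1 := by
      apply hinj
      rw [hτ, hy, up_zero, map_one]
    rw [hτ1, hψ.map_one, tw_zero, sub_zero, sub_zero]
    exact ⟨rfl, rfl⟩

/-- If the `e`-component is linear, the cocycle is a coboundary on `P`. -/
theorem coboundary_of_linear (h2 : (2 : k) ≠ 0) (hψ : IsCocycle r ψ)
    (P : Subgroup Γ) (hP : ∀ s ∈ P, ∃ x, r s = up x) {Y₀ : M₂ k} (hY₀ : Y₀.trace = 0)
    (hred : ∀ τ ∈ P, (ψ τ - (tw r τ Y₀ - Y₀)) 1 0 = 0 ∧ (ψ τ - (tw r τ Y₀ - Y₀)) 0 0 = 0)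
    (c₀ : k)
    (hlin : ∀ τ ∈ P, ∀ y, r τ = up y → (ψ τ - (tw r τ Y₀ - Y₀)) 0 1 = c₀ * y) :
    ∃ Y : M₂ k, Y.trace = 0 ∧ ∀ s ∈ P, ψ s = tw r s Y - Y := by
  have hψ' := isCocycle_sub_cob hψ hY₀
  refine ⟨!![-(c₀ / 2), 0; 0, c₀ / 2] + Y₀, ?_, ?_⟩
  · rw [Matrix.trace_add, hY₀, Matrix.trace_fin_two]
    simp
  · apply isCoboundary_on_of_sub_cob
    intro s hs
    obtain ⟨y, hy⟩ := hP s hs
    obtain ⟨h10, h00⟩ := hred s hs
    have h01 := hlin s hs y hy
    have h11 : (ψ s - (tw r s Y₀ - Y₀)) 1 1 = 0 := by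
      have := ent11 hψ' s
      rw [this, h00, neg_zero]
    apply ext_entries
    · rw [h00, Matrix.sub_apply, tw_up_00 r hy]
      simp
    · rw [h01, Matrix.sub_apply, tw_up_01 r hy]
      simp only [Matrix.of_apply, Matrix.cons_val', Matrix.cons_val_zero, Matrix.cons_val_one,
        Matrix.cons_val_fin_one]
      field_simp
      ring
    · rw [h10, Matrix.sub_apply, tw_up_10 r hy]
      simp
    · rw [h11, Matrix.sub_apply, tw_up_11 hy]
      simp

end Reduction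


/-! ### The derivation lemma -/

section Derivation

/-- An additive map on a finite subfield `E` which is "semi-linear up to a linear error" for the
squares of `E` is linear. -/
theorem linear_of_torus (p : ℕ) [Fact p.Prime] [CharP k p] (h2 : (2 : k) ≠ 0) (E : Subfield k)
    [Finite E] (f : k → k) (hadd : ∀ x ∈ E, ∀ y ∈ E, f (x + y) = f x + f y)
    (htor : ∀ t ∈ E, t ≠ 0 → ∃ c : k, ∀ x ∈ E, f (t ^ 2 * x) = t ^ 2 * f x + c * x) :
    ∀ x ∈ E, f x = f 1 * x := by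
  have h1E : (1 : k) ∈ E := E.one_mem
  have h0E : (0 : k) ∈ E := E.zero_mem
  have hf0 : f 0 = 0 := by
    have := hadd 0 h0E 0 h0E
    rw [add_zero] at this
    exact left_eq_add.mp this
  -- the error term
  obtain ⟨D, hD⟩ : ∃ D : k → k, ∀ x, D x = f x - f 1 * x := ⟨fun x => f x - f 1 * x, fun _ => rfl⟩
  have hD1 : D 1 = 0 := by rw [hD, mul_one, sub_self]
  have hD0 : D 0 = 0 := by rw [hD, hf0, mul_zero, sub_self]
  have hDadd : ∀ x ∈ E, ∀ y ∈ E, D (x + y) = D x + D y := by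
    intro x hx y hy
    rw [hD, hD, hD, hadd x hx y hy]
    ring
  have hDneg : ∀ x ∈ E, D (-x) = -D x := by
    intro x hx
    have := hDadd x hx (-x) (E.neg_mem hx)
    rw [add_neg_cancel, hD0] at this
    linear_combination -this
  have hDsub : ∀ x ∈ E, ∀ y ∈ E, D (x - y) = D x - D y := by
    intro x hx y hy
    rw [sub_eq_add_neg, hDadd x hx (-y) (E.neg_mem hy), hDneg y hy]
    ring
  -- squares are in the "derivation ring"
  have hsq : ∀ t ∈ E, ∀ x ∈ E, D (t ^ 2 * x) = t ^ 2 * D x + x * D (t ^ 2) := by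
    intro t ht x hx
    by_cases ht0 : t = 0
    · rw [ht0]
      simp [hD0]
    · obtain ⟨c, hc⟩ := htor t ht ht0
      have hc1 : D (t ^ 2) = c := by
        have := hc 1 h1E
        rw [mul_one] at this
        rw [hD, this]
        ring
      rw [hc1, hD, hc x hx, hD]
      ring
  -- hence everything is
  have hder : ∀ s ∈ E, ∀ x ∈ E, D (s * x) = s * D x + x * D s := by
    intro s hs x hx
    have h2E : (2 : k) ∈ E := by
      have : (2 : k) = 1 + 1 := by norm_num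
      rw [this]; exact E.add_mem h1E h1E
    have hu : (s + 1) / 2 ∈ E := E.div_mem (E.add_mem hs h1E) h2E
    have hv : (s - 1) / 2 ∈ E := E.div_mem (E.sub_mem hs h1E) h2E
    have hs_eq : s = ((s + 1) / 2) ^ 2 - ((s - 1) / 2) ^ 2 := by
      field_simp
      ring
    have hu2 : ((s + 1) / 2) ^ 2 ∈ E := E.pow_mem hu 2
    have hv2 : ((s - 1) / 2) ^ 2 ∈ E := E.pow_mem hv 2
    have e1 : s * x = ((s + 1) / 2) ^ 2 * x - ((s - 1) / 2) ^ 2 * x := by
      rw [← sub_mul, ← hs_eq]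
    have e2 : D s = D (((s + 1) / 2) ^ 2) - D (((s - 1) / 2) ^ 2) := by
      conv_lhs => rw [hs_eq]
      exact hDsub _ hu2 _ hv2
    rw [e1, hDsub _ (E.mul_mem hu2 hx) _ (E.mul_mem hv2 hx), hsq _ hu x hx, hsq _ hv x hx, e2]
    have hs_eq' := hs_eq
    linear_combination (-(D x)) * hs_eq'
  -- the power rule
  have hpow : ∀ y ∈ E, ∀ n : ℕ, D (y ^ (n + 1)) = (n + 1 : k) * y ^ n * D y := by
    intro y hy n
    induction n with
    | zero => simp
    | succ n ih =>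
      rw [pow_succ' y (n + 1), hder y hy _ (E.pow_mem hy _), ih]
      push_cast
      ring
  have hp : (p : k) = 0 := CharP.cast_eq_zero k p
  have hpp : 0 < p := (Fact.out : p.Prime).pos
  have hDp : ∀ y ∈ E, D (y ^ p) = 0 := by
    intro y hy
    have h3 := hpow y hy (p - 1)
    rw [Nat.sub_add_cancel hpp] at h3
    rw [h3]
    have : ((p - 1 : ℕ) : k) + 1 = 0 := by
      have h4 : ((p - 1 : ℕ) : k) + 1 = ((p - 1 + 1 : ℕ) : k) := by push_cast; ring
      rw [h4, Nat.sub_add_cancel hpp, hp]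
    rw [this, zero_mul, zero_mul]
  -- Frobenius is surjective on `E`
  have hfrob : ∀ x ∈ E, ∃ y ∈ E, y ^ p = x := by
    let φ : E → E := fun y => ⟨(y : k) ^ p, E.pow_mem y.2 p⟩
    have hinj : Function.Injective φ := by
      intro y z hyz
      have h3 : (y : k) ^ p = (z : k) ^ p := congrArg Subtype.val hyz
      have h4 : ((y : k) - z) ^ p = 0 := by rw [sub_pow_char, h3, sub_self]
      exact Subtype.ext (sub_eq_zero.mp (pow_eq_zero_iff hpp.ne' |>.mp h4))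
    have hsurj := Finite.injective_iff_surjective.mp hinj
    intro x hx
    obtain ⟨y, hy⟩ := hsurj ⟨x, hx⟩
    exact ⟨y, y.2, congrArg Subtype.val hy⟩
  intro x hx
  obtain ⟨y, hy, rfl⟩ := hfrob x hx
  have := hDp y hy
  rw [hD] at this
  exact sub_eq_zero.mp this

end Derivation


/-! ### The Borel computation -/

section Main

variable {r} {ψ : Γ → M₂ k}

/-- The transformation rule of the `e`-component under a normalising upper triangular element. -/
theorem star (hψ : IsCocycle r ψ) {P : Subgroup Γ}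
    (hred : ∀ τ ∈ P, ψ τ 1 0 = 0 ∧ ψ τ 0 0 = 0) {b σ : Γ} {a c d y : k}
    (hb : r b = !![a, c; 0, d]) (hσP : σ ∈ P) (hτP : b * σ * b⁻¹ ∈ P)
    (hτ : r (b * σ * b⁻¹) = up y) :
    ψ (b * σ * b⁻¹) 0 1 = a ^ 2 * ψ σ 0 1 + 2 * y * ψ b 0 0 := by
  have hconj := map_conj_general hψ b σ
  have e01 := congrFun (congrFun hconj 0) 1
  have e00 := congrFun (congrFun hconj 0) 0
  rw [Matrix.sub_apply, Matrix.add_apply, tw_tri_01 r hb, tw_up_01 r hτ, ent11 hψ σ,
    ent11 hψ b, (hred σ hσP).1, (hred σ hσP).2] at e01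
  rw [Matrix.sub_apply, Matrix.add_apply, tw_tri_00 r hb, tw_up_00 r hτ, (hred σ hσP).1,
    (hred σ hσP).2, (hred _ hτP).2] at e00
  have h3 : y * ψ b 1 0 = 0 := by linear_combination e00
  rw [e01]
  linear_combination y * h3

theorem f_comp_zero_char_three [CharP k 3] (hψ : IsCocycle r ψ) (hinj : Function.Injective r)
    (P : Subgroup Γ) (hP : ∀ s ∈ P, ∃ x, r s = up x) : ∀ σ ∈ P, ψ σ 1 0 = 0 := by
  intro σ hσP
  obtain ⟨x, hσ⟩ := hP σ hσP
  by_cases hx : x = 0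
  · have : σ = 1 := by
      apply hinj
      rw [hσ, hx, up_zero, map_one]
    rw [this, hψ.map_one]
    rfl
  · exact f_comp_eq_zero_of_char_three hψ hinj hσ hx

/-- **Borel computation, cyclic case.**  If `P` is generated by one unipotent element, every
cocycle is a coboundary on `P` (given an element killing the `f`-class, or `p = 3`). -/
theorem borel_coboundary_cyclic (h2 : (2 : k) ≠ 0) (hψ : IsCocycle r ψ)
    (hinj : Function.Injective r) (P : Subgroup Γ) (hP : ∀ s ∈ P, ∃ x, r s = up x)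
    (hcyc : ∃ σ₁ ∈ P, ∀ s ∈ P, ∃ n : ℕ, s = σ₁ ^ n)
    (hW : (∀ σ ∈ P, ψ σ 1 0 = 0) ∨ ∃ (b : Γ) (a c d : k), r b = !![a, c; 0, d] ∧
      (∀ s ∈ P, b * s * b⁻¹ ∈ P) ∧ d ^ 3 ≠ a) :
    ∃ Y : M₂ k, Y.trace = 0 ∧ ∀ s ∈ P, ψ s = tw r s Y - Y := by
  obtain ⟨Y₀, hY₀, hred⟩ := exists_reduced h2 hψ hinj P hP hW
  have hψ' := isCocycle_sub_cob hψ hY₀
  obtain ⟨σ₁, hσ₁P, hgen⟩ := hcyc
  obtain ⟨x₁, hσ₁⟩ := hP σ₁ hσ₁P
  -- values on powers
  have hpowr : ∀ n : ℕ, r (σ₁ ^ n) = up (n * x₁) := by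
    intro n
    induction n with
    | zero => rw [pow_zero, map_one, Nat.cast_zero, zero_mul, up_zero]
    | succ n ih =>
      rw [pow_succ', up_of_mul hσ₁ ih]
      congr 1
      push_cast
      ring
  have hpowψ : ∀ n : ℕ, (ψ (σ₁ ^ n) - (tw r (σ₁ ^ n) Y₀ - Y₀)) 0 1 =
      n * (ψ σ₁ - (tw r σ₁ Y₀ - Y₀)) 0 1 := by
    intro n
    induction n with
    | zero =>
      rw [pow_zero, hψ.map_one, tw_one, sub_self, sub_zero, Nat.cast_zero, zero_mul]
      rfl
    | succ n ih =>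
      have h3 := coc01 hψ' hσ₁ (σ₁ ^ n)
      have h4 := hred (σ₁ ^ n) (P.pow_mem hσ₁P n)
      rw [pow_succ', h3, h4.1, h4.2, ih]
      push_cast
      ring
  by_cases hx₁ : x₁ = 0
  · -- trivial group
    apply coboundary_of_linear h2 hψ P hP hY₀ hred 0
    intro τ hτP y _
    obtain ⟨n, rfl⟩ := hgen τ hτP
    have hσ₁1 : σ₁ = 1 := by
      apply hinj
      rw [hσ₁, hx₁, up_zero, map_one]
    rw [hσ₁1, one_pow, hψ.map_one, tw_one, sub_self, sub_zero, zero_mul]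
    rfl
  · apply coboundary_of_linear h2 hψ P hP hY₀ hred ((ψ σ₁ - (tw r σ₁ Y₀ - Y₀)) 0 1 / x₁)
    intro τ hτP y hτ
    obtain ⟨n, rfl⟩ := hgen τ hτP
    have hy : y = n * x₁ := up_injective (hτ.symm.trans (hpowr n))
    rw [hpowψ n, hy]
    field_simp

/-- **Borel computation.**  `P` is a group of upper unipotent elements whose entries form a finite
subfield `E`, normalised by the torus `diag (t, t⁻¹)`, `t ∈ Eˣ`.  Then every cocycle is a
coboundary on `P` (given an element killing the `f`-class, or `p = 3`). -/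
theorem borel_coboundary (p : ℕ) [Fact p.Prime] [CharP k p] (h2 : (2 : k) ≠ 0)
    (hψ : IsCocycle r ψ) (hinj : Function.Injective r) (P : Subgroup Γ)
    (hP : ∀ s ∈ P, ∃ x, r s = up x) (E : Subfield k) [Finite E]
    (hE : ∀ x, (∃ s ∈ P, r s = up x) ↔ x ∈ E)
    (hT : ∀ t ∈ E, t ≠ 0 → ∃ b : Γ, r b = !![t, 0; 0, t⁻¹] ∧ ∀ s ∈ P, b * s * b⁻¹ ∈ P)
    (hW : (∀ σ ∈ P, ψ σ 1 0 = 0) ∨ ∃ (b : Γ) (a c d : k), r b = !![a, c; 0, d] ∧
      (∀ s ∈ P, b * s * b⁻¹ ∈ P) ∧ d ^ 3 ≠ a) :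
    ∃ Y : M₂ k, Y.trace = 0 ∧ ∀ s ∈ P, ψ s = tw r s Y - Y := by
  classical
  obtain ⟨Y₀, hY₀, hred⟩ := exists_reduced h2 hψ hinj P hP hW
  have hψ' := isCocycle_sub_cob hψ hY₀
  obtain ⟨ψ', hψ'def⟩ : ∃ ψ' : Γ → M₂ k, ψ' = fun s => ψ s - (tw r s Y₀ - Y₀) := ⟨_, rfl⟩
  rw [← hψ'def] at hψ'
  have hred' : ∀ τ ∈ P, ψ' τ 1 0 = 0 ∧ ψ' τ 0 0 = 0 := by
    intro τ hτ
    rw [hψ'def]
    exact hred τ hτ
  -- a section of `P → E`
  obtain ⟨sel, hsel⟩ : ∃ sel : k → Γ, ∀ x ∈ E, sel x ∈ P ∧ r (sel x) = up x := by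
    refine ⟨fun x => if h : ∃ s ∈ P, r s = up x then Classical.choose h else 1, fun x hx => ?_⟩
    have h := (hE x).mpr hx
    simp only [dif_pos h]
    exact Classical.choose_spec h
  have hsel_eq : ∀ τ ∈ P, ∀ y, r τ = up y → τ = sel y := by
    intro τ hτP y hτ
    have hy : y ∈ E := (hE y).mp ⟨τ, hτP, hτ⟩
    exact hinj (hτ.trans (hsel y hy).2.symm)
  obtain ⟨f, hf⟩ : ∃ f : k → k, ∀ x, f x = ψ' (sel x) 0 1 := ⟨fun x => ψ' (sel x) 0 1, fun _ => rfl⟩
  have hadd : ∀ x ∈ E, ∀ y ∈ E, f (x + y) = f x + f y := by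
    intro x hx y hy
    have h3 : sel (x + y) = sel x * sel y := by
      apply hinj
      rw [(hsel _ (E.add_mem hx hy)).2, up_of_mul (hsel x hx).2 (hsel y hy).2]
    rw [hf, hf, hf, h3, coc01 hψ' (hsel x hx).2, (hred' _ (hsel y hy).1).1,
      (hred' _ (hsel y hy).1).2]
    ring
  have htor : ∀ t ∈ E, t ≠ 0 → ∃ c : k, ∀ x ∈ E, f (t ^ 2 * x) = t ^ 2 * f x + c * x := by
    intro t ht ht0
    obtain ⟨b, hb, hnorm⟩ := hT t ht ht0
    refine ⟨2 * t ^ 2 * ψ' b 0 0, fun x hx => ?_⟩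
    have hτP := hnorm _ (hsel x hx).1
    obtain ⟨y, hτ⟩ := hP _ hτP
    have hyd := conj_up_entry hb (hsel x hx).2 hτ
    have hy : y = t ^ 2 * x := by
      have : y = y * t⁻¹ * t := by field_simp
      rw [this, hyd]
      ring
    have h4 := star hψ' hred' hb (hsel x hx).1 hτP hτ
    have h5 : b * sel x * b⁻¹ = sel (t ^ 2 * x) := by
      apply hsel_eq _ hτP
      rw [hτ, hy]
    rw [hf, hf, ← h5, h4, hy]
    ring
  have hlin := linear_of_torus p h2 E f hadd htor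
  apply coboundary_of_linear h2 hψ P hP hY₀ hred (f 1)
  intro τ hτP y hτ
  have hy : y ∈ E := (hE y).mp ⟨τ, hτP, hτ⟩
  have h6 := hlin y hy
  rw [hf, ← hsel_eq τ hτP y hτ, hψ'def] at h6
  exact h6

end Main

end Fermat.Agent.TW.Primes.BorelCoh76
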