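/-
Program TW (S56), WP8 (c)-ADAPTER (helper95): the hypothesis `Detect76.CohInput` (a twisted cocycle
on `G_ℚ` vanishing on the elements of `G_{ℚ(ζ_{p^{n+1}})}` with scalar image is a coboundary)
follows from the FINITE-GROUP statement: every twisted cocycle which factors through the image of
`ρbar` is a coboundary.

* `eq_zero_of_tw_fixed`      : `H⁰(Γ, ad⁰(1)) = 0` (from the irreducibility of `ad⁰`, `AdIrr76`);
* `apply_eq_zero_of_scalar`  : such a cocycle vanishes on every element with scalar image and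
                               determinant one (commutator trick, `Γ/E` abelian);
* `apply_eq_of_rep_eq`       : hence `ψ σ` only depends on `r σ`;
* `FiniteCohInput r`         : the finite-group input in "representation form";
* `cohInput_of_finiteCohInput` : `FiniteCohInput (matRep ρbar b) → CohInput p ρbar b`.
-/
import Mathlib
import Fermat.Agent.TW.Primes.Detect76

set_option autoImplicit false

namespace Fermat.Agent.TW.Primes.CohAdapter95

open Matrix
open Fermat.Agent.TW.Primes.AdIrr76 Fermat.Agent.TW.Primes.Regular76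
  Fermat.Agent.TW.Primes.Sigma76 Fermat.Agent.TW.Primes.GQBridge76

local notation "M₂" => Matrix (Fin 2) (Fin 2)

section Abstract

variable {k : Type*} [Field k] {Γ : Type*} [Group Γ] (r : Γ →* M₂ k)

/-- If `Γ/E` is cyclic, commutators lie in `E`. -/
theorem commutator_mem_of_cyclic (E : Subgroup Γ) [E.Normal]
    (hcyc : ∃ γ₀ : Γ, ∀ γ : Γ, ∃ j : ℤ, γ₀ ^ j * γ ∈ E) (g h : Γ) :
    g * h * g⁻¹ * h⁻¹ ∈ E := by
  obtain ⟨γ₀, hγ₀⟩ := hcyc
  have key : ∀ γ : Γ, ∃ j : ℤ, (QuotientGroup.mk' E γ) = (QuotientGroup.mk' E γ₀) ^ j := by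
    intro γ
    obtain ⟨j, hj⟩ := hγ₀ γ
    refine ⟨-j, ?_⟩
    have h1 : QuotientGroup.mk' E (γ₀ ^ j * γ) = 1 := (QuotientGroup.eq_one_iff _).2 hj
    rw [map_mul, map_zpow] at h1
    rw [_root_.zpow_neg]
    exact eq_inv_of_mul_eq_one_right h1
  obtain ⟨a, ha⟩ := key g
  obtain ⟨b, hb⟩ := key h
  rw [← QuotientGroup.eq_one_iff, ← QuotientGroup.mk'_apply, map_mul, map_mul, map_mul, map_inv,
    map_inv, ha, hb]
  have hc : Commute (QuotientGroup.mk' E γ₀ ^ a) (QuotientGroup.mk' E γ₀ ^ b) :=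
    (Commute.refl _).zpow_zpow a b
  rw [hc.eq, mul_assoc (QuotientGroup.mk' E γ₀ ^ b), mul_inv_cancel, mul_one, mul_inv_cancel]

/-- `H⁰(Γ, ad⁰(1)) = 0`: a trace-zero matrix fixed by the twisted adjoint action vanishes. -/
theorem eq_zero_of_tw_fixed (h2 : (2 : k) ≠ 0) (K : Type*) [Field K] [Algebra k K] [IsAlgClosed K]
    (hirr : ¬ HasCommonEigenvector K r ⊤)
    (hirr2 : ∀ G : Subgroup Γ, G.index = 2 → ¬ HasCommonEigenvector K r G)
    {X : M₂ k} (hX : X.trace = 0) (hfix : ∀ σ, tw r σ X = X) : X = 0 := by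
  have hconj : ∀ σ, r σ * X * r σ⁻¹ = ((r σ).det)⁻¹ • X := by
    intro σ
    have h := hfix σ
    rw [tw] at h
    rw [← h, smul_smul, inv_mul_cancel₀ (det_ne_zero r σ), one_smul, h]
  rcases eq_bot_or_forall_mem h2 K r hirr hirr2 (Submodule.span k {X})
    (fun Y hY => by
      obtain ⟨a, rfl⟩ := Submodule.mem_span_singleton.1 hY
      rw [Matrix.trace_smul, hX, smul_zero])
    (fun σ Y hY => by
      obtain ⟨a, rfl⟩ := Submodule.mem_span_singleton.1 hY
      rw [Matrix.mul_smul, Matrix.smul_mul, hconj σ, smul_smul]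
      exact Submodule.mem_span_singleton.2 ⟨_, rfl⟩) with h | h
  · have : X ∈ (⊥ : Submodule k (M₂ k)) := by
      rw [← h]; exact Submodule.mem_span_singleton_self X
    exact (Submodule.mem_bot k).1 this
  · exfalso
    obtain ⟨a, ha⟩ := Submodule.mem_span_singleton.1
      (h !![0, 1; 0, 0] (by simp [Matrix.trace_fin_two]))
    obtain ⟨b, hb⟩ := Submodule.mem_span_singleton.1
      (h !![0, 0; 1, 0] (by simp [Matrix.trace_fin_two]))
    have h1 := congrFun (congrFun ha 1) 0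
    have h3 := congrFun (congrFun ha 0) 1
    have h4 := congrFun (congrFun hb 1) 0
    simp at h1 h3 h4
    rcases h1 with h1 | h1
    · rw [h1, zero_mul] at h3
      exact zero_ne_one h3
    · rw [h1, mul_zero] at h4
      exact zero_ne_one h4

variable {r}

/-- A cocycle vanishing on the scalar elements of `E` (with `Γ/E` cyclic) vanishes on every element
with scalar image of determinant one. -/
theorem apply_eq_zero_of_scalar (h2 : (2 : k) ≠ 0) (K : Type*) [Field K] [Algebra k K]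
    [IsAlgClosed K] (hirr : ¬ HasCommonEigenvector K r ⊤)
    (hirr2 : ∀ G : Subgroup Γ, G.index = 2 → ¬ HasCommonEigenvector K r G)
    (E : Subgroup Γ) [E.Normal] (hcyc : ∃ γ₀ : Γ, ∀ γ : Γ, ∃ j : ℤ, γ₀ ^ j * γ ∈ E)
    {ψ : Γ → M₂ k} (hψ : IsCocycle r ψ)
    (hψ0 : ∀ τ ∈ E, (∃ c : k, r τ = c • (1 : M₂ k)) → ψ τ = 0)
    {σ : Γ} {c : k} (hσ : r σ = c • (1 : M₂ k)) (hσdet : (r σ).det = 1) : ψ σ = 0 := by
  apply eq_zero_of_tw_fixed r h2 K hirr hirr2 (hψ.trace_eq σ)
  intro g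
  set κ := σ * g * σ⁻¹ * g⁻¹ with hκ
  have hκE : κ ∈ E := commutator_mem_of_cyclic E hcyc σ g
  have hcomm : r σ * r g = r g * r σ := by
    rw [hσ, Matrix.smul_mul, Matrix.mul_smul, one_mul, mul_one]
  have hrκ : r κ = 1 := by
    rw [hκ, map_mul, map_mul, map_mul, hcomm, mul_assoc (r g), rep_mul_inv, mul_one, rep_mul_inv]
  have hψκ : ψ κ = 0 := hψ0 κ hκE ⟨1, by rw [hrκ, one_smul]⟩
  have htwκ : ∀ X, tw r κ X = X := fun X =>
    tw_of_scalar r (by rw [hrκ, Matrix.det_one]) (c := 1) (by rw [hrκ, one_smul]) X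
  have htwσ : ∀ X, tw r σ X = X := fun X => tw_of_scalar r hσdet hσ X
  have e : σ * g = κ * (g * σ) := by rw [hκ]; group
  have h1 : ψ (σ * g) = ψ σ + ψ g := by rw [hψ.map_mul, htwσ]
  have h3 : ψ (σ * g) = ψ g + tw r g (ψ σ) := by
    rw [e, hψ.map_mul, hψκ, zero_add, htwκ, hψ.map_mul]
  rw [h1] at h3
  have h4 : ψ σ + ψ g = tw r g (ψ σ) + ψ g := by rw [h3, add_comm]
  exact (add_right_cancel h4).symm

/-- Hence `ψ σ` depends only on `r σ`. -/
theorem apply_eq_of_rep_eq (h2 : (2 : k) ≠ 0) (K : Type*) [Field K] [Algebra k K]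
    [IsAlgClosed K] (hirr : ¬ HasCommonEigenvector K r ⊤)
    (hirr2 : ∀ G : Subgroup Γ, G.index = 2 → ¬ HasCommonEigenvector K r G)
    (E : Subgroup Γ) [E.Normal] (hcyc : ∃ γ₀ : Γ, ∀ γ : Γ, ∃ j : ℤ, γ₀ ^ j * γ ∈ E)
    {ψ : Γ → M₂ k} (hψ : IsCocycle r ψ)
    (hψ0 : ∀ τ ∈ E, (∃ c : k, r τ = c • (1 : M₂ k)) → ψ τ = 0)
    {σ σ' : Γ} (h : r σ = r σ') : ψ σ = ψ σ' := by
  have h1 : r (σ⁻¹ * σ') = 1 := by
    rw [map_mul, ← h, rep_inv_mul]
  have h0 : ψ (σ⁻¹ * σ') = 0 :=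
    apply_eq_zero_of_scalar h2 K hirr hirr2 E hcyc hψ hψ0 (σ := σ⁻¹ * σ') (c := 1)
      (by rw [h1, one_smul]) (by rw [h1, Matrix.det_one])
  have e : σ' = σ * (σ⁻¹ * σ') := by group
  rw [e, hψ.map_mul, h0, tw_zero, add_zero]

variable (r) in
/-- The finite-group input (c'), in representation form: every twisted cocycle for `r` which
factors through the image of `r` is a coboundary. -/
def FiniteCohInput : Prop :=
  ∀ ψ : Γ → M₂ k, IsCocycle r ψ → (∀ σ σ' : Γ, r σ = r σ' → ψ σ = ψ σ') → IsCoboundary r ψ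

/-- **The (c)-adapter, abstract form.** -/
theorem isCoboundary_of_finiteCohInput (h2 : (2 : k) ≠ 0) (K : Type*) [Field K] [Algebra k K]
    [IsAlgClosed K] (hirr : ¬ HasCommonEigenvector K r ⊤)
    (hirr2 : ∀ G : Subgroup Γ, G.index = 2 → ¬ HasCommonEigenvector K r G)
    (E : Subgroup Γ) [E.Normal] (hcyc : ∃ γ₀ : Γ, ∀ γ : Γ, ∃ j : ℤ, γ₀ ^ j * γ ∈ E)
    (hfin : FiniteCohInput r) {ψ : Γ → M₂ k} (hψ : IsCocycle r ψ)
    (hψ0 : ∀ τ ∈ E, (∃ c : k, r τ = c • (1 : M₂ k)) → ψ τ = 0) : IsCoboundary r ψ :=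
  hfin ψ hψ fun _ _ h => apply_eq_of_rep_eq h2 K hirr hirr2 E hcyc hψ hψ0 h

end Abstract

/-! ### The Galois side: `Detect76.CohInput` -/

section Galois

variable (p : ℕ) [Fact p.Prime] {k : Type} [Field k] (ρbar : ResidualGaloisRep k)

local notation "GQ" => (AlgebraicClosure ℚ ≃ₐ[ℚ] AlgebraicClosure ℚ)

/-- **The (c)-adapter.** The hypothesis `CohInput` of `Detect76.detection` follows from the
finite-group statement `FiniteCohInput` for the matrix representation of `ρbar`. -/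
theorem cohInput_of_finiteCohInput (hp2 : p ≠ 2) (h2 : (2 : k) ≠ 0)
    (habs : ρbar.IsAbsolutelyIrreducible)
    (hTW : ∀ (K : Type) [Field K] [Algebra k K] (G : Subgroup GQ), G.index = 2 →
      ∀ V : Submodule K (ρbar.baseChange K).V,
        (∀ σ ∈ G, ∀ x ∈ V, (ρbar.baseChange K).ρ σ x ∈ V) → V = ⊥ ∨ V = ⊤)
    (b : Module.Basis (Fin 2) k ρbar.V) (hfin : FiniteCohInput (matRep ρbar b)) :
    Detect76.CohInput p ρbar b := by
  intro n ψ hψ _ hψ0
  exact isCoboundary_of_finiteCohInput h2 (AlgebraicClosure k)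
    (not_hasCommonEigenvector_top b habs)
    (fun G hG => not_hasCommonEigenvector_of_index_two b hTW G hG)
    (fixRoots (p ^ (n + 1))) (exists_generator_mod_fixRoots p hp2 (n + 1) (Nat.succ_ne_zero n))
    hfin hψ hψ0

end Galois

end Fermat.Agent.TW.Primes.CohAdapter95
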