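/-
Programme TW (S56), WP8, the (c)-ADAPTER (helper96): reduction of helper76's group-theoretic input
`Detect76.CohInput` to a vanishing statement for the FINITE image `G = r(G_ℚ) ≤ GL₂(k)`.

Abstract setting: `r : Γ →* M₂(k)`, `N` = trace-zero matrices with the twisted adjoint action
`Sigma76.tw r` (`σ · X = det(r σ) • r σ X (r σ)⁻¹`), `E ≤ Γ` with `Γ/E` abelian and `det r = 1` on
`E`, `ψ` a cocycle vanishing on the elements of `E` with scalar image.

* `eq_zero_of_tw_invariant` : `N^Γ = 0` (from `AdIrr76.stable_line`);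
* `eq_zero_on_scalars`      : `ψ` vanishes on ALL elements with scalar image of determinant one
  (in particular on `ker r`): for such `w` and any `g`, `g w g⁻¹ w⁻¹ ∈ E` has trivial image, so
  `tw r g (ψ w) = ψ (g w g⁻¹) = ψ w`;
* `isCoboundary_of_finiteCoh` : hence `ψ` descends to `G = r.range`, and `FiniteCoh r` (every
  trace-zero twisted cocycle of the finite group `G` is a coboundary) makes `ψ` a coboundary;
* `cohInput_of_finiteCoh`   : `FiniteCoh (matRep ρbar b) → Detect76.CohInput p ρbar b` under the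
  hypotheses of S56.
-/
import Mathlib
import Fermat.Agent.TW.Primes.Detect76

set_option autoImplicit false

namespace Fermat.Agent.TW.Primes.CohAdapter96

open Matrix
open Fermat.Agent.TW.Primes.AdIrr76 Fermat.Agent.TW.Primes.Sigma76
  Fermat.Agent.TW.Primes.GQBridge76 Fermat.Agent.TW.Primes.Detect76

local notation "M₂" => Matrix (Fin 2) (Fin 2)

/-! ### Abstract part -/

section Abstract

variable {k : Type*} [Field k] {Γ : Type*} [Group Γ] (r : Γ →* M₂ k)

/-- The twisted adjoint representation has no invariants. -/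
theorem eq_zero_of_tw_invariant (h2 : (2 : k) ≠ 0) (K : Type*) [Field K] [Algebra k K]
    [IsAlgClosed K] (hirr : ¬ HasCommonEigenvector K r ⊤)
    (hirr2 : ∀ G : Subgroup Γ, G.index = 2 → ¬ HasCommonEigenvector K r G)
    {X : M₂ k} (htr : X.trace = 0) (hinv : ∀ σ, tw r σ X = X) : X = 0 := by
  by_contra hX
  have hst : ∀ σ, ∃ c : k, r σ * X = c • (X * r σ) := by
    intro σ
    refine ⟨((r σ).det)⁻¹, ?_⟩
    have h1 := hinv σ
    rw [tw] at h1
    have h3 : (r σ).det • (r σ * X) = X * r σ := by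
      calc (r σ).det • (r σ * X) = ((r σ).det • (r σ * X * r σ⁻¹)) * r σ := by
            rw [Matrix.smul_mul, mul_assoc (r σ * X), rep_inv_mul, mul_one]
        _ = X * r σ := by rw [h1]
    rw [← h3, smul_smul, inv_mul_cancel₀ (det_ne_zero r σ), one_smul]
  rcases stable_line h2 K r hX htr hst with h | ⟨G, hG, h⟩
  · exact hirr h
  · exact hirr2 G hG h

variable {r}

/-- For `w` acting trivially, `ψ (g w g⁻¹) = g · ψ w`. -/
theorem map_conj_of_tw_eq {ψ : Γ → M₂ k} (hψ : IsCocycle r ψ) (g w : Γ)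
    (hw : ∀ X, tw r w X = X) : ψ (g * w * g⁻¹) = tw r g (ψ w) := by
  rw [mul_assoc, hψ.map_mul, hψ.map_mul, hw, tw_add, add_comm (tw r g (ψ w)), ← add_assoc,
    hψ.map_inv, add_neg_cancel, zero_add]

/-- A cocycle vanishing on the elements of `E` with scalar image vanishes on all elements with
scalar image of determinant one, if `Γ / E` is abelian and `det r = 1` on `E`. -/
theorem eq_zero_on_scalars (h2 : (2 : k) ≠ 0) (K : Type*) [Field K] [Algebra k K]
    [IsAlgClosed K] (hirr : ¬ HasCommonEigenvector K r ⊤)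
    (hirr2 : ∀ G : Subgroup Γ, G.index = 2 → ¬ HasCommonEigenvector K r G)
    (E : Subgroup Γ) (hcomm : ∀ g w : Γ, g * w * g⁻¹ * w⁻¹ ∈ E)
    {ψ : Γ → M₂ k} (hψ : IsCocycle r ψ)
    (hvan : ∀ τ ∈ E, (∃ c : k, r τ = c • (1 : M₂ k)) → ψ τ = 0)
    {w : Γ} {c : k} (hc : r w = c • (1 : M₂ k)) (hdet : (r w).det = 1) : ψ w = 0 := by
  have hw : ∀ X, tw r w X = X := tw_of_scalar r hdet hc
  apply eq_zero_of_tw_invariant r h2 K hirr hirr2 (hψ.trace_eq w)
  intro g
  -- the commutator has trivial image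
  set u := g * w * g⁻¹ * w⁻¹ with hu
  have hru : r u = 1 := by
    have hwi : r w * r w⁻¹ = 1 := rep_mul_inv r w
    rw [hc, Matrix.smul_mul, one_mul] at hwi
    rw [hu, map_mul, map_mul, map_mul, hc, Matrix.mul_smul, Matrix.smul_mul, mul_one,
      rep_mul_inv, Matrix.smul_mul, one_mul]
    exact hwi
  have hψu : ψ u = 0 := hvan u (hcomm g w) ⟨1, by rw [hru, one_smul]⟩
  have htwu : ∀ X, tw r u X = X := by
    intro X
    rw [tw, hru, Matrix.det_one, one_smul, one_mul]
    have : r u⁻¹ = 1 := by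
      have := rep_mul_inv r u
      rwa [hru, one_mul] at this
    rw [this, mul_one]
  have e : g * w * g⁻¹ = u * w := by rw [hu]; group
  rw [← map_conj_of_tw_eq hψ g w hw, e, hψ.map_mul, hψu, htwu, zero_add]

end Abstract

/-! ### Descent to the finite image -/

section Descent

variable {k : Type*} [Field k] {Γ : Type*} [Group Γ] (r : Γ →* M₂ k)

/-- `r` as a homomorphism into `GL₂(k)`. -/
noncomputable def toGL : Γ →* GL (Fin 2) k := r.toHomUnits

theorem coe_toGL (σ : Γ) : ((toGL r σ : GL (Fin 2) k) : M₂ k) = r σ := rfl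

theorem coe_toGL_inv (σ : Γ) : (((toGL r σ)⁻¹ : GL (Fin 2) k) : M₂ k) = r σ⁻¹ := by
  rw [← map_inv]
  rfl

/-- **The finite-group input**: every trace-zero cocycle of `G = r(Γ) ≤ GL₂(k)` for the twisted
adjoint action `x · Y = det x • x Y x⁻¹` is a coboundary. -/
def FiniteCoh : Prop :=
  ∀ ψ' : ↥(toGL r).range → M₂ k, (∀ x, (ψ' x).trace = 0) →
    (∀ x y : ↥(toGL r).range, ψ' (x * y) = ψ' x +
      ((x : GL (Fin 2) k) : M₂ k).det •
        (((x : GL (Fin 2) k) : M₂ k) * ψ' y * (((x : GL (Fin 2) k)⁻¹ : GL (Fin 2) k) : M₂ k))) →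
    ∃ Y : M₂ k, Y.trace = 0 ∧ ∀ x : ↥(toGL r).range, ψ' x =
      ((x : GL (Fin 2) k) : M₂ k).det •
        (((x : GL (Fin 2) k) : M₂ k) * Y * (((x : GL (Fin 2) k)⁻¹ : GL (Fin 2) k) : M₂ k)) - Y

variable {r}

/-- A cocycle vanishing on `ker r` is a coboundary, given `FiniteCoh r`. -/
theorem isCoboundary_of_finiteCoh (hF : FiniteCoh r) {ψ : Γ → M₂ k} (hψ : IsCocycle r ψ)
    (hker : ∀ w, r w = 1 → ψ w = 0) : IsCoboundary r ψ := by
  classical
  -- `ψ` only depends on the image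
  have hdep : ∀ g h : Γ, r g = r h → ψ g = ψ h := by
    intro g h hgh
    have e : h = g * (g⁻¹ * h) := by group
    have h1 : r (g⁻¹ * h) = 1 := by
      rw [map_mul, ← hgh, rep_inv_mul]
    rw [e, hψ.map_mul, hker _ h1, tw_zero, add_zero]
  let pre : ↥(toGL r).range → Γ := fun x => x.2.choose
  have hpre : ∀ x : ↥(toGL r).range, toGL r (pre x) = x := fun x => x.2.choose_spec
  have hpre' : ∀ x : ↥(toGL r).range, r (pre x) = ((x : GL (Fin 2) k) : M₂ k) := fun x => by
    rw [← coe_toGL, hpre]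
  have hpreinv : ∀ x : ↥(toGL r).range,
      r (pre x)⁻¹ = (((x : GL (Fin 2) k)⁻¹ : GL (Fin 2) k) : M₂ k) := fun x => by
    rw [← coe_toGL_inv, hpre]
  let ψ' : ↥(toGL r).range → M₂ k := fun x => ψ (pre x)
  have hψ'g : ∀ g : Γ, ψ' ⟨toGL r g, g, rfl⟩ = ψ g := fun g => by
    apply hdep
    rw [hpre']
    rfl
  obtain ⟨Y, hYtr, hY⟩ := hF ψ' (fun x => hψ.trace_eq _) (by
    intro x y
    have h1 : ψ' (x * y) = ψ (pre x * pre y) := by
      apply hdep
      rw [hpre', map_mul, hpre', hpre']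
      rfl
    rw [h1, hψ.map_mul, tw, hpre', hpreinv])
  refine ⟨Y, hYtr, fun σ => ?_⟩
  rw [← hψ'g σ, hY, tw]
  rfl

end Descent

/-! ### The adapter for `G_ℚ` -/

section GQ

open Fermat.Agent.TW.Spec.Defs52

variable (p : ℕ) [Fact p.Prime] {k : Type} [Field k] (ρbar : ResidualGaloisRep k)

theorem commutator_mem_fixRoots (n : ℕ) (g w : GQ) :
    g * w * g⁻¹ * w⁻¹ ∈ fixRoots (p ^ (n + 1)) := by
  apply ker_cycloMod_le p (n + 1) (Nat.succ_ne_zero n)
  rw [MonoidHom.mem_ker, map_mul, map_mul, map_mul, map_inv, map_inv]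
  rw [mul_comm (cycloMod p (n + 1) g), mul_assoc, mul_assoc, mul_inv_cancel_left,
    mul_inv_cancel]

/-- **The (c)-adapter.** -/
theorem cohInput_of_finiteCoh (hp2 : p ≠ 2) (habs : ρbar.IsAbsolutelyIrreducible)
    (hdet : (GaloisRepAdic.ofResidualGaloisRep ρbar).DetIsCyclotomic p)
    (hTW : ∀ (K : Type) [Field K] [Algebra k K] (G : Subgroup GQ), G.index = 2 →
      ∀ V : Submodule K (ρbar.baseChange K).V,
        (∀ σ ∈ G, ∀ x ∈ V, (ρbar.baseChange K).ρ σ x ∈ V) → V = ⊥ ∨ V = ⊤)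
    (b : Module.Basis (Fin 2) k ρbar.V) (hF : FiniteCoh (matRep ρbar b)) :
    CohInput p ρbar b := by
  intro n ψ hψ _ hvan
  have h2 : (2 : k) ≠ 0 := two_ne_zero_of_detIsCyclotomic p ρbar hp2 hdet
  apply isCoboundary_of_finiteCoh hF hψ
  intro w hw
  have hirr := not_hasCommonEigenvector_top b habs
  have hirr2 := not_hasCommonEigenvector_of_index_two b hTW
  exact eq_zero_on_scalars h2 (AlgebraicClosure k) hirr hirr2 (fixRoots (p ^ (n + 1)))
    (commutator_mem_fixRoots p n) hψ hvan (c := 1) (by rw [hw, one_smul])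
    (by rw [hw, Matrix.det_one])

end GQ

end Fermat.Agent.TW.Primes.CohAdapter96
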