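/-
Programme TW (S56), WP8 (c), second half of the adapter (helper96): the hypotheses of the
finite-group vanishing theorem for `G = matRep ρbar b (G_ℚ) ≤ GL₂(k)`, from the binders of S56:

* `isSquare_disc`          : `tr² - 4 det` is a square for every element (from `hsplit`);
* `not_exists_stable_line` : no line of `k²` is stable (from `habs`);
* `exists_apply_rootsOfUnity_pow` : for `a` prime to `p` there is `σ ∈ G_ℚ` with `σ μ = μ ^ a` on
  the `p`-th roots of unity (irreducibility of the cyclotomic polynomial);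
* `exists_det_eq_natCast`  : hence `det (matRep ρbar b σ) = a` for some `σ` (e.g. `a = 2`).
-/
import Mathlib
import Fermat.Agent.TW.Primes.CohAdapter96

set_option autoImplicit false

namespace Fermat.Agent.TW.Primes.CohHyps96

open Matrix Polynomial
open Fermat.Agent.TW.Primes.AdIrr76 Fermat.Agent.TW.Primes.Sigma76
  Fermat.Agent.TW.Primes.GQBridge76 Fermat.Agent.TW.Primes.Regular76
open Fermat.Agent.TW.Spec.Defs52

local notation "M₂" => Matrix (Fin 2) (Fin 2)
local notation "Qb" => AlgebraicClosure ℚ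

section Split

variable {k : Type*} [Field k]

/-- A `2 × 2` matrix with split characteristic polynomial has square discriminant. -/
theorem isSquare_disc_of_charpoly {g : M₂ k} {α β : k}
    (h : g.charpoly = (X - C α) * (X - C β)) : IsSquare (g.trace ^ 2 - 4 * g.det) := by
  have h0 := congrArg (Polynomial.eval 0) h
  have h1 := congrArg (Polynomial.eval 1) h
  rw [Matrix.charpoly_fin_two] at h0 h1
  simp only [eval_add, eval_sub, eval_mul, eval_pow, eval_X, eval_C] at h0 h1
  have hdet : g.det = α * β := by linear_combination h0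
  have ht : g.trace = α + β := by linear_combination h0 - h1
  exact ⟨α - β, by rw [ht, hdet]; ring⟩

end Split

section Hyps

variable {k : Type} [Field k] {ρbar : ResidualGaloisRep k} (b : Module.Basis (Fin 2) k ρbar.V)

theorem isSquare_disc
    (hsplit : ∀ σ : GQ, ∃ α β : k, LinearMap.charpoly (ρbar.ρ σ) = (X - C α) * (X - C β))
    (σ : GQ) : IsSquare ((matRep ρbar b σ).trace ^ 2 - 4 * (matRep ρbar b σ).det) := by
  obtain ⟨α, β, h⟩ := split_matRep b hsplit σ
  exact isSquare_disc_of_charpoly h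

/-- No line of `k²` is stable under the image of `ρbar`. -/
theorem not_exists_stable_line (habs : ρbar.IsAbsolutelyIrreducible) :
    ¬ ∃ v : Fin 2 → k, v ≠ 0 ∧ ∀ σ : GQ, ∃ c : k, matRep ρbar b σ *ᵥ v = c • v := by
  rintro ⟨v, hv, h⟩
  exact not_hasCommonEigenvector_top b habs
    (hasCommonEigenvector_of_base (matRep ρbar b) ⊤ hv fun σ _ => h σ)

end Hyps

section Cyclo

variable (p : ℕ) [hp : Fact p.Prime]

/-- For `a` prime to `p` some `σ ∈ G_ℚ` raises the `p`-th roots of unity to the power `a`. -/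
theorem exists_apply_rootsOfUnity_pow {a : ℕ} (ha : a.Coprime p) :
    ∃ σ : GQ, ∀ μ : Qb, μ ^ p = 1 → σ μ = μ ^ a := by
  obtain ⟨ζ, hζ⟩ := Fermat.Agent.ES.J.CycloChar8.exists_primitiveRoot p 1
  rw [pow_one] at hζ
  have hζa : IsPrimitiveRoot (ζ ^ a) p := hζ.pow_of_coprime a ha
  have hpos : 0 < p := hp.out.pos
  have hmin : minpoly ℚ ζ = minpoly ℚ (ζ ^ a) := by
    rw [← cyclotomic_eq_minpoly_rat hζ hpos, ← cyclotomic_eq_minpoly_rat hζa hpos]
  have halg : IsAlgebraic ℚ ζ := Algebra.IsAlgebraic.isAlgebraic ζ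
  have hev : Polynomial.aeval (ζ ^ a) (minpoly ℚ ζ) = 0 := by rw [hmin, minpoly.aeval]
  have hcl : IsAlgClosure ℚ Qb := ⟨inferInstance, inferInstance⟩
  have : Normal ℚ Qb := IsAlgClosure.normal ℚ Qb
  obtain ⟨σ, hσ⟩ := minpoly.exists_algEquiv_of_root' halg hev
  refine ⟨σ, fun μ hμ => ?_⟩
  obtain ⟨i, -, rfl⟩ := hζ.eq_pow_of_pow_eq_one hμ
  rw [map_pow, hσ, ← pow_mul, ← pow_mul, mul_comm]

variable {k : Type} [Field k] {ρbar : ResidualGaloisRep k} (b : Module.Basis (Fin 2) k ρbar.V)

/-- The determinant of `ρbar` takes every value `a` prime to `p`. -/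
theorem exists_det_eq_natCast
    (hdet : (GaloisRepAdic.ofResidualGaloisRep ρbar).DetIsCyclotomic p) {a : ℕ}
    (ha : a.Coprime p) : ∃ σ : GQ, (matRep ρbar b σ).det = (a : k) := by
  obtain ⟨σ, hσ⟩ := exists_apply_rootsOfUnity_pow p ha
  refine ⟨σ, det_eq_natCast_of_detIsCyclotomic b p hdet one_ne_zero fun μ hμ => ?_⟩
  rw [pow_one] at hμ
  exact hσ μ hμ

theorem exists_det_eq_two (hp2 : p ≠ 2)
    (hdet : (GaloisRepAdic.ofResidualGaloisRep ρbar).DetIsCyclotomic p) :
    ∃ σ : GQ, (matRep ρbar b σ).det = 2 := by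
  have ha : (2 : ℕ).Coprime p :=
    (Nat.coprime_primes Nat.prime_two hp.out).2 (fun h => hp2 h.symm)
  obtain ⟨σ, hσ⟩ := exists_det_eq_natCast p b hdet ha
  exact ⟨σ, by rw [hσ]; norm_num⟩

end Cyclo

end Fermat.Agent.TW.Primes.CohHyps96
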