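import Mathlib
import Fermat.Agent.TW.Dickson.Final78
import Fermat.Agent.TW.Primes.Sigma76

/-!
# WP8 (c): the twisted `H¹` vanishing in `Sigma76` vocabulary (helper78)

`isCoboundary_of_finite_field`: for a finite field `k` of odd characteristic `p`, a group `Γ`
(arbitrary), `r : Γ →* M₂(k)` with all eigenvalues in `k`, no common eigenvector over `k` and an
element of determinant `2`, every `Sigma76.IsCocycle r ψ` vanishing on `ker r` is a
`Sigma76.IsCoboundary r ψ`.  This is the statement (c) of WP8, deduced from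
`Dickson.Final78.twisted_h1_vanish_hom`.
-/

set_option autoImplicit false
set_option linter.unusedSectionVars false

namespace Fermat.Agent.TW.Primes.H1Sigma78

open Matrix Polynomial OnePoint
open Fermat.Agent.TW.Primes.AdIrr76 Fermat.Agent.TW.Primes.Sigma76

local notation "M₂" => Matrix (Fin 2) (Fin 2)

section LinAlg

variable {k : Type*} [Field k]

/-- If the characteristic polynomial of a `2 × 2` matrix splits, its discriminant is a square. -/
theorem isSquare_discr_of_charpoly (M : M₂ k) {α β : k}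
    (h : M.charpoly = (X - C α) * (X - C β)) : IsSquare M.discr := by
  have h1 := Matrix.charpoly_fin_two M
  rw [h] at h1
  have e0 := congrArg (fun q : k[X] => q.coeff 0) h1
  have e1 := congrArg (fun q : k[X] => q.coeff 1) h1
  simp only [sub_mul, mul_sub, coeff_sub, coeff_add, coeff_X_mul_zero, coeff_C_mul,
    coeff_X_zero, mul_zero, coeff_mul_C, sub_zero, coeff_X_pow, coeff_C_zero,
    coeff_X_mul, coeff_X_one, mul_one, coeff_C_succ, zero_sub] at e0 e1
  norm_num at e0 e1
  refine ⟨α - β, ?_⟩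
  rw [Matrix.discr_fin_two]
  linear_combination (M.trace + α + β) * e1 + 4 * e0

variable [DecidableEq k]

/-- A fixed point of `g` on the projective line gives an eigenvector. -/
theorem exists_eigen_of_smul_eq (x : OnePoint k) :
    ∃ v : Fin 2 → k, v ≠ 0 ∧ ∀ g : GL (Fin 2) k, g • x = x → ∃ c : k, g.val *ᵥ v = c • v := by
  cases x with
  | infty =>
    refine ⟨![1, 0], by simp, fun g hg => ?_⟩
    rw [smul_infty_eq_self_iff] at hg
    refine ⟨g 0 0, ?_⟩
    ext i
    fin_cases i
    · simp [Matrix.mulVec, dotProduct, Fin.sum_univ_two]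
    · simp [Matrix.mulVec, dotProduct, Fin.sum_univ_two]
      exact hg
  | coe z =>
    refine ⟨![z, 1], ?_, fun g hg => ?_⟩
    · intro h
      have := congrFun h 1
      simp at this
    rw [smul_some_eq_ite] at hg
    split_ifs at hg with h0
    · exact absurd hg (OnePoint.infty_ne_coe z)
    · have h1 := OnePoint.coe_injective hg
      rw [div_eq_iff h0] at h1
      refine ⟨g 1 0 * z + g 1 1, ?_⟩
      ext i
      fin_cases i
      · simp [Matrix.mulVec, dotProduct, Fin.sum_univ_two]
        linear_combination h1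
      · simp [Matrix.mulVec, dotProduct, Fin.sum_univ_two]

end LinAlg

section Main

variable {k : Type*} [Field k] [Finite k] (p : ℕ) [Fact p.Prime] [CharP k p]
variable {Γ : Type*} [Group Γ] (r : Γ →* M₂ k)

/-- The unit-valued form of `r`. -/
noncomputable def toGL : Γ →* GL (Fin 2) k := r.toHomUnits

@[simp] theorem toGL_val (σ : Γ) : ((toGL r σ : GL (Fin 2) k) : M₂ k) = r σ := rfl

theorem toGL_inv_val (σ : Γ) : (((toGL r σ)⁻¹ : GL (Fin 2) k) : M₂ k) = r σ⁻¹ := by
  rw [← map_inv]; rfl

theorem act_toGL (σ : Γ) (X : M₂ k) :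
    Fermat.Agent.TW.Dickson.Cohom78.act (toGL r σ) X = tw r σ X := by
  rw [Fermat.Agent.TW.Dickson.Cohom78.act, tw, toGL_inv_val, toGL_val]

/-- **WP8 (c)** in `Sigma76` vocabulary: cocycles vanishing on `ker r` are coboundaries. -/
theorem isCoboundary_of_finite_field (hp2 : p ≠ 2)
    (hsplit : ∀ σ, ∃ α β : k, (r σ).charpoly = (X - C α) * (X - C β))
    (hirrk : ¬ ∃ v : Fin 2 → k, v ≠ 0 ∧ ∀ σ, ∃ c : k, r σ *ᵥ v = c • v)
    (hdet2 : ∃ σ, (r σ).det = 2)
    {ψ : Γ → M₂ k} (hψ : IsCocycle r ψ) (hker : ∀ h, r h = 1 → ψ h = 0) :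
    IsCoboundary r ψ := by
  classical
  have : Fintype k := Fintype.ofFinite k
  have h1 := Fermat.Agent.TW.Dickson.Final78.twisted_h1_vanish_hom (k := k) p hp2 (toGL r)
    (fun σ => by
      obtain ⟨α, β, h⟩ := hsplit σ
      exact isSquare_discr_of_charpoly (r σ) h)
    (fun x => by
      by_contra hcon
      push Not at hcon
      obtain ⟨v, hv, h⟩ := exists_eigen_of_smul_eq x
      exact hirrk ⟨v, hv, fun σ => h (toGL r σ) (hcon σ)⟩)
    (by
      obtain ⟨σ, hσ⟩ := hdet2
      exact ⟨σ, hσ⟩)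
    ψ hψ.trace_eq
    (fun σ τ => by rw [act_toGL]; exact hψ.map_mul σ τ)
    (fun σ hσ => hker σ (by
      have := congrArg (fun g : GL (Fin 2) k => (g : M₂ k)) hσ
      simpa using this))
  obtain ⟨Y, hY, h⟩ := h1
  exact ⟨Y, hY, fun σ => by rw [h σ, act_toGL]⟩

/-- Variant for an injective `r` (no kernel condition needed). -/
theorem isCoboundary_of_injective (hp2 : p ≠ 2) (hinj : Function.Injective r)
    (hsplit : ∀ σ, ∃ α β : k, (r σ).charpoly = (X - C α) * (X - C β))
    (hirrk : ¬ ∃ v : Fin 2 → k, v ≠ 0 ∧ ∀ σ, ∃ c : k, r σ *ᵥ v = c • v)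
    (hdet2 : ∃ σ, (r σ).det = 2)
    {ψ : Γ → M₂ k} (hψ : IsCocycle r ψ) : IsCoboundary r ψ := by
  refine isCoboundary_of_finite_field p r hp2 hsplit hirrk hdet2 hψ (fun h hh => ?_)
  have h1 : h = 1 := hinj (by rw [hh, map_one])
  subst h1
  have h2 := hψ.map_mul 1 1
  rw [mul_one, tw_one] at h2
  exact left_eq_add.mp h2

end Main

end Fermat.Agent.TW.Primes.H1Sigma78
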