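/-
Program TW (S56), WP8 (helper76): `Contract52.TWPrimesExist p ρbar`, UNCONDITIONAL under the
hypotheses of S56 on `ρbar`.  One-line assembly of `FinBridge96.twPrimesExist_of_twisted`
(helper96; on top of `CohAdapter76`/`TWPrimes76`/`Detect76`) and helper78's
`Final78.twisted_h1_vanish`.
-/
import Mathlib
import Fermat.Agent.TW.Primes.FinBridge96
import Fermat.Agent.TW.Dickson.Final78

set_option autoImplicit false

namespace Fermat.Agent.TW.Primes.TWPrimesFinal76

open Polynomial ExtCitation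
open Fermat.Agent.TW.Spec.Defs52 Fermat.Agent.TW.Spec.Contract52
open Fermat.Agent.TW.Primes.FinBridge96

/-- helper78's theorem in the shape consumed by `FinBridge96`. -/
theorem twistedH1Vanish (p : ℕ) [Fact p.Prime] (k : Type) [Field k] [DecidableEq k] [Finite k]
    [CharP k p] (hp2 : p ≠ 2) : TwistedH1Vanish k := by
  intro G _ hs hi hd ψ htr hcoc
  have : Fintype k := Fintype.ofFinite k
  exact Fermat.Agent.TW.Dickson.Final78.twisted_h1_vanish p hp2 G hs hi hd ψ htr hcoc

/-- **WP8 (`Contract52.TWPrimesExist`), unconditional** under the hypotheses of S56 on `ρbar`. -/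
theorem twPrimesExist (p : ℕ) [Fact p.Prime] {k : Type} [Field k]
    [Algebra (ZMod p) k] (ρbar : ResidualGaloisRep k) [Finite k]
    (hp2 : p ≠ 2) (habs : ρbar.IsAbsolutelyIrreducible)
    (hdet : (GaloisRepAdic.ofResidualGaloisRep ρbar).DetIsCyclotomic p)
    (hsplit : ∀ σ : GQ, ∃ α β : k, LinearMap.charpoly (ρbar.ρ σ) = (X - C α) * (X - C β))
    (hTW : ∀ (K : Type) [Field K] [Algebra k K] (G : Subgroup GQ), G.index = 2 →
      ∀ V : Submodule K (ρbar.baseChange K).V,
        (∀ σ ∈ G, ∀ x ∈ V, (ρbar.baseChange K).ρ σ x ∈ V) → V = ⊥ ∨ V = ⊤) :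
    TWPrimesExist p ρbar := by
  classical
  have hchar : CharP k p := charP_of_injective_algebraMap (algebraMap (ZMod p) k).injective p
  exact twPrimesExist_of_twisted p ρbar (twistedH1Vanish p k hp2) hp2 habs hdet hsplit hTW

/-- The field `detects` of `Status52.OpenContracts`, unconditional under the hypotheses of S56. -/
theorem detects (p : ℕ) [Fact p.Prime] {k : Type} [Field k]
    [Algebra (ZMod p) k] (ρbar : ResidualGaloisRep k) [Finite k]
    (hp2 : p ≠ 2) (habs : ρbar.IsAbsolutelyIrreducible)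
    (hdet : (GaloisRepAdic.ofResidualGaloisRep ρbar).DetIsCyclotomic p)
    (hsplit : ∀ σ : GQ, ∃ α β : k, LinearMap.charpoly (ρbar.ρ σ) = (X - C α) * (X - C β))
    (hTW : ∀ (K : Type) [Field K] [Algebra k K] (G : Subgroup GQ), G.index = 2 →
      ∀ V : Submodule K (ρbar.baseChange K).V,
        (∀ σ ∈ G, ∀ x ∈ V, (ρbar.baseChange K).ρ σ x ∈ V) → V = ⊥ ∨ V = ⊤) :
    ∀ Smin' : Finset Nat.Primes, pPrime p ∈ Smin' →
      (∀ q : Nat.Primes, q ∉ Smin' → ρbar.IsUnramifiedAt q) →
        Fermat.Agent.TW.Primes.Greedy52.DetectsDual p ρbar Smin' := by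
  classical
  have hchar : CharP k p := charP_of_injective_algebraMap (algebraMap (ZMod p) k).injective p
  intro Smin' _ hunr
  exact Fermat.Agent.TW.Primes.TWPrimes76.detectsDual p ρbar hp2 habs hdet hsplit hTW
    (fun b => Fermat.Agent.TW.Primes.CohAdapter76.cohInput_of_finVanish p b
      (finVanish_of_twisted (twistedH1Vanish p k hp2)) hp2 habs hdet hsplit hTW) Smin' hunr

end Fermat.Agent.TW.Primes.TWPrimesFinal76
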