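/-
TW program, WP8: **Taylor–Wiles primes exist, unconditionally** (helper96).

The final plug: helper78's `Dickson.Final78.twisted_h1_vanish` (the twisted `H¹` of a finite
irreducible split subgroup of `GL₂(k)` containing an element of determinant `2` vanishes) is
`FinBridge96.TwistedH1Vanish k`; through `FinBridge96.finVanish_of_twisted` and helper76's
`CohAdapter76.twPrimesExist_of_finVanish` this proves `Contract52.TWPrimesExist p ρbar` from the
literal binders of S56.
-/
import Mathlib
import Fermat.Agent.TW.Primes.FinBridge96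
import Fermat.Agent.TW.Dickson.Final78

set_option autoImplicit false

namespace Fermat.Agent.TW.Primes.TWPrimesFinal96

open Matrix Polynomial
open Fermat.Agent.TW.Primes.FinBridge96 Fermat.Agent.TW.Primes.CohAdapter76

/-- helper78's theorem in the shape of `FinBridge96.TwistedH1Vanish`. -/
theorem twistedH1Vanish (p : ℕ) [Fact p.Prime] (k : Type) [Field k] [DecidableEq k] [Finite k]
    [CharP k p] (hp2 : p ≠ 2) : TwistedH1Vanish k := by
  intro G _ hs hi hd ψ htr hcoc
  let _ : Fintype k := Fintype.ofFinite k
  exact Fermat.Agent.TW.Dickson.Final78.twisted_h1_vanish p hp2 G hs hi hd ψ htr hcoc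

/-- helper76's finite-group statement (c′), unconditionally. -/
theorem finVanish (p : ℕ) [Fact p.Prime] (k : Type) [Field k] [Finite k] [CharP k p]
    (hp2 : p ≠ 2) : FinVanish k := by
  classical
  exact finVanish_of_twisted (twistedH1Vanish p k hp2)

section Final

open Fermat.Agent.TW.Spec.Defs52 Fermat.Agent.TW.Spec.Contract52

/-- **WP8 closed**: Taylor–Wiles primes exist (literal binders of S56). -/
theorem twPrimesExist (p : ℕ) [Fact p.Prime] {k : Type} [Field k]
    [Algebra (ZMod p) k] (ρbar : ResidualGaloisRep k) [Finite k]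
    (hp2 : p ≠ 2) (habs : ρbar.IsAbsolutelyIrreducible)
    (hdet : (GaloisRepAdic.ofResidualGaloisRep ρbar).DetIsCyclotomic p)
    (hsplit : ∀ σ : GQ, ∃ α β : k, LinearMap.charpoly (ρbar.ρ σ) = (X - C α) * (X - C β))
    (hTW : ∀ (K : Type) [Field K] [Algebra k K] (G : Subgroup GQ), G.index = 2 →
      ∀ V : Submodule K (ρbar.baseChange K).V,
        (∀ σ ∈ G, ∀ x ∈ V, (ρbar.baseChange K).ρ σ x ∈ V) → V = ⊥ ∨ V = ⊤) :
    TWPrimesExist p ρbar := by
  have : CharP k p := by
    have h := ZMod.charP p
    exact (algebraMap (ZMod p) k).charP_iff_charP p |>.mp h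
  exact twPrimesExist_of_finVanish p ρbar (finVanish p k hp2) hp2 habs hdet hsplit hTW

end Final

end Fermat.Agent.TW.Primes.TWPrimesFinal96
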